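import Fermat.Agent.TW.GrpRing

/-!
# The trace form of the group ring
-/

set_option autoImplicit false
set_option linter.unusedSectionVars false
set_option linter.style.haveILetI false

noncomputable section

namespace Fermat.Agent.Sel

open Fermat.Agent.TW

variable {O : Type} [CommRing O] {r : ℕ} {P : Fin r → ℕ} (hP : ∀ i, 0 < P i)

/-- the group -/
abbrev GA (P : Fin r → ℕ) : Type := ∀ i, ZMod (P i)

/-- to the group algebra -/
def toGA : GR O P →ₐ[O] AddMonoidAlgebra O (GA P) :=
  GR.lift (fun i => AddMonoidAlgebra.single (Pi.single i 1) 1) fun i => by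
    rw [AddMonoidAlgebra.single_pow, one_pow, ← Pi.single_smul, nsmul_eq_mul, mul_one,
      ZMod.natCast_self, Pi.single_zero]
    rfl

theorem toGA_δ (i : Fin r) : toGA (GR.δ O P i) = AddMonoidAlgebra.single (Pi.single i 1) 1 :=
  GR.lift_δ _ _ i

theorem δ_pow_val_add (i : Fin r) (h : 0 < P i) (a b : ZMod (P i)) :
    GR.δ O P i ^ (a + b).val = GR.δ O P i ^ a.val * GR.δ O P i ^ b.val := by
  haveI : NeZero (P i) := ⟨h.ne'⟩
  rw [ZMod.val_add, ← pow_add]
  conv_rhs => rw [← Nat.div_add_mod (a.val + b.val) (P i), pow_add, pow_mul, GR.δ_pow, one_pow,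
    one_mul]

/-- from the group algebra -/
def ofGA : AddMonoidAlgebra O (GA P) →ₐ[O] GR O P :=
  AddMonoidAlgebra.lift O (GR O P) (GA P)
    { toFun := fun d => ∏ i, GR.δ O P i ^ (d.toAdd i).val
      map_one' := Finset.prod_eq_one fun i _ => by
        rw [toAdd_one, Pi.zero_apply, ZMod.val_zero, pow_zero]
      map_mul' := fun a b => by
        rw [← Finset.prod_mul_distrib]
        refine Finset.prod_congr rfl fun i _ => ?_
        rw [toAdd_mul, Pi.add_apply, δ_pow_val_add i (hP i)] }

theorem ofGA_single (d : GA P) : ofGA (O := O) hP (AddMonoidAlgebra.single d 1) =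
    ∏ i, GR.δ O P i ^ (d i).val := by
  rw [ofGA, AddMonoidAlgebra.lift_single, one_smul]
  rfl

theorem ofGA_toGA (x : GR O P) : ofGA hP (toGA x) = x := by
  have h1 : (ofGA (O := O) hP).comp toGA = AlgHom.id O (GR O P) := by
    refine Ideal.Quotient.algHom_ext _ (MvPolynomial.algHom_ext fun i => ?_)
    change ofGA hP (toGA (GR.δ O P i)) = GR.δ O P i
    rw [toGA_δ, ofGA_single, Finset.prod_eq_single i]
    · rw [Pi.single_eq_same]
      haveI : NeZero (P i) := ⟨(hP i).ne'⟩
      rcases eq_or_ne (P i) 1 with h | h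
      · have h2 := GR.δ_pow (O := O) (P := P) i
        rw [h, pow_one] at h2
        rw [h2, one_pow]
      · haveI : Fact (1 < P i) := ⟨by have := hP i; omega⟩
        rw [ZMod.val_one, pow_one]
    · intro j _ hj
      rw [Pi.single_eq_of_ne hj, ZMod.val_zero, pow_zero]
    · intro h
      exact absurd (Finset.mem_univ i) h
  exact DFunLike.congr_fun h1 x

theorem toGA_ofGA (x : AddMonoidAlgebra O (GA P)) : toGA (ofGA hP x) = x := by
  have h1 : toGA.comp (ofGA (O := O) hP) = AlgHom.id O (AddMonoidAlgebra O (GA P)) := by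
    refine AddMonoidAlgebra.algHom_ext (fun d => ?_) (Subsingleton.elim _ _)
    change toGA (ofGA hP (AddMonoidAlgebra.single d 1)) = AddMonoidAlgebra.single d 1
    rw [ofGA_single, map_prod]
    have h2 : ∀ i, toGA (GR.δ O P i ^ (d i).val) =
        AddMonoidAlgebra.single (Pi.single i (d i) : GA P) (1 : O) := by
      intro i
      haveI : NeZero (P i) := ⟨(hP i).ne'⟩
      rw [map_pow, toGA_δ, AddMonoidAlgebra.single_pow, one_pow, ← Pi.single_smul, nsmul_eq_mul,
        mul_one, ZMod.natCast_zmod_val]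
    rw [Finset.prod_congr rfl fun i _ => h2 i]
    have h3 : ∀ s : Finset (Fin r), ∏ i ∈ s, AddMonoidAlgebra.single (Pi.single i (d i) : GA P) (1 : O) =
        AddMonoidAlgebra.single (∑ i ∈ s, (Pi.single i (d i) : GA P)) 1 := by
      intro s
      induction s using Finset.induction with
      | empty => rfl
      | insert i s hi ih =>
        rw [Finset.prod_insert hi, Finset.sum_insert hi, ih, AddMonoidAlgebra.single_mul_single,
          mul_one]
    rw [h3, Finset.univ_sum_single]
  exact DFunLike.congr_fun h1 x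

/-- the comparison with the group algebra -/
def eGA : GR O P ≃ₐ[O] AddMonoidAlgebra O (GA P) :=
  AlgEquiv.ofAlgHom toGA (ofGA hP) (AlgHom.ext (toGA_ofGA hP)) (AlgHom.ext (ofGA_toGA hP))

include hP in
theorem free_GR : Module.Free O (GR O P) :=
  Module.Free.of_equiv (eGA (O := O) hP).symm.toLinearEquiv

include hP in
theorem exists_trace : ∃ τ : GR O P →ₗ[O] O, ∀ lam : GR O P →ₗ[O] O, ∃ y, ∀ x,
    lam x = τ (x * y) := by
  haveI : ∀ i, NeZero (P i) := fun i => ⟨(hP i).ne'⟩
  haveI : Fintype (GA P) := inferInstance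
  let ev : AddMonoidAlgebra O (GA P) →ₗ[O] O :=
    (Finsupp.lapply 0) ∘ₗ (AddMonoidAlgebra.coeffLinearEquiv O).toLinearMap
  refine ⟨ev ∘ₗ (toGA (O := O) (P := P)).toLinearMap, fun lam => ?_⟩
  obtain ⟨y, hy⟩ : ∃ y : AddMonoidAlgebra O (GA P),
      ∀ b, y.coeff (-b) = lam (ofGA hP (AddMonoidAlgebra.single b 1)) := by
    refine ⟨AddMonoidAlgebra.ofCoeff (Finsupp.equivFunOnFinite.symm
      fun b => lam (ofGA hP (AddMonoidAlgebra.single (-b) 1))), fun b => ?_⟩
    rw [AddMonoidAlgebra.coeff_ofCoeff, Finsupp.equivFunOnFinite_symm_apply_apply, neg_neg]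
  refine ⟨ofGA hP y, fun x => ?_⟩
  change _ = (toGA (x * ofGA hP y)).coeff 0
  rw [map_mul, toGA_ofGA]
  obtain ⟨x, rfl⟩ : ∃ x', x = ofGA hP x' := ⟨toGA x, (ofGA_toGA hP x).symm⟩
  rw [toGA_ofGA]
  induction x using AddMonoidAlgebra.induction_linear with
  | zero => simp
  | add f g hf hg => rw [map_add, map_add, hf, hg, add_mul]; rfl
  | single d c =>
    have h1 : (AddMonoidAlgebra.single d c : AddMonoidAlgebra O (GA P)) =
        c • AddMonoidAlgebra.single d 1 := by
      rw [AddMonoidAlgebra.smul_single, smul_eq_mul, mul_one]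
    rw [h1, map_smul, map_smul, smul_mul_assoc, ← hy]
    change c * y.coeff (-d) = c * (AddMonoidAlgebra.single d 1 * y).coeff 0
    congr 1
    rw [AddMonoidAlgebra.coeff_single_mul_apply, one_mul, add_zero]

end Fermat.Agent.Sel
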