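import Fermat.Agent.Sel.Dual
import Fermat.Agent.Sel.GRTr
import Fermat.Agent.Patch.Lev

/-!
# From level data to the patching inequality
-/

set_option autoImplicit false
set_option linter.unusedSectionVars false
set_option linter.style.haveILetI false

noncomputable section

namespace Fermat.Agent.Sel

open Matrix IsLocalRing Fermat.Agent.TW Fermat.Agent.Patch

/-- The data at level `n`. -/
structure LevD (O : Type) [CommRing O] [IsLocalRing O] (ϖ : O) (p r t g e B n : ℕ) where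
  A : Type
  [crA : CommRing A]
  [lrA : IsLocalRing A]
  [nrA : IsNoetherianRing A]
  [algA : Algebra O A]
  [finA : Module.Finite O A]
  [lhA : IsLocalHom (algebraMap O A)]
  P : Fin r → ℕ
  hP : ∀ i, ∃ m, P i = p ^ m ∧ n ≤ m
  d : ℕ
  hd : 0 < d ∧ d ≤ B
  f : A →ₐ[O] Matrix (Fin d) (Fin d) (GR O P)
  resA : ∀ t : A, ∃ a : O, t - algebraMap O A a ∈ maximalIdeal A
  dia : ∀ i, ∃ a : A, f a = Matrix.scalar (Fin d) (GR.δ O P i)
  N : Fin t → Matrix (Fin 2) (Fin 2) A
  Ψ : Fin t → Matrix (Fin 2) (Fin 2) A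
  hN : ∀ j a b, N j a b ∈ maximalIdeal A
  hΨ : ∀ j a b, Ψ j a b ∈ maximalIdeal A
  trN : ∀ j, (N j).trace = 0
  sqN : ∀ j, N j * N j = 0
  hE2 : ∀ j (m : ℕ) (x : Fin d → GR O P), (∀ a b, ∃ y, f (N j a b) *ᵥ x = ϖ ^ m • y) →
    ∀ a b, ∃ y, f (Ψ j a b) *ᵥ x = ϖ ^ m • y
  hϖ : (algebraMap O A ϖ) ^ e ∈ Ideal.span {x | ∃ j a b, x = Ψ j a b}
  z : Fin g → A
  hz : ∀ i, z i ∈ maximalIdeal A
  hgen : maximalIdeal A ≤ Ideal.span {algebraMap O A ϖ} ⊔ Ideal.span (Set.range z) ⊔
    Ideal.span ({x | ∃ j a b, x = N j a b} ∪ {x | ∃ j a b, x = Ψ j a b}) ⊔ maximalIdeal A ^ 2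

section alg

variable {A : Type} [CommRing A] {N : Matrix (Fin 2) (Fin 2) A}

theorem entry_mul_mem (htr : N.trace = 0) (hsq : N * N = 0) (a b c d : Fin 2) :
    N a b * N c d ∈ Ideal.span {N 0 1, N 1 0} := by
  have h1 : N 1 1 = -N 0 0 := by
    rw [Matrix.trace_fin_two] at htr
    linear_combination htr
  have hb : N 0 1 ∈ Ideal.span {N 0 1, N 1 0} := Ideal.subset_span (by simp)
  have hc : N 1 0 ∈ Ideal.span {N 0 1, N 1 0} := Ideal.subset_span (by simp)
  have h2 : N 0 0 * N 0 0 = -(N 0 1 * N 1 0) := by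
    have h3 := congrFun (congrFun hsq 0) 0
    rw [Matrix.mul_apply, Fin.sum_univ_two] at h3
    change _ = (0 : A) at h3
    linear_combination h3
  have haa : N 0 0 * N 0 0 ∈ Ideal.span {N 0 1, N 1 0} := by
    rw [h2]
    exact neg_mem (Ideal.mul_mem_right _ _ hb)
  fin_cases a <;> fin_cases b
  · fin_cases c <;> fin_cases d
    · exact haa
    · exact Ideal.mul_mem_left _ _ hb
    · exact Ideal.mul_mem_left _ _ hc
    · change N 0 0 * N 1 1 ∈ _
      rw [h1, mul_neg]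
      exact neg_mem haa
  · exact Ideal.mul_mem_right _ _ hb
  · exact Ideal.mul_mem_right _ _ hc
  · change N 1 1 * N c d ∈ _
    rw [h1]
    fin_cases c <;> fin_cases d
    · change -N 0 0 * N 0 0 ∈ _
      rw [neg_mul]
      exact neg_mem haa
    · exact Ideal.mul_mem_left _ _ hb
    · exact Ideal.mul_mem_left _ _ hc
    · change -N 0 0 * N 1 1 ∈ _
      rw [h1, neg_mul_neg]
      exact haa

theorem exists_of_mem_pair {R : Type} [CommRing R] {κ : Type} [Fintype κ] [DecidableEq κ]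
    (f : A →+* Matrix κ κ R) {b c x : A} (hx : x ∈ Ideal.span {b, c}) (C : Matrix κ κ R) :
    ∃ C₁ C₂, f x * C = f b * C₁ + f c * C₂ := by
  obtain ⟨u, v, rfl⟩ := Ideal.mem_span_pair.1 hx
  refine ⟨f u * C, f v * C, ?_⟩
  rw [mul_comm u, mul_comm v, map_add, map_mul, map_mul, add_mul, mul_assoc, mul_assoc]

end alg

/-- the transposed homomorphism -/
def trHom {O A R : Type} [CommRing O] [CommRing A] [Algebra O A] [CommRing R] [Algebra O R]
    {κ : Type} [Fintype κ] [DecidableEq κ] (f : A →ₐ[O] Matrix κ κ R) :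
    A →ₐ[O] Matrix κ κ R where
  toFun a := (f a)ᵀ
  map_one' := by rw [map_one, transpose_one]
  map_mul' a b := by rw [mul_comm a b, map_mul, transpose_mul]
  map_zero' := by rw [map_zero, transpose_zero]
  map_add' a b := by rw [map_add, transpose_add]
  commutes' c := by
    rw [AlgHom.commutes]
    ext i j
    rw [transpose_apply, Matrix.algebraMap_matrix_apply, Matrix.algebraMap_matrix_apply]
    by_cases h : i = j
    · rw [if_pos h, if_pos h.symm]
    · rw [if_neg h, if_neg (Ne.symm h)]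

variable {O : Type} [CommRing O] [IsDomain O] [IsDiscreteValuationRing O]
  [IsAdicComplete (maximalIdeal O) O] [Finite (ResidueField O)] {ϖ : O}
  (hϖ0 : ϖ ≠ 0) (hϖ : maximalIdeal O = Ideal.span {ϖ}) {p : ℕ} [hp : Fact p.Prime]
  (hpO : (p : O) ∈ maximalIdeal O)

include hϖ0 hϖ in
theorem not_isUnit_pi : ¬ IsUnit ϖ := by
  have h1 : ϖ ∈ maximalIdeal O := by rw [hϖ]; exact Ideal.mem_span_singleton_self _
  exact (IsLocalRing.mem_maximalIdeal _).1 h1

include hϖ0 hϖ in
theorem dvd_pow_pi (b : O) (hb : b ≠ 0) : ∃ m : ℕ, b ∣ ϖ ^ m := by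
  have h1 : Irreducible ϖ := by
    rw [IsDiscreteValuationRing.irreducible_iff_uniformizer]
    exact hϖ
  obtain ⟨n, h⟩ := IsDiscreteValuationRing.associated_pow_irreducible hb h1
  exact ⟨n, h.dvd⟩

variable {r t g e B : ℕ}

include hϖ0 hϖ hpO in
theorem LevD.toPLev {n n' : ℕ} (hn : n ≤ n') (X : LevD O ϖ p r t g e B n') :
    Nonempty (PLev O ϖ p r (Fintype.card (Fin t × Fin 2)) g
      (Fintype.card (Fin t × Fin 2 × Fin 2 × Fin 2)) 2 e (Fin X.d) n) := by
  classical
  obtain @⟨A, crA, lrA, nrA, algA, finA, lhA, P, hP, d, hd, f, resA, dia, N, Ψ, hN, hΨ, trN, sqN,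
    hE2, hϖA, z, hz, hgen⟩ := X
  have hP' : ∀ i, ∃ m, P i = p ^ m := fun i => by
    obtain ⟨m, hm, -⟩ := hP i
    exact ⟨m, hm⟩
  have hP0 : ∀ i, 0 < P i := fun i => by
    obtain ⟨m, hm⟩ := hP' i
    rw [hm]
    exact pow_pos hp.out.pos m
  haveI : IsLocalRing (GR O P) := GR.isLocalRing hpO hP'
  haveI : IsNoetherianRing (GR O P) := GR.isNoetherianRing
  haveI : Module.Finite O (GR O P) := GR.finite hP0
  haveI : Module.Free O (GR O P) := free_GR hP0
  haveI : IsLocalHom (algebraMap O (GR O P)) := GR.isLocalHom hpO hP'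
  obtain ⟨τ, hτ⟩ := exists_trace (O := O) hP0
  let e₁ := Fintype.equivFin (Fin t × Fin 2)
  let e₂ := Fintype.equivFin (Fin t × Fin 2 × Fin 2 × Fin 2)
  let w : Fin t × Fin 2 → A := fun x => if x.2 = 0 then N x.1 0 1 else N x.1 1 0
  let φ : Fin t × Fin 2 × Fin 2 × Fin 2 → A := fun x =>
    if x.2.1 = 0 then N x.1 x.2.2.1 x.2.2.2 else Ψ x.1 x.2.2.1 x.2.2.2
  have hw : ∀ x, w x ∈ maximalIdeal A := by
    intro x
    simp only [w]
    split_ifs <;> exact hN _ _ _
  have hφ : ∀ x, φ x ∈ maximalIdeal A := by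
    intro x
    simp only [φ]
    split_ifs
    · exact hN _ _ _
    · exact hΨ _ _ _
  have hrange : Set.range φ = {x | ∃ j a b, x = N j a b} ∪ {x | ∃ j a b, x = Ψ j a b} := by
    ext y
    constructor
    · rintro ⟨x, rfl⟩
      simp only [φ]
      split_ifs
      · exact Or.inl ⟨_, _, _, rfl⟩
      · exact Or.inr ⟨_, _, _, rfl⟩
    · rintro (⟨j, a, b, rfl⟩ | ⟨j, a, b, rfl⟩)
      · exact ⟨(j, 0, a, b), by simp [φ]⟩
      · exact ⟨(j, 1, a, b), by simp [φ]⟩
  let F := trHom f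
  have hF : ∀ a, F a = (f a)ᵀ := fun a => rfl
  -- combining
  have hcomb : ∀ (j : Fin t) (x : A) (C : Matrix (Fin d) (Fin d) (GR O P)),
      x ∈ Ideal.span {N j 0 1, N j 1 0} → ∃ C' : Fin t × Fin 2 → Matrix (Fin d) (Fin d) (GR O P),
        F x * C = ∑ i, F (w i) * C' i := by
    intro j x C hx
    obtain ⟨C₁, C₂, hC⟩ := exists_of_mem_pair F.toRingHom hx C
    refine ⟨fun i => if i.1 = j then (if i.2 = 0 then C₁ else C₂) else 0, ?_⟩
    rw [Fintype.sum_prod_type, Finset.sum_eq_single j]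
    · rw [Fin.sum_univ_two]
      simpa [w] using hC
    · intro i _ hij
      refine Finset.sum_eq_zero fun l _ => ?_
      simp [hij]
    · intro h
      exact absurd (Finset.mem_univ j) h
  -- squares of the entries
  have hsq : ∀ x : Fin t × Fin 2 × Fin 2 × Fin 2,
      ∃ C : Fin t × Fin 2 → Matrix (Fin d) (Fin d) (GR O P), F (φ x ^ 2) = ∑ i, F (w i) * C i := by
    rintro ⟨j, s, a, b⟩
    by_cases hs : s = 0
    · obtain ⟨C, hC⟩ := hcomb j (N j a b * N j a b) 1 (entry_mul_mem (trN j) (sqN j) a b a b)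
      refine ⟨C, ?_⟩
      rw [← hC, mul_one, sq]
      simp [φ, hs]
    · have hφx : φ (j, s, a, b) = Ψ j a b := by simp [φ, hs]
      rw [hφx]
      obtain ⟨C, hC⟩ := dual_span hτ hϖ0 (not_isUnit_pi hϖ0 hϖ) (dvd_pow_pi hϖ0 hϖ)
        (fun x : Fin 2 × Fin 2 => f (N j x.1 x.2)) (f (Ψ j a b)) (fun m x hx =>
          hE2 j m x (fun a b => hx (a, b)) a b)
      have hC' : F (Ψ j a b) = ∑ i : Fin 2 × Fin 2, F (N j i.1 i.2) * C i := hC
      have h3 : F (Ψ j a b ^ 2) = ∑ i : Fin 2 × Fin 2, ∑ i' : Fin 2 × Fin 2,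
          F (N j i.1 i.2 * N j i'.1 i'.2) * (C i' * C i) := by
        rw [sq, map_mul]
        refine (congrArg (fun X => F (Ψ j a b) * X) hC').trans ?_
        rw [Finset.mul_sum]
        refine Finset.sum_congr rfl fun i _ => ?_
        have h4 : F (Ψ j a b) * (F (N j i.1 i.2) * C i) =
            F (N j i.1 i.2) * F (Ψ j a b) * C i := by
          rw [← mul_assoc, ← map_mul, ← map_mul, mul_comm (Ψ j a b)]
        rw [h4, hC', Finset.mul_sum, Finset.sum_mul]
        refine Finset.sum_congr rfl fun i' _ => ?_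
        rw [map_mul]
        simp only [mul_assoc]
      choose D hD using fun (i i' : Fin 2 × Fin 2) =>
        hcomb j (N j i.1 i.2 * N j i'.1 i'.2) (C i' * C i)
          (entry_mul_mem (trN j) (sqN j) i.1 i.2 i'.1 i'.2)
      refine ⟨fun l => ∑ i, ∑ i', D i i' l, ?_⟩
      rw [h3]
      have h5 : ∀ i i' : Fin 2 × Fin 2, F (N j i.1 i.2 * N j i'.1 i'.2) * (C i' * C i) =
          ∑ l, F (w l) * D i i' l := fun i i' => hD i i'
      simp only [h5, Finset.mul_sum]
      exact (Finset.sum_congr rfl fun i _ => Finset.sum_comm).trans Finset.sum_comm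
  refine ⟨{ A := A, D := GR O P, δ := fun i => GR.δ O P i, f := F, resA := resA, resD := ?_,
            δ1 := ?_, genD := ?_, univ := ?_, dia := ?_, w := fun i => w (e₁.symm i), z := z,
            φ := fun i => φ (e₂.symm i), hw := fun i => hw _, hz := hz, hφm := fun i => hφ _,
            hφ := ?_, hϖ := ?_, hgen := ?_ }⟩
  · exact fun t => GR.resD hpO hP' t
  · exact fun i => GR.δ1 hpO hP' i
  · exact GR.genD hpO hP'
  · exact fun B _ _ u hu => GR.univ (fun i => by
      obtain ⟨m, hm, hnm⟩ := hP i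
      exact ⟨m, hm, hn.trans hnm⟩) B u hu
  · intro i
    obtain ⟨a, ha⟩ := dia i
    refine ⟨a, ?_⟩
    rw [hF, ha]
    exact Matrix.diagonal_transpose _
  · intro l
    obtain ⟨C, hC⟩ := hsq (e₂.symm l)
    refine ⟨fun i => C (e₁.symm i), ?_⟩
    rw [hC]
    exact (Equiv.sum_comp e₁.symm fun i => F (w i) * C i).symm
  · have h1 : Set.range (fun i => φ (e₂.symm i)) = Set.range φ := e₂.symm.surjective.range_comp φ
    rw [h1, hrange]
    exact Ideal.span_mono Set.subset_union_right hϖA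
  · have h1 : Set.range (fun i => φ (e₂.symm i)) = Set.range φ := e₂.symm.surjective.range_comp φ
    rw [h1, hrange]
    exact hgen

include hϖ0 hϖ hpO in
/-- **The numerical inequality.** -/
theorem lev_le (X : ∀ n, Nonempty (LevD O ϖ p r t g e B n)) : r + 1 ≤ 2 * t + g := by
  classical
  -- pigeonhole
  replace X := fun n => (X n).some
  obtain ⟨d₀, hd₀⟩ : ∃ d₀, ∀ n, ∃ n', n ≤ n' ∧ (X n').d = d₀ := by
    by_contra hcon
    push Not at hcon
    choose n hn using hcon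
    let m := (Finset.range (B + 1)).sup n
    have h1 : (X m).d ≤ B := (X m).hd.2
    exact hn (X m).d m (Finset.le_sup (f := n) (Finset.mem_range.2 (by omega))) rfl
  have hd : 0 < d₀ := by
    obtain ⟨n', -, h⟩ := hd₀ 0
    rw [← h]
    exact (X n').hd.1
  haveI : Nonempty (Fin d₀) := ⟨⟨0, hd⟩⟩
  have hY : ∀ n, Nonempty (PLev O ϖ p r (Fintype.card (Fin t × Fin 2)) g
      (Fintype.card (Fin t × Fin 2 × Fin 2 × Fin 2)) 2 e (Fin d₀) n) := by
    intro n
    obtain ⟨n', hn, h⟩ := hd₀ n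
    subst h
    exact LevD.toPLev hϖ0 hϖ hpO hn (X n')
  have h := patch_le hϖ0 hϖ hpO fun n => (hY n).some
  rw [Fintype.card_prod, Fintype.card_fin, Fintype.card_fin] at h
  omega

end Fermat.Agent.Sel
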