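import Fermat.Agent.Sel.QDat
import Fermat.Agent.Sel.Asm
import Fermat.Agent.TW.Final

/-!
# The level data from the Taylor–Wiles levels
-/

set_option autoImplicit false
set_option linter.unusedSectionVars false
set_option linter.style.haveILetI false

noncomputable section

namespace Fermat.Agent.Sel

open Matrix IsLocalRing Fermat.Agent.GalRep Fermat.Agent.TW Fermat.Agent.Places Fermat.Agent.Flat
open Fermat.Agent.Cheb Fermat.Agent.KumG

local notation "Ω" => AlgebraicClosure ℚ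

theorem finite_quot {O : Type} [CommRing O] [IsLocalRing O] [IsNoetherianRing O]
    [Finite (ResidueField O)] {p : ℕ} (hmO : maximalIdeal O = Ideal.span {(p : O)}) (m : ℕ) :
    Finite (O ⧸ Ideal.span {((p ^ m : ℕ) : O)}) := by
  haveI : Finite (O ⧸ maximalIdeal O) := inferInstanceAs (Finite (ResidueField O))
  have h1 : Ideal.span {((p ^ m : ℕ) : O)} = maximalIdeal O ^ m := by
    rw [hmO, Ideal.span_singleton_pow, Nat.cast_pow]
  rw [h1]
  exact Ideal.finite_quotient_pow (IsNoetherian.noetherian _) m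

theorem sup_aux {α : Type} [Lattice α] (a b c d : α) : a ⊔ (b ⊔ c ⊔ d) ≤ b ⊔ a ⊔ c ⊔ d := by
  refine sup_le ?_ (sup_le (sup_le ?_ ?_) ?_)
  · exact (le_sup_right.trans le_sup_left).trans le_sup_left
  · exact (le_sup_left.trans le_sup_left).trans le_sup_left
  · exact le_sup_right.trans le_sup_left
  · exact le_sup_right

theorem gen_aux {A : Type} [CommRing A] (c c' : A) (h : c' = c) (M Z U M2 : Ideal A)
    (h1 : M ≤ Z ⊔ (Ideal.span {c} ⊔ U ⊔ M2)) : M ≤ Ideal.span {c'} ⊔ Z ⊔ U ⊔ M2 := by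
  subst h
  exact h1.trans (sup_aux _ _ _ _)

variable {O : Type} [CommRing O] [IsDomain O] [IsDiscreteValuationRing O]
    [IsAdicComplete (maximalIdeal O) O] [CharZero O] {p : ℕ} [hp : Fact p.Prime]
    [Finite (ResidueField O)]
    {hpO : (p : O) ∈ maximalIdeal O} {ι : AlgebraicClosure ℚ →+* ℂ}
    [Invertible (2 : O)] {ρb : GQ →* M2 (ResidueField O)} {g₀ k₀ : GQ}
    {hgk : HG.IrrAt (fun g => (ρb g).trace) g₀ k₀}

set_option maxHeartbeats 1000000 in
theorem exists_LevD (hp2 : p ≠ 2) (hmO : maximalIdeal O = Ideal.span {(p : O)})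
    (hc : ρb complexConjugation = !![1, 0; 0, -1]) (hg₀ : ρb g₀ 0 1 = 1)
    [Algebra (ZMod p) (ResidueField O)]
    (hinv : ∀ X : sl (ResidueField O), (∀ σ, adR ρb σ X = X) → X = 0)
    {N : ℕ} [NeZero N] (hN3 : 3 ≤ N) (hpN : ¬ p ∣ N) {S : Set ℕ}
    {hNS : ∀ l, l.Prime → l ∣ N → l ∈ S} {θ : TS O S →ₐ[O] ResidueField O} {r : ℕ} {v : Fin r → ℕ}
    {A : Fin r → ValuationSubring (AlgebraicClosure ℚ)} {n B : ℕ}
    (X : TWLev hpO ι hgk hNS θ v A n B) {τ : ℕ} (q : Fin τ → ℕ)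
    (Aq : Fin τ → ValuationSubring Ω)
    (QD : letI := X.hH; letI := X.nt; letI := X.fr; ∀ j, ∃ N Ψ, QDat X.hg hgk (q j) (Aq j) N Ψ)
    {e : ℕ} (j₀ : Fin τ) (he : ¬ p ^ (e + 1) ∣ q j₀ - 1)
    {Sf : Finset ℕ} (hres : ResH p ρb Sf) (hNSf : ∀ l, l.Prime → l ∣ N → l ∈ Sf)
    {Ach : Sf → ValuationSubring Ω}
    {L : ∀ v : Sf, Submodule (ResidueField O) ((Ach v).decompositionSubgroup ℚ →
      sl (ResidueField O))}
    (hL : ∀ v, B1 (adR ρb) _ ≤ L v)
    [FiniteDimensional (ResidueField O) (SelZ (adR ρb) Sf Ach L)] {g : ℕ}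
    (hg : Module.finrank (ResidueField O) (SelZ (adR ρb) Sf Ach L) ≤ 3 + g)
    (hcase : ∀ w : Sf, Z1 (adR ρb) _ ≤ L w ∨
      ((Ach w).LiesOverPrime p ∧ ∀ c ∈ flatS ρb p (Ach w), c ∈ L w) ∨ ∃ j, Ach w = Aq j) :
    Nonempty (LevD O (p : O) p r τ g e B n) := by
  classical
  letI := X.hH
  letI := X.nt
  letI := X.fr
  choose Nn Ψ hQ using QD
  let I : Ideal X.hg.TT := Ideal.span {(p : X.hg.TT)} ⊔
    Ideal.span ({x | ∃ j a b, x = Nn j a b} ∪ {x | ∃ j a b, x = Ψ j a b}) ⊔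
    maximalIdeal X.hg.TT ^ 2
  have hpI : (p : X.hg.TT) ∈ I := (le_sup_left.trans le_sup_left : Ideal.span {(p : X.hg.TT)} ≤ I)
    (Ideal.mem_span_singleton_self _)
  have hNI : ∀ j a b, Nn j a b ∈ I := fun j a b =>
    (le_sup_right.trans le_sup_left : Ideal.span ({x | ∃ j a b, x = Nn j a b} ∪
      {x | ∃ j a b, x = Ψ j a b}) ≤ I) (Ideal.subset_span (Or.inl ⟨j, a, b, rfl⟩))
  have hΨI : ∀ j a b, Ψ j a b ∈ I := fun j a b =>
    (le_sup_right.trans le_sup_left : Ideal.span ({x | ∃ j a b, x = Nn j a b} ∪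
      {x | ∃ j a b, x = Ψ j a b}) ≤ I) (Ideal.subset_span (Or.inr ⟨j, a, b, rfl⟩))
  have hI1 : maximalIdeal X.hg.TT ^ 2 ≤ I := le_sup_right
  have hI2 : I ≤ maximalIdeal X.hg.TT := by
    refine sup_le (sup_le ?_ ?_) (Ideal.pow_le_self (by norm_num))
    · exact (Ideal.span_singleton_le_iff_mem _).2 X.hg.p_mem
    · refine Ideal.span_le.2 ?_
      rintro _ (⟨j, a, b, rfl⟩ | ⟨j, a, b, rfl⟩)
      · exact (hQ j).hN a b
      · exact (hQ j).hΨ a b
  have hred := redR_eq X.hg hgk hc hg₀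
  obtain ⟨z, hz1, hz2⟩ := exists_z X.hg hgk hmO hc hg₀ hres hNSf hinv hL hg hI1 hI2 hpI
    (fun D hD w => by
      rcases hcase w with h1 | ⟨h1, h2⟩ | ⟨j, hj⟩
      · apply h1
        refine ⟨fun σ τ => cS_mul X.hg hgk hD hred σ τ, ?_⟩
        obtain ⟨F, hF, h2⟩ := cD_lc X.hg hgk hD hpI
        exact ⟨F, hF, fun σ hσ => Subtype.ext (h2 σ hσ)⟩
      · apply h2
        refine ⟨⟨fun σ τ => cS_mul X.hg hgk hD hred σ τ, ?_⟩, h1,
          cD (X.hg.R hgk) X.hg.theta.toRingHom D, fun σ => rfl, ?_⟩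
        · obtain ⟨F, hF, h2⟩ := cD_lc X.hg hgk hD hpI
          exact ⟨F, hF, fun σ hσ => Subtype.ext (h2 σ hσ)⟩
        · have := flC_cD X.hg hgk hD hp2 hpN hN3 h1 (finite_quot hmO)
          rw [hred] at this
          exact this
      · have h3 : (fun σ : (Ach w).decompositionSubgroup ℚ => cS X.hg hgk hD σ) = 0 := by
          funext σ
          apply Subtype.ext
          refine (hQ j).van I D hD hpI (hNI j) (hΨI j) σ ?_
          rw [← hj]
          exact σ.2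
        rw [h3]
        exact Submodule.zero_mem _)
  have hsm : ∀ (c : O) (x : X.hg.MQ), algebraMap O X.hg.TT c • x = c • x := fun c x =>
    algebraMap_smul X.hg.TT c x
  have hE' : ∀ (a : X.hg.TT) (x : Fin X.d → GR O fun i => p ^ X.m i),
      X.f a *ᵥ x = X.E (a • X.E.symm x) := fun a x => by
    rw [X.hE, LinearEquiv.apply_symm_apply]
  have ep : algebraMap O X.hg.TT (p : O) = (p : X.hg.TT) := map_natCast _ _
  have f1 : ∀ t : X.hg.TT, ∃ a : O, t - algebraMap O X.hg.TT a ∈ maximalIdeal X.hg.TT := by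
    intro t
    obtain ⟨a, ha⟩ := IsLocalRing.residue_surjective (X.hg.theta t)
    refine ⟨a, ?_⟩
    rw [← X.hg.theta_eq_zero, map_sub, AlgHom.commutes, sub_eq_zero]
    exact ha.symm
  have f2 : ∀ j (m : ℕ) (x : Fin X.d → GR O fun i => p ^ X.m i),
      (∀ a b, ∃ y, X.f (Nn j a b) *ᵥ x = (p : O) ^ m • y) →
      ∀ a b, ∃ y, X.f (Ψ j a b) *ᵥ x = (p : O) ^ m • y := by
    intro j m x hx a b
    obtain ⟨y, hy⟩ := (hQ j).e2 m (X.E.symm x) (fun a b => by
      obtain ⟨y, hy⟩ := hx a b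
      rw [hE'] at hy
      refine ⟨X.E.symm y, X.E.injective ?_⟩
      rw [hy, map_smul, LinearEquiv.apply_symm_apply]) a b
    refine ⟨X.E y, ?_⟩
    rw [hE', hy, map_smul]
  have f3 : (algebraMap O X.hg.TT (p : O)) ^ e ∈ Ideal.span {x | ∃ j a b, x = Ψ j a b} := by
    rw [ep]
    have h1 := (hQ j₀).pw e he
    refine Ideal.span_mono ?_ h1
    rintro _ ⟨a, b, rfl⟩
    exact ⟨j₀, a, b, rfl⟩
  have f4 : maximalIdeal X.hg.TT ≤ Ideal.span {algebraMap O X.hg.TT (p : O)} ⊔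
      Ideal.span (Set.range z) ⊔
      Ideal.span ({x | ∃ j a b, x = Nn j a b} ∪ {x | ∃ j a b, x = Ψ j a b}) ⊔
      maximalIdeal X.hg.TT ^ 2 := gen_aux _ _ ep _ _ _ _ hz2
  exact ⟨{ A := X.hg.TT, P := fun i => p ^ X.m i, hP := fun i => ⟨X.m i, rfl, X.hm i⟩, d := X.d,
           hd := ⟨X.hd, by have := X.hdB; omega⟩, f := X.f, resA := f1, dia := fun i =>
             ⟨_, X.hf i⟩, N := Nn, Ψ := Ψ, hN := fun j => (hQ j).hN, hΨ := fun j => (hQ j).hΨ,
           trN := fun j => (hQ j).trN, sqN := fun j => (hQ j).sqN, hE2 := f2, hϖ := f3, z := z,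
           hz := hz1, hgen := f4 }⟩

end Fermat.Agent.Sel
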