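import Fermat.Agent.Sel.LevRep
import Fermat.Agent.TW.Tame
import Fermat.Agent.CFT.Unr2

/-!
# The local structure at the primes dividing the level exactly once
-/

set_option autoImplicit false
set_option linter.unusedSectionVars false
set_option linter.style.haveILetI false

noncomputable section

namespace Fermat.Agent.Sel

open Matrix IsLocalRing Fermat.Agent.GalRep Fermat.Agent.TW Fermat.Agent.Places Fermat.Agent.Flat
open Fermat.Agent.Cheb

local notation "Ω" => AlgebraicClosure ℚ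

section gen

theorem isOpen_of_lc {M : Type} [Monoid M] {f : GQ →* M}
    (hop : ∃ L : IntermediateField ℚ Ω, FiniteDimensional ℚ L ∧
      ∀ σ : GQ, (∀ x ∈ L, σ x = x) → f σ = 1) (P : M → Prop) : IsOpen {σ | P (f σ)} := by
  obtain ⟨L, hL, hf⟩ := hop
  rw [isOpen_iff_mem_nhds]
  intro σ hσ
  have h1 : (fun τ : GQ => σ⁻¹ * τ) ⁻¹' (L.fixingSubgroup : Set GQ) ∈ nhds σ := by
    refine (L.fixingSubgroup_isOpen.preimage (continuous_const_mul σ⁻¹)).mem_nhds ?_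
    simp
  refine Filter.mem_of_superset h1 fun τ hτ => ?_
  rw [Set.mem_preimage, SetLike.mem_coe, IntermediateField.mem_fixingSubgroup_iff] at hτ
  have h2 := hf _ hτ
  have h3 : f τ = f σ := by
    have h4 : τ = σ * (σ⁻¹ * τ) := by group
    rw [h4, map_mul, h2, mul_one]
  change P (f τ)
  rw [h3]
  exact hσ

theorem isClosed_of_lc {M : Type} [Monoid M] {f : GQ →* M}
    (hop : ∃ L : IntermediateField ℚ Ω, FiniteDimensional ℚ L ∧
      ∀ σ : GQ, (∀ x ∈ L, σ x = x) → f σ = 1) (P : M → Prop) : IsClosed {σ | P (f σ)} := by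
  rw [← isOpen_compl_iff]
  exact isOpen_of_lc hop fun m => ¬ P m

/-- a uniform generator of tame inertia -/
theorem exists_gen_all {v : ℕ} [hv : Fact v.Prime] {A : ValuationSubring Ω}
    (hA : A.LiesOverPrime v) {p : ℕ} (hp : p.Prime) (hpv : p ≠ v) {M : ℕ → Type}
    [∀ m, Monoid (M m)] (f : ∀ m, GQ →* M m)
    (hop : ∀ m, ∃ L : IntermediateField ℚ Ω, FiniteDimensional ℚ L ∧
      ∀ σ : GQ, (∀ x ∈ L, σ x = x) → f m σ = 1)
    (hpp : ∀ m, ∀ σ ∈ A.inertiaSubgroupIn ℚ, ∃ k : ℕ, f m σ ^ p ^ k = 1)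
    (hcomp : ∀ m σ τ, f (m + 1) σ = f (m + 1) τ → f m σ = f m τ) :
    ∃ σ₀ ∈ A.inertiaSubgroupIn ℚ, ∀ m, ∀ σ ∈ A.inertiaSubgroupIn ℚ, ∃ n : ℕ,
      f m σ = f m σ₀ ^ n := by
  let X : ℕ → Set GQ := fun m => {σ | σ ∈ A.inertiaSubgroupIn ℚ ∧
    ∀ τ ∈ A.inertiaSubgroupIn ℚ, ∃ n : ℕ, f m τ = f m σ ^ n}
  have hcl : ∀ m, IsClosed (X m) := by
    intro m
    have h1 : X m = (A.inertiaSubgroupIn ℚ : Set GQ) ∩
        {σ | ∀ τ ∈ A.inertiaSubgroupIn ℚ, ∃ n : ℕ, f m τ = f m σ ^ n} := rfl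
    rw [h1]
    exact (isClosed_inertia A).inter
      (isClosed_of_lc (hop m) fun x => ∀ τ ∈ A.inertiaSubgroupIn ℚ, ∃ n : ℕ, f m τ = x ^ n)
  obtain ⟨σ₀, hσ₀⟩ := IsCompact.nonempty_iInter_of_sequence_nonempty_isCompact_isClosed X
    (fun m σ hσ => ⟨hσ.1, fun τ hτ => by
      obtain ⟨n, hn⟩ := hσ.2 τ hτ
      refine ⟨n, ?_⟩
      rw [← map_pow] at hn ⊢
      exact hcomp m _ _ hn⟩)
    (fun m => by
      obtain ⟨σ₀, h1, h2⟩ := exists_gen_tame hp hpv (hop m) (hpp m) hA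
      exact ⟨σ₀, h1, h2⟩) (hcl 0).isCompact hcl
  rw [Set.mem_iInter] at hσ₀
  exact ⟨σ₀, (hσ₀ 0).1, fun m => (hσ₀ m).2⟩

end gen

section R

variable {T : Type} [CommRing T] [IsLocalRing T] [IsNoetherianRing T]
  {R : GQ →* Matrix (Fin 2) (Fin 2) T} {p v : ℕ} [hv : Fact v.Prime] (hp : p.Prime) (hpv : p ≠ v)
  (hpm : (p : T) ∈ maximalIdeal T)
  (hcont : ∀ n : ℕ, ∃ L : IntermediateField ℚ (AlgebraicClosure ℚ), FiniteDimensional ℚ L ∧
    ∀ σ : GQ, (∀ x ∈ L, σ x = x) → MI (Ideal.span {(p : T) ^ n}) (R σ - 1))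
  {A : ValuationSubring (AlgebraicClosure ℚ)} (hA : A.LiesOverPrime v)
  (hres : ∀ σ ∈ A.inertiaSubgroupIn ℚ, MI (maximalIdeal T) (R σ - 1))

include hp hpv hpm hcont hA hres in
/-- a uniform generator of inertia -/
theorem exists_gen_R : ∃ σ₀ ∈ A.inertiaSubgroupIn ℚ, ∀ m, ∀ σ ∈ A.inertiaSubgroupIn ℚ, ∃ n : ℕ,
    MI (Ideal.span {(p : T) ^ m}) (R σ - R (σ₀ ^ n)) := by
  obtain ⟨σ₀, h1, h2⟩ := exists_gen_all hA hp hpv
    (M := fun m => Matrix (Fin 2) (Fin 2) (T ⧸ Ideal.span {(p : T) ^ m}))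
    (fun m => Rq R (Ideal.span {(p : T) ^ m})) (fun m => by
      obtain ⟨L, hL, h⟩ := hcont m
      refine ⟨L, hL, fun σ hσ => ?_⟩
      have := Rq_eq_iff.2 (h σ hσ)
      rw [map_one] at this
      exact this) (fun m => Rq_pp hp hpm hcont hres m) (fun m σ τ h => by
      have h3 : MI (Ideal.span {(p : T) ^ (m + 1)}) (R σ - R τ) := Rq_eq_iff.1 h
      refine Rq_eq_iff.2 fun i j => ?_
      refine Ideal.span_singleton_le_span_singleton.2 (pow_dvd_pow _ (Nat.le_succ m)) (h3 i j))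
  refine ⟨σ₀, h1, fun m σ hσ => ?_⟩
  obtain ⟨n, hn⟩ := h2 m σ hσ
  refine ⟨n, ?_⟩
  rw [← map_pow] at hn
  exact Rq_eq_iff.1 hn

end R

/-- the decomposition group is generated by Frobenius and inertia -/
theorem exists_dec {v : ℕ} (hv : v.Prime) {A : ValuationSubring Ω} (hA : A.LiesOverPrime v)
    {Φ : GQ} (hΦ : A.IsFrobeniusAt Φ v) {g : GQ} (hg : g ∈ A.decompositionSubgroup ℚ)
    (E : IntermediateField ℚ Ω) [FiniteDimensional ℚ E] :
    ∃ i : ℕ, ∃ τ ∈ A.inertiaSubgroupIn ℚ, ∀ x ∈ E, g x = (Φ ^ i) (τ x) := by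
  let P : CFT.Pl := ⟨A, v, hv, hA⟩
  have hell : P.ell = v := P.ell_unique hv hA
  have h1 : CFT.IsFr P Φ := CFT.isFr_of (by rw [hell]; exact hΦ)
  have h2 : g ∈ CFT.Dec P := by rw [CFT.dec_eq]; exact hg
  exact CFT.exists_frob_inertia h1 h2 E

section der

variable {O T Y : Type} [CommRing O] [IsLocalRing O] [IsNoetherianRing O]
  [IsAdicComplete (maximalIdeal O) O] [CommRing T] [Algebra O T] [AddCommGroup Y] [Module O Y]
  [Module.Finite O Y] [Module.Free O Y] [Nontrivial Y] {p : ℕ} [hp : Fact p.Prime]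
  {hpO : (p : O) ∈ maximalIdeal O}
  {S : Set ℕ} {ρb : GQ →* M2 (ResidueField O)} {ψ : T →ₐ[O] Module.End O Y}
  {θ : T →ₐ[O] ResidueField O} {ρ : GQ →* Module.End O Y}
  (h : HG hpO S (fun g => (ρb g).trace) ψ θ ρ) [Invertible (2 : O)] {g₀ k₀ : GQ}
  (hgk : HG.IrrAt (fun g => (ρb g).trace) g₀ k₀)
  {I : Ideal h.TT} {D : h.TT → ResidueField O}
  (hD : IsDer h.theta.toRingHom (Set.range (algebraMap O h.TT)) I D)

include hD in
theorem cD_congr (hpI : (p : h.TT) ∈ I) {σ τ : GQ}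
    (hX : ∀ i j, (h.R hgk σ - h.R hgk τ) i j ∈ Ideal.span {(p : h.TT)}) :
    cD (h.R hgk) h.theta.toRingHom D σ = cD (h.R hgk) h.theta.toRingHom D τ := by
  have h1 : (h.R hgk σ).map D = (h.R hgk τ).map D := map_D_congr h hD hpI hX
  have h2 : redR (h.R hgk) h.theta.toRingHom σ = redR (h.R hgk) h.theta.toRingHom τ := by
    ext i j
    rw [redR_apply, redR_apply, Matrix.map_apply, Matrix.map_apply, ← sub_eq_zero, ← map_sub]
    exact h.theta_eq_zero.2 ((Ideal.span_singleton_le_iff_mem _).2 h.p_mem (hX i j))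
  have h3 : redR (h.R hgk) h.theta.toRingHom σ⁻¹ = redR (h.R hgk) h.theta.toRingHom τ⁻¹ := by
    calc redR (h.R hgk) h.theta.toRingHom σ⁻¹
        = redR (h.R hgk) h.theta.toRingHom σ⁻¹ * (redR (h.R hgk) h.theta.toRingHom τ *
          redR (h.R hgk) h.theta.toRingHom τ⁻¹) := by rw [redR_mul_inv, mul_one]
      _ = _ := by rw [← h2, ← mul_assoc, redR_inv_mul, one_mul]
  rw [cD, cD, h1, h3]

include hD in
theorem cD_mul_zero {σ τ : GQ} (h1 : cD (h.R hgk) h.theta.toRingHom D σ = 0)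
    (h2 : cD (h.R hgk) h.theta.toRingHom D τ = 0) :
    cD (h.R hgk) h.theta.toRingHom D (σ * τ) = 0 := by
  rw [cD_mul hD, h1, h2, mul_zero, zero_mul, add_zero]

include hD in
theorem cD_pow_zero {σ : GQ} (h1 : cD (h.R hgk) h.theta.toRingHom D σ = 0) (n : ℕ) :
    cD (h.R hgk) h.theta.toRingHom D (σ ^ n) = 0 := by
  induction n with
  | zero =>
    rw [pow_zero]
    exact cD_of_one h hgk hD (map_one _)
  | succ n ih =>
    rw [pow_succ]
    exact cD_mul_zero h hgk hD ih h1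

include hD in
/-- tangent cocycles vanishing at Frobenius and at a generator of inertia vanish on the
decomposition group -/
theorem cD_dec_zero (hpI : (p : h.TT) ∈ I) {v : ℕ} (hv : v.Prime) {A : ValuationSubring Ω}
    (hA : A.LiesOverPrime v) {Φ : GQ} (hΦ : A.IsFrobeniusAt Φ v) {σ₀ : GQ}
    (hgen : ∀ σ ∈ A.inertiaSubgroupIn ℚ, ∃ n : ℕ,
      MI (Ideal.span {(p : h.TT) ^ 1}) (h.R hgk σ - h.R hgk (σ₀ ^ n)))
    (h1 : cD (h.R hgk) h.theta.toRingHom D Φ = 0)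
    (h2 : cD (h.R hgk) h.theta.toRingHom D σ₀ = 0) {g : GQ}
    (hg : g ∈ A.decompositionSubgroup ℚ) : cD (h.R hgk) h.theta.toRingHom D g = 0 := by
  obtain ⟨L, hL, hL'⟩ := h.R_cont hgk 1
  obtain ⟨i, τ, hτ, hi⟩ := exists_dec hv hA hΦ hg L
  have e1 : cD (h.R hgk) h.theta.toRingHom D τ = 0 := by
    obtain ⟨n, hn⟩ := hgen τ hτ
    rw [cD_congr h hgk hD hpI (τ := σ₀ ^ n) fun i j => by
      have := hn i j
      rwa [pow_one] at this]
    exact cD_pow_zero h hgk hD h2 n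
  have e2 : cD (h.R hgk) h.theta.toRingHom D (Φ ^ i * τ) = 0 :=
    cD_mul_zero h hgk hD (cD_pow_zero h hgk hD h1 i) e1
  have e3 : g = (Φ ^ i * τ) * ((Φ ^ i * τ)⁻¹ * g) := by group
  have e4 : cD (h.R hgk) h.theta.toRingHom D ((Φ ^ i * τ)⁻¹ * g) = 0 := by
    rw [cD_congr h hgk hD hpI (τ := 1) fun i' j' => by
      have := hL' ((Φ ^ i * τ)⁻¹ * g) (fun x hx => by
        rw [AlgEquiv.mul_apply, hi x hx]
        exact (Φ ^ i * τ).symm_apply_apply x) i' j'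
      rw [map_one]
      rwa [pow_one] at this]
    exact cD_of_one h hgk hD (map_one _)
  rw [e3]
  exact cD_mul_zero h hgk hD e2 e4

end der

end Fermat.Agent.Sel
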