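import Fermat.Agent.Sel.LocC
import Fermat.Agent.Sel.LocQ

/-!
# The local conditions away from `p`
-/

set_option autoImplicit false
set_option linter.unusedSectionVars false
set_option linter.style.haveILetI false

noncomputable section

namespace Fermat.Agent.Sel

open Matrix Fermat.Agent.GalRep Fermat.Agent.Places Fermat.Agent.Flat

local notation "Ω" => AlgebraicClosure ℚ

local notation "𝒢" => (AlgebraicClosure ℚ) ≃ₐ[ℚ] (AlgebraicClosure ℚ)

variable {k : Type} [Field k] {ρ : 𝒢 →* M2 k}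

theorem sl_zero_of_frob {g Y : M2 k} (hX0 : Y.trace = 0) (h2 : g.det • (g * Y) = Y * g)
    (hd0 : g.det ≠ 0) (hd1 : g.det ≠ 1) (htr : g.trace ^ 2 ≠ (g.det + 1) ^ 2) : Y = 0 := by
  rw [Matrix.trace_fin_two] at hX0
  have h11 : Y 1 1 = -Y 0 0 := by linear_combination hX0
  set d := g.det with hd
  set τ := g.trace with hτ
  have hd' : d = g 0 0 * g 1 1 - g 0 1 * g 1 0 := Matrix.det_fin_two g
  have hτ' : τ = g 0 0 + g 1 1 := Matrix.trace_fin_two g
  have e00 := congrFun (congrFun h2 0) 0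
  have e01 := congrFun (congrFun h2 0) 1
  have e10 := congrFun (congrFun h2 1) 0
  have e11 := congrFun (congrFun h2 1) 1
  simp only [Matrix.smul_apply, smul_eq_mul, Matrix.mul_apply, Fin.sum_univ_two] at e00 e01 e10 e11
  rw [h11] at e01 e10 e11
  have htr0 : g 0 0 * Y 0 0 + g 0 1 * Y 1 0 + (g 1 0 * Y 0 1 - g 1 1 * Y 0 0) = 0 := by
    have h3 : (d - 1) * (g 0 0 * Y 0 0 + g 0 1 * Y 1 0 + (g 1 0 * Y 0 1 - g 1 1 * Y 0 0)) = 0 := by
      linear_combination e00 + e11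
    exact (mul_eq_zero.1 h3).resolve_left (sub_ne_zero.2 hd1)
  -- (1 + d) g Y = τ Y
  have f00 : (1 + d) * (g 0 0 * Y 0 0 + g 0 1 * Y 1 0) = τ * Y 0 0 := by
    rw [hτ']; linear_combination e00 + htr0
  have f01 : (1 + d) * (g 0 0 * Y 0 1 - g 0 1 * Y 0 0) = τ * Y 0 1 := by
    rw [hτ']; linear_combination e01
  have f10 : (1 + d) * (g 1 0 * Y 0 0 + g 1 1 * Y 1 0) = τ * Y 1 0 := by
    rw [hτ']; linear_combination e10
  have f11 : (1 + d) * (g 1 0 * Y 0 1 - g 1 1 * Y 0 0) = -(τ * Y 0 0) := by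
    rw [hτ']; linear_combination e11 + htr0
  have hdet : d * ((1 + d) ^ 2 - τ ^ 2) ≠ 0 := by
    refine mul_ne_zero hd0 (sub_ne_zero.2 fun h => htr ?_)
    rw [← h]; ring
  -- the adjugate of (1 + d) g - τ
  have k00 : d * ((1 + d) ^ 2 - τ ^ 2) * Y 0 0 = 0 := by
    have : ((1 + d) * g 1 1 - τ) * ((1 + d) * (g 0 0 * Y 0 0 + g 0 1 * Y 1 0) - τ * Y 0 0) -
        ((1 + d) * g 0 1) * ((1 + d) * (g 1 0 * Y 0 0 + g 1 1 * Y 1 0) - τ * Y 1 0) = 0 := by
      rw [f00, f10]; ring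
    rw [← this, hd', hτ']; ring
  have k01 : d * ((1 + d) ^ 2 - τ ^ 2) * Y 0 1 = 0 := by
    have : ((1 + d) * g 1 1 - τ) * ((1 + d) * (g 0 0 * Y 0 1 - g 0 1 * Y 0 0) - τ * Y 0 1) -
        ((1 + d) * g 0 1) * ((1 + d) * (g 1 0 * Y 0 1 - g 1 1 * Y 0 0) + (τ * Y 0 0)) = 0 := by
      rw [f01, f11]; ring
    rw [← this, hd', hτ']; ring
  have k10 : d * ((1 + d) ^ 2 - τ ^ 2) * Y 1 0 = 0 := by
    have : ((1 + d) * g 0 0 - τ) * ((1 + d) * (g 1 0 * Y 0 0 + g 1 1 * Y 1 0) - τ * Y 1 0) -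
        ((1 + d) * g 1 0) * ((1 + d) * (g 0 0 * Y 0 0 + g 0 1 * Y 1 0) - τ * Y 0 0) = 0 := by
      rw [f00, f10]; ring
    rw [← this, hd', hτ']; ring
  have y00 := (mul_eq_zero.1 k00).resolve_left hdet
  have y01 := (mul_eq_zero.1 k01).resolve_left hdet
  have y10 := (mul_eq_zero.1 k10).resolve_left hdet
  ext i j
  fin_cases i <;> fin_cases j
  · exact y00
  · exact y01
  · exact y10
  · change Y 1 1 = 0
    rw [h11, y00, neg_zero]

theorem H0_bot_of_frob {D : Subgroup 𝒢} {Φ : 𝒢} (hΦ : Φ ∈ D) (hd0 : (ρ Φ).det ≠ 0)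
    (hd1 : (ρ Φ).det ≠ 1) (htr : (ρ Φ).trace ^ 2 ≠ ((ρ Φ).det + 1) ^ 2) :
    H0 (adT ρ) D = ⊥ := by
  rw [eq_bot_iff]
  intro X hX
  rw [Submodule.mem_bot]
  have h1 := congrArg Subtype.val (hX Φ hΦ)
  rw [coe_adT] at h1
  have h2 : (ρ Φ).det • (ρ Φ * (X : M2 k)) = X * ρ Φ := by
    conv_rhs => rw [← h1]
    rw [smul_mul_assoc, mul_assoc (ρ Φ * (X : M2 k)), rho_inv_mul, mul_one]
  exact Subtype.ext (sl_zero_of_frob (sl_trace X) h2 hd0 hd1 htr)

/-- the centralizer of a nilpotent matrix -/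
theorem sl_comm_nil {N X : M2 k} (h2 : (2 : k) ≠ 0) (hN : N ≠ 0) (hNN : N * N = 0)
    (hX : X.trace = 0) (hc : N * X = X * N) : N.trace = 0 ∧ N.det = 0 ∧ ∃ c : k, X = c • N := by
  have hdet : N.det = 0 := by
    have h3 := congrArg Matrix.det hNN
    rw [Matrix.det_mul, Matrix.det_zero] at h3
    exact mul_self_eq_zero.1 h3
  have htr : N.trace = 0 := by
    by_contra hne
    apply hN
    have h3 : N.trace • N = 0 := by
      have e00 := congrFun (congrFun hNN 0) 0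
      have e01 := congrFun (congrFun hNN 0) 1
      have e10 := congrFun (congrFun hNN 1) 0
      have e11 := congrFun (congrFun hNN 1) 1
      rw [Matrix.mul_apply, Fin.sum_univ_two, Matrix.zero_apply] at e00 e01 e10 e11
      rw [Matrix.det_fin_two] at hdet
      ext i j
      rw [Matrix.smul_apply, smul_eq_mul, Matrix.trace_fin_two, Matrix.zero_apply]
      fin_cases i <;> fin_cases j
      · change (N 0 0 + N 1 1) * N 0 0 = 0
        linear_combination e00 + hdet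
      · change (N 0 0 + N 1 1) * N 0 1 = 0
        linear_combination e01
      · change (N 0 0 + N 1 1) * N 1 0 = 0
        linear_combination e10
      · change (N 0 0 + N 1 1) * N 1 1 = 0
        linear_combination e11 + hdet
    exact (smul_eq_zero.1 h3).resolve_left hne
  refine ⟨htr, hdet, ?_⟩
  rw [Matrix.trace_fin_two] at hX htr
  rw [Matrix.det_fin_two] at hdet
  have n11 : N 1 1 = -N 0 0 := by linear_combination htr
  have x11 : X 1 1 = -X 0 0 := by linear_combination hX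
  have e00 := congrFun (congrFun hc 0) 0
  have e01 := congrFun (congrFun hc 0) 1
  have e10 := congrFun (congrFun hc 1) 0
  simp only [Matrix.mul_apply, Fin.sum_univ_two] at e00 e01 e10
  rw [n11] at e01 e10 hdet
  rw [x11] at e01 e10
  have f01 : N 0 0 * X 0 1 = N 0 1 * X 0 0 := by
    apply mul_left_cancel₀ h2
    linear_combination e01
  have f10 : N 0 0 * X 1 0 = N 1 0 * X 0 0 := by
    apply mul_left_cancel₀ h2
    linear_combination -e10
  have f00 : N 0 1 * X 1 0 = N 1 0 * X 0 1 := by linear_combination e00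
  by_cases hb : N 0 1 = 0
  · have ha : N 0 0 = 0 := by
      rw [hb, zero_mul, sub_zero] at hdet
      exact mul_self_eq_zero.1 (by linear_combination -hdet)
    have hc' : N 1 0 ≠ 0 := by
      intro hc'
      apply hN
      ext i j
      fin_cases i <;> fin_cases j
      · exact ha
      · exact hb
      · exact hc'
      · change N 1 1 = 0
        rw [n11, ha, neg_zero]
    have hx00 : X 0 0 = 0 := by
      rw [ha, zero_mul] at f10
      exact (mul_eq_zero.1 f10.symm).resolve_left hc'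
    have hx01 : X 0 1 = 0 := by
      rw [hb, zero_mul] at f00
      exact (mul_eq_zero.1 f00.symm).resolve_left hc'
    refine ⟨X 1 0 / N 1 0, ?_⟩
    ext i j
    rw [Matrix.smul_apply, smul_eq_mul]
    fin_cases i <;> fin_cases j
    · change X 0 0 = _ * N 0 0
      rw [hx00, ha, mul_zero]
    · change X 0 1 = _ * N 0 1
      rw [hx01, hb, mul_zero]
    · change X 1 0 = _ * N 1 0
      rw [div_mul_cancel₀ _ hc']
    · change X 1 1 = _ * N 1 1
      rw [x11, n11, hx00, ha, neg_zero, mul_zero]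
  · refine ⟨X 0 1 / N 0 1, ?_⟩
    ext i j
    rw [Matrix.smul_apply, smul_eq_mul, div_mul_eq_mul_div, eq_div_iff hb]
    fin_cases i <;> fin_cases j
    · change X 0 0 * N 0 1 = X 0 1 * N 0 0
      linear_combination -f01
    · rfl
    · change X 1 0 * N 0 1 = X 0 1 * N 1 0
      linear_combination f00
    · change X 1 1 * N 0 1 = X 0 1 * N 1 1
      rw [x11, n11]
      linear_combination f01

theorem H0_bot_of_nil (h2 : (2 : k) ≠ 0) (h3 : (3 : k) ≠ 0) {D : Subgroup 𝒢} {σ Φ : 𝒢}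
    (hσ : σ ∈ D) (hΦ : Φ ∈ D) (hN : ρ σ ≠ 1) (hNN : (ρ σ - 1) * (ρ σ - 1) = 0)
    (hdet : (ρ Φ).det = 2) (hconj : ρ (Φ * σ * Φ⁻¹) = ρ σ ^ 2) : H0 (adT ρ) D = ⊥ := by
  rw [eq_bot_iff]
  intro X hX
  rw [Submodule.mem_bot]
  set N := ρ σ - 1 with hNdef
  have hN0 : N ≠ 0 := sub_ne_zero.2 hN
  have hρσ : ρ σ = 1 + N := by rw [hNdef]; abel
  obtain ⟨ht, hd, -⟩ := sl_comm_nil (X := 0) h2 hN0 hNN (by simp) (by simp)
  have hdσ : (ρ σ).det = 1 := by
    rw [hρσ, Matrix.det_fin_two]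
    rw [Matrix.det_fin_two] at hd
    rw [Matrix.trace_fin_two] at ht
    simp only [Matrix.add_apply, Matrix.one_apply_eq, Matrix.one_apply_ne (show (0 : Fin 2) ≠ 1 by decide),
      Matrix.one_apply_ne (show (1 : Fin 2) ≠ 0 by decide), zero_add]
    linear_combination ht + hd
  have h4 := congrArg Subtype.val (hX σ hσ)
  rw [coe_adT, hdσ, one_smul] at h4
  have h5 : ρ σ * (X : M2 k) = X * ρ σ := by
    conv_rhs => rw [← h4]
    rw [mul_assoc (ρ σ * (X : M2 k)), rho_inv_mul, mul_one]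
  have h6 : N * (X : M2 k) = X * N := by
    rw [hNdef, sub_mul, mul_sub, h5, one_mul, mul_one]
  obtain ⟨-, -, c, hc⟩ := sl_comm_nil h2 hN0 hNN (sl_trace X) h6
  have h7 : ρ Φ * N * ρ Φ⁻¹ = (2 : k) • N := by
    have h8 : ρ Φ * (1 + N) * ρ Φ⁻¹ = (1 + N) ^ 2 := by
      rw [← hρσ, ← hconj, map_mul, map_mul]
    rw [mul_add, add_mul, mul_one, rho_mul_inv, sq, add_mul, mul_add, one_mul, mul_add, mul_one,
      hNN, add_zero, one_mul] at h8
    rw [two_smul]
    have h9 := congrArg (fun Z => Z - 1) h8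
    simp only [add_sub_cancel_left] at h9
    rw [h9]
    abel
  have h8 := congrArg Subtype.val (hX Φ hΦ)
  rw [coe_adT, hdet, hc, mul_smul_comm, smul_mul_assoc, h7] at h8
  have h9 : (3 : k) • (c • N) = 0 := by
    have h10 : (4 : k) • (c • N) = c • N := by
      conv_rhs => rw [← h8]
      rw [smul_smul, smul_smul, smul_smul]
      congr 1
      ring
    have h11 : (3 : k) • (c • N) = (4 : k) • (c • N) - c • N := by
      rw [show (4 : k) = 3 + 1 by norm_num, add_smul, one_smul, add_sub_cancel_right]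
    rw [h11, h10, sub_self]
  apply Subtype.ext
  rw [hc]
  exact (smul_eq_zero.1 h9).resolve_left h3

theorem finrank_Z1_le_three {p : ℕ} [hp : Fact p.Prime] [Algebra (ZMod p) k] [Finite k]
    (hLD : LocDim p) {S₀ : Finset ℕ} (h : ResH p ρ S₀) {v : ℕ} (hv : v.Prime) (hvp : v ≠ p)
    {B : ValuationSubring Ω} (hB : B.LiesOverPrime v)
    (h0 : H0 (adT ρ) (B.decompositionSubgroup ℚ) = ⊥) :
    Module.finrank k (Z1 (adR ρ) (B.decompositionSubgroup ℚ)) ≤ 3 := by
  haveI : FiniteDimensional k (sl k) := by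
    apply FiniteDimensional.of_finrank_pos
    rw [finrank_sl]
    norm_num
  haveI : Module.Finite (ZMod p) k := Module.Finite.of_finite
  haveI : FiniteDimensional (ZMod p) (sl k) := Module.Finite.trans k (sl k)
  obtain ⟨lam, hlam⟩ : ∃ lam : k →ₗ[ZMod p] ZMod p, lam ≠ 0 := by
    by_contra hcon
    push Not at hcon
    have h1 : (1 : k) = 0 := by
      rw [← Module.forall_dual_apply_eq_zero_iff (ZMod p)]
      intro φ
      rw [hcon φ, LinearMap.zero_apply]
    exact one_ne_zero h1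
  have h10 := hLD (sl k) (sl k) S₀ _ _ _ (dualReps h hlam) v B hv hvp hB
  have hd : 0 < Module.finrank (ZMod p) k := Module.finrank_pos
  obtain ⟨d, hdef⟩ : ∃ d, d = Module.finrank (ZMod p) k := ⟨_, rfl⟩
  have e1 : Module.finrank (ZMod p) (Z1 (resS (p := p) (adR ρ)) (B.decompositionSubgroup ℚ)) =
      d * Module.finrank k (Z1 (adR ρ) (B.decompositionSubgroup ℚ)) := by
    rw [hdef]
    exact finrank_res (p := p) (Z1 (adR ρ) (B.decompositionSubgroup ℚ))
  have e2 : Module.finrank (ZMod p) (H0 (resS (p := p) (adT ρ)) (B.decompositionSubgroup ℚ)) =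
      d * Module.finrank k (H0 (adT ρ) (B.decompositionSubgroup ℚ)) := by
    rw [hdef]
    exact finrank_res (p := p) (H0 (adT ρ) (B.decompositionSubgroup ℚ))
  have e4 : Module.finrank (ZMod p) (sl k) = d * 3 := by
    rw [← finrank_sl (k := k), hdef]
    exact (Module.finrank_mul_finrank (ZMod p) k (sl k)).symm
  rw [e1, e2, e4, ← mul_add] at h10
  have h11 := Nat.eq_of_mul_eq_mul_left (by rw [hdef]; exact hd) h10
  rw [h0, finrank_bot] at h11
  omega

/-- coboundaries vanish for scalar representations -/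
theorem B1_bot_of_scalar {D : Subgroup 𝒢} (h : ∀ σ ∈ D, ∃ a : k, ρ σ = a • 1) :
    B1 (adR ρ) D = ⊥ := by
  rw [eq_bot_iff]
  rintro _ ⟨X, rfl⟩
  rw [Submodule.mem_bot]
  funext σ
  change adR ρ σ X - X = 0
  rw [sub_eq_zero]
  apply Subtype.ext
  obtain ⟨a, ha⟩ := h σ σ.2
  have h1 : ρ (σ : 𝒢) * ρ (σ : 𝒢)⁻¹ = 1 := rho_mul_inv (ρ := ρ) _
  rw [coe_adR]
  have h2 : ρ (σ : 𝒢) * (X : M2 k) = X * ρ (σ : 𝒢) := by
    rw [ha, smul_mul_assoc, one_mul, mul_smul_comm, mul_one]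
  rw [h2, mul_assoc, h1, mul_one]

/-- a representation unramified at `v` with scalar Frobenius is scalar on the decomposition
group -/
theorem scalar_dec (hlc : ∃ F : IntermediateField ℚ Ω, FiniteDimensional ℚ F ∧
      ∀ σ : 𝒢, (∀ x ∈ F, σ x = x) → ρ σ = 1) {v : ℕ} (hv : v.Prime) {A : ValuationSubring Ω}
    (hA : A.LiesOverPrime v) {Φ : 𝒢} (hΦ : A.IsFrobeniusAt Φ v)
    (hI : ∀ σ ∈ A.inertiaSubgroupIn ℚ, ρ σ = 1) {a : k} (ha : ρ Φ = a • 1) {g : 𝒢}
    (hg : g ∈ A.decompositionSubgroup ℚ) : ∃ b : k, ρ g = b • 1 := by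
  obtain ⟨F, hF, h1⟩ := hlc
  obtain ⟨i, τ, hτ, hi⟩ := exists_dec hv hA hΦ hg F
  have e3 : g = (Φ ^ i * τ) * ((Φ ^ i * τ)⁻¹ * g) := by group
  have e4 : ρ ((Φ ^ i * τ)⁻¹ * g) = 1 := h1 _ fun x hx => by
    rw [AlgEquiv.mul_apply, hi x hx]
    exact (Φ ^ i * τ).symm_apply_apply x
  refine ⟨a ^ i, ?_⟩
  rw [e3, map_mul, e4, mul_one, map_mul, hI τ hτ, mul_one, map_pow, ha, smul_pow, one_pow]

end Fermat.Agent.Sel
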