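import Fermat.Agent.Sel.FlatD
import Fermat.Agent.Flat.Bound

/-!
# The local condition at `p`
-/

set_option autoImplicit false
set_option linter.unusedSectionVars false
set_option linter.style.haveILetI false

noncomputable section

namespace Fermat.Agent.Sel

open Matrix Fermat.Agent.GalRep Fermat.Agent.Flat
open scoped Pointwise

local notation "Ω" => AlgebraicClosure ℚ

local notation "𝒢" => (AlgebraicClosure ℚ) ≃ₐ[ℚ] (AlgebraicClosure ℚ)

variable {k : Type} [Field k]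

theorem finrank_sup_range_le {E W : Type} [AddCommGroup E] [Module k E] [AddCommGroup W]
    [Module k W] (U : Submodule k E) [FiniteDimensional k U] (f : W →ₗ[k] E) {n : ℕ}
    (Λ : W →ₗ[k] (Fin n → k)) (h : ∀ w, Λ w = 0 → f w ∈ U) :
    FiniteDimensional k (U ⊔ LinearMap.range f : Submodule k E) ∧
      Module.finrank k (U ⊔ LinearMap.range f : Submodule k E) ≤ Module.finrank k U + n := by
  obtain ⟨D, hD⟩ := Submodule.exists_isCompl (LinearMap.ker Λ)
  have hinj : Function.Injective (Λ.domRestrict D) := by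
    rw [← LinearMap.ker_eq_bot, eq_bot_iff]
    rintro ⟨x, hx⟩ hx'
    have h1 : x ∈ LinearMap.ker Λ ⊓ D := ⟨hx', hx⟩
    rw [hD.inf_eq_bot, Submodule.mem_bot] at h1
    exact (Submodule.mem_bot k).2 (Subtype.ext h1)
  haveI : FiniteDimensional k D := FiniteDimensional.of_injective _ hinj
  have hfr : Module.finrank k D ≤ n := by
    have := LinearMap.finrank_le_finrank_of_injective hinj
    simpa using this
  have heq : (U ⊔ LinearMap.range f : Submodule k E) = U ⊔ D.map f := by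
    apply le_antisymm
    · refine sup_le le_sup_left ?_
      rintro _ ⟨w, rfl⟩
      have h1 : w ∈ LinearMap.ker Λ ⊔ D := by rw [hD.sup_eq_top]; trivial
      obtain ⟨x, hx, y, hy, rfl⟩ := Submodule.mem_sup.1 h1
      rw [map_add]
      exact Submodule.add_mem _ ((le_sup_left : U ≤ _) (h x hx))
        ((le_sup_right : D.map f ≤ _) ⟨y, hy, rfl⟩)
    · refine sup_le le_sup_left (le_trans ?_ le_sup_right)
      rintro _ ⟨y, -, rfl⟩
      exact ⟨y, rfl⟩
  haveI : FiniteDimensional k (D.map f) := inferInstance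
  rw [heq]
  refine ⟨inferInstance, (Submodule.finrank_add_le_finrank_add_finrank _ _).trans ?_⟩
  have := Submodule.finrank_map_le f D
  omega

variable {p : ℕ} [hp : Fact p.Prime] (ρ : 𝒢 →* M2 k)

/-- the flat cocycles -/
def flatS (p : ℕ) [Fact p.Prime] (A : ValuationSubring Ω) : Set (A.decompositionSubgroup ℚ → sl k) :=
  {c | c ∈ Z1 (adR ρ) (A.decompositionSubgroup ℚ) ∧ ∃ (hA : A.LiesOverPrime p) (c' : 𝒢 → M2 k),
    (∀ σ : A.decompositionSubgroup ℚ, c' σ = c σ) ∧
    FlC A hA ((Fin 2 → k) × (Fin 2 → k)) (actE (endV ρ) fun σ => Matrix.toLinAlgEquiv' (c' σ))}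

/-- the local condition at `p` -/
def flatL (p : ℕ) [Fact p.Prime] (A : ValuationSubring Ω) :
    Submodule k (A.decompositionSubgroup ℚ → sl k) :=
  B1 (adR ρ) _ ⊔ Submodule.span k (flatS ρ p A)

theorem B1_le_flatL (A : ValuationSubring Ω) : B1 (adR ρ) _ ≤ flatL ρ p A := le_sup_left

theorem adR_one' {σ : 𝒢} (h : ρ σ = 1) : adR ρ σ = 1 := by
  refine LinearMap.ext fun X => Subtype.ext ?_
  have h1 : ρ σ⁻¹ = 1 := by
    have := rho_mul_inv (ρ := ρ) σ
    rwa [h, one_mul] at this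
  rw [coe_adR, h, h1, one_mul, mul_one]
  rfl

theorem B1_le_Z1 (hlc : ∃ F : IntermediateField ℚ Ω, FiniteDimensional ℚ F ∧
      ∀ σ : 𝒢, (∀ x ∈ F, σ x = x) → ρ σ = 1) (D : Subgroup 𝒢) : B1 (adR ρ) D ≤ Z1 (adR ρ) D := by
  rintro _ ⟨X, rfl⟩
  refine ⟨fun σ τ => ?_, ?_⟩
  · change adR ρ (σ * τ : 𝒢) X - X = (adR ρ σ X - X) + adR ρ σ (adR ρ τ X - X)
    rw [map_mul, Module.End.mul_apply, map_sub]
    abel
  · obtain ⟨F, hF, h1⟩ := hlc
    refine ⟨F, hF, fun σ hσ => ?_⟩
    change adR ρ (σ : 𝒢) X - X = 0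
    rw [adR_one' ρ (h1 _ hσ), Module.End.one_apply, sub_self]

theorem flatL_le_Z1 (hlc : ∃ F : IntermediateField ℚ Ω, FiniteDimensional ℚ F ∧
      ∀ σ : 𝒢, (∀ x ∈ F, σ x = x) → ρ σ = 1) (A : ValuationSubring Ω) :
    flatL ρ p A ≤ Z1 (adR ρ) _ :=
  sup_le (B1_le_Z1 ρ hlc _) (Submodule.span_le.2 fun _ hc => hc.1)

theorem finrank_B1_le (D : Subgroup 𝒢) : Module.finrank k (B1 (adR ρ) D) ≤ 3 := by
  haveI : FiniteDimensional k (sl k) := by
    apply FiniteDimensional.of_finrank_pos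
    rw [finrank_sl]
    norm_num
  have := LinearMap.finrank_range_le (LinearMap.pi fun σ : D => (adR ρ σ - 1 : Module.End k (sl k)))
  rwa [finrank_sl] at this

theorem mem_dec_pres {A : ValuationSubring Ω} {σ : 𝒢} :
    σ ∈ A.decompositionSubgroup ℚ ↔ Pres A σ := by
  constructor
  · intro h
    exact pres_of_decomp h
  · intro h
    change σ • A = A
    ext x
    rw [ValuationSubring.mem_pointwise_smul_iff_inv_smul_mem]
    exact h.inv x

/-- from global functions to local matrix valued functions -/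
def rstM (A : ValuationSubring Ω) : (𝒢 → Module.End k (Fin 2 → k)) →ₗ[k]
    (A.decompositionSubgroup ℚ → M2 k) where
  toFun c := fun σ => Matrix.toLinAlgEquiv'.symm (c σ)
  map_add' c d := by
    funext σ
    simp only [Pi.add_apply, map_add]
  map_smul' t c := by
    funext σ
    simp only [Pi.smul_apply, map_smul, RingHom.id_apply]

/-- the inclusion -/
def coeD (A : ValuationSubring Ω) : (A.decompositionSubgroup ℚ → sl k) →ₗ[k]
    (A.decompositionSubgroup ℚ → M2 k) := LinearMap.compLeft (sl k).subtype _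

theorem coeD_apply (A : ValuationSubring Ω) (c : A.decompositionSubgroup ℚ → sl k)
    (σ : A.decompositionSubgroup ℚ) : coeD A c σ = (c σ : M2 k) := rfl

theorem coeD_injective (A : ValuationSubring Ω) : Function.Injective (coeD (k := k) A) :=
  fun c d h => by
    funext σ
    exact Subtype.ext (congrFun h σ)

theorem mul_toLin (X Y : M2 k) : (Matrix.toLinAlgEquiv' X : Module.End k (Fin 2 → k)) *
    Matrix.toLinAlgEquiv' Y = Matrix.toLinAlgEquiv' (X * Y) := (map_mul _ _ _).symm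

theorem endV_eq (σ : 𝒢) : endV ρ σ = Matrix.toLinAlgEquiv' (ρ σ) := rfl

theorem cayley (X : M2 k) {α β : k} (h1 : α + β = X.trace) (h2 : α * β = X.det) :
    X * (X - β • 1) = α • (X - β • 1) := by
  rw [Matrix.trace_fin_two] at h1
  rw [Matrix.det_fin_two] at h2
  ext i j
  rw [Matrix.mul_apply, Fin.sum_univ_two]
  fin_cases i <;> fin_cases j <;> simp
  · linear_combination (-(X 0 0)) * h1 + h2
  · linear_combination (-(X 0 1)) * h1
  · linear_combination (-(X 1 0)) * h1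
  · linear_combination (-(X 1 1)) * h1 + h2

set_option maxHeartbeats 1000000 in
theorem flatL_bound [Finite k] [CharP k p] [Algebra (ZMod p) k] {S₀ : Finset ℕ} (h : ResH p ρ S₀)
    {A : ValuationSubring Ω} (hA : A.LiesOverPrime p)
    (hsplit : ∀ σ, ∃ α β : k, α + β = (ρ σ).trace ∧ α * β = (ρ σ).det)
    (hfl : FlC A hA (Fin 2 → k) (fun σ v => endV ρ σ v)) :
    FiniteDimensional k (flatL ρ p A) ∧ Module.finrank k (flatL ρ p A) ≤ 5 := by
  classical
  haveI : NeZero p := ⟨hp.out.ne_zero⟩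
  obtain ⟨ζ, hζ⟩ := exists_zeta p
  let S : Set (𝒢 → Module.End k (Fin 2 → k)) := {c | Coc A (endV ρ) c ∧
    FlC A hA ((Fin 2 → k) × (Fin 2 → k)) (actE (endV ρ) c)}
  have hb := flat_bound (A := A) (p := p) (k := k) (V := Fin 2 → k) (ρ := endV ρ) hζ hA h.odd
    (by simp) (by
      intro σ hσ m hm
      rw [endV_eq, ← Matrix.toLin'_toMatrix' (Matrix.toLinAlgEquiv' (ρ σ) : Module.End k (Fin 2 → k)),
        LinearMap.det_toLin']
      have h1 : LinearMap.toMatrix' (Matrix.toLinAlgEquiv' (ρ σ) : Module.End k (Fin 2 → k)) = ρ σ :=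
        LinearMap.toMatrix'_toLin' _
      rw [h1, h.det]
      have h2 : cyc p σ = m := by
        refine cyc_eq_of_forall p σ m fun x hx => ?_
        obtain ⟨i, -, rfl⟩ := hζ.eq_pow_of_pow_eq_one hx
        rw [map_pow, hm, ← pow_mul, ← pow_mul, mul_comm]
      rw [h2, map_natCast]) (by
      intro σ hσ
      obtain ⟨α, β, h1, h2⟩ := hsplit σ
      refine ⟨α, β, fun v => ?_⟩
      have h3 := congrArg (fun X : M2 k => X *ᵥ v) (cayley (ρ σ) h1 h2)
      simp only [← Matrix.mulVec_mulVec, Matrix.sub_mulVec, Matrix.smul_mulVec,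
        Matrix.one_mulVec] at h3
      exact h3) (by
      obtain ⟨F, hF, h1⟩ := h.lc
      refine ⟨F, hF, fun σ hσ => ?_⟩
      rw [endV_eq, h1 σ hσ, map_one]) hfl S (fun c hc => hc)
  -- the comparison
  have hle : (flatL ρ p A).map (coeD A) ≤ (B1 (adR ρ) _).map (coeD A) ⊔
      LinearMap.range ((rstM A).comp (Submodule.span k S).subtype) := by
    rw [flatL, Submodule.map_sup]
    refine sup_le_sup_left ?_ _
    rw [LinearMap.range_comp, Submodule.range_subtype, Submodule.map_span, Submodule.map_span]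
    refine Submodule.span_mono ?_
    rintro _ ⟨c, ⟨hc, hA', c', h1, h2⟩, rfl⟩
    refine ⟨fun σ => Matrix.toLinAlgEquiv' (c' σ), ⟨⟨fun σ τ hσ hτ => ?_, fun σ hσ => ?_, ?_⟩, h2⟩,
      ?_⟩
    · have e1 : c' σ = c ⟨σ, mem_dec_pres.2 hσ⟩ := h1 ⟨σ, mem_dec_pres.2 hσ⟩
      have e2 : c' τ = c ⟨τ, mem_dec_pres.2 hτ⟩ := h1 ⟨τ, mem_dec_pres.2 hτ⟩
      have e3 := h1 (⟨σ, mem_dec_pres.2 hσ⟩ * ⟨τ, mem_dec_pres.2 hτ⟩)
      have e4 := congrArg Subtype.val (hc.1 ⟨σ, mem_dec_pres.2 hσ⟩ ⟨τ, mem_dec_pres.2 hτ⟩)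
      rw [← e3] at e4
      change c' (σ * τ) = (c ⟨σ, _⟩ : M2 k) + ρ σ * (c ⟨τ, _⟩ : M2 k) * ρ σ⁻¹ at e4
      rw [← e1, ← e2] at e4
      rw [e4, map_add, endV_eq, endV_eq, mul_toLin, mul_toLin]
    · have e1 : c' σ = c ⟨σ, mem_dec_pres.2 hσ⟩ := h1 ⟨σ, mem_dec_pres.2 hσ⟩
      rw [e1]
      have : LinearMap.trace k (Fin 2 → k) (Matrix.toLinAlgEquiv'
          ((c ⟨σ, mem_dec_pres.2 hσ⟩ : M2 k))) = ((c ⟨σ, mem_dec_pres.2 hσ⟩ : M2 k)).trace :=
        Matrix.trace_toLin'_eq _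
      rw [this]
      exact sl_trace _
    · obtain ⟨F, hF, h3⟩ := hc.2
      refine ⟨F, hF, fun σ hσ hx => ?_⟩
      have e1 : c' σ = c ⟨σ, mem_dec_pres.2 hσ⟩ := h1 ⟨σ, mem_dec_pres.2 hσ⟩
      rw [e1, h3 _ hx]
      exact map_zero _
    · funext σ
      change Matrix.toLinAlgEquiv'.symm (Matrix.toLinAlgEquiv' (c' σ)) = _
      rw [AlgEquiv.symm_apply_apply, h1]
      rfl
  have hB : ∀ c : Submodule.span k S, c ∈ locB A (endV ρ) (Submodule.span k S) →
      ((rstM A).comp (Submodule.span k S).subtype) c ∈ (B1 (adR ρ) _).map (coeD A) := by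
    rintro c ⟨X, hX⟩
    have h2k : (2 : k) ≠ 0 := h.two
    set X' : M2 k := Matrix.toLinAlgEquiv'.symm X with hX'
    have htr : (X' - (X'.trace / 2) • (1 : M2 k)).trace = 0 := by
      rw [Matrix.trace_sub, Matrix.trace_smul, Matrix.trace_one, Fintype.card_fin]
      simp only [smul_eq_mul, Nat.cast_ofNat]
      field_simp
      ring
    refine ⟨_, ⟨⟨X' - (X'.trace / 2) • (1 : M2 k), mem_sl.2 htr⟩, rfl⟩, ?_⟩
    funext σ
    change (ρ σ * (X' - (X'.trace / 2) • (1 : M2 k)) * ρ (σ : 𝒢)⁻¹) -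
      (X' - (X'.trace / 2) • (1 : M2 k)) = Matrix.toLinAlgEquiv'.symm
        ((c : 𝒢 → Module.End k (Fin 2 → k)) σ)
    rw [hX σ (mem_dec_pres.1 σ.2)]
    have hXX : X = Matrix.toLinAlgEquiv' X' := (AlgEquiv.apply_symm_apply _ _).symm
    rw [hXX, endV_eq, endV_eq, mul_toLin, mul_toLin, ← map_sub, AlgEquiv.symm_apply_apply]
    have h5 : ρ (σ : 𝒢) * ρ (σ : 𝒢)⁻¹ = 1 := rho_mul_inv (ρ := ρ) _
    rw [mul_sub, sub_mul, mul_smul_comm, mul_one, smul_mul_assoc, h5]
    abel
  haveI : FiniteDimensional k (sl k) := by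
    apply FiniteDimensional.of_finrank_pos
    rw [finrank_sl]
    norm_num
  haveI : FiniteDimensional k (B1 (adR ρ) (A.decompositionSubgroup ℚ)) :=
    Module.Finite.range _
  have hB3 : Module.finrank k ((B1 (adR ρ) (A.decompositionSubgroup ℚ)).map (coeD A)) ≤ 3 :=
    (Submodule.finrank_map_le _ _).trans (finrank_B1_le ρ _)
  have key : FiniteDimensional k ((B1 (adR ρ) _).map (coeD A) ⊔
      LinearMap.range ((rstM A).comp (Submodule.span k S).subtype) : Submodule k _) ∧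
      Module.finrank k ((B1 (adR ρ) _).map (coeD A) ⊔
      LinearMap.range ((rstM A).comp (Submodule.span k S).subtype) : Submodule k _) ≤ 5 := by
    rcases hb with ⟨Λ, hΛ⟩ | ⟨-, Λ, hΛ⟩
    · obtain ⟨h1, h2⟩ := finrank_sup_range_le ((B1 (adR ρ) _).map (coeD A))
        ((rstM A).comp (Submodule.span k S).subtype) Λ fun w hw => hB w (hΛ w hw)
      exact ⟨h1, by omega⟩
    · obtain ⟨h1, h2⟩ := finrank_sup_range_le ((B1 (adR ρ) _).map (coeD A))
        ((rstM A).comp (Submodule.span k S).subtype) Λ fun w hw => hB w (hΛ w hw)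
      exact ⟨h1, by omega⟩
  haveI := key.1
  haveI : FiniteDimensional k ((flatL ρ p A).map (coeD A)) := Submodule.finiteDimensional_of_le hle
  let eq := Submodule.equivMapOfInjective (coeD A) (coeD_injective A) (flatL ρ p A)
  haveI : FiniteDimensional k (flatL ρ p A) := LinearEquiv.finiteDimensional eq.symm
  refine ⟨inferInstance, ?_⟩
  rw [LinearEquiv.finrank_eq eq]
  exact (Submodule.finrank_mono hle).trans key.2

end Fermat.Agent.Sel
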