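import Fermat.Agent.Sel.LocQ

/-!
# Consequences of the monodromy theorem at the primes dividing the level exactly once
-/

set_option autoImplicit false
set_option linter.unusedSectionVars false
set_option linter.style.haveILetI false

noncomputable section

namespace Fermat.Agent.Sel

open Matrix IsLocalRing Fermat.Agent.GalRep Fermat.Agent.TW Fermat.Agent.Places Fermat.Agent.Flat
open Fermat.Agent.Cheb

local notation "Ω" => AlgebraicClosure ℚ

variable {O T Y : Type} [CommRing O] [IsDomain O] [IsLocalRing O] [IsNoetherianRing O]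
  [IsAdicComplete (maximalIdeal O) O] [CommRing T] [Algebra O T] [AddCommGroup Y] [Module O Y]
  [Module.Finite O Y] [Module.Free O Y] [Nontrivial Y] {p : ℕ} [hp : Fact p.Prime]
  {hpO : (p : O) ∈ maximalIdeal O} {S : Set ℕ} {t : GQ → ResidueField O}
  {ψ : T →ₐ[O] Module.End O Y} {θ : T →ₐ[O] ResidueField O} {ρ : GQ →* Module.End O Y}

/-- The input from the geometry at a prime `q` dividing the level exactly once. -/
structure E2P (p : ℕ) (ψ : T →ₐ[O] Module.End O Y) (ρ : GQ →* Module.End O Y) (q : ℕ)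
    (A : ValuationSubring Ω) (Φ : GQ) : Prop where
  sq : ∀ σ ∈ A.inertiaSubgroupIn ℚ, ∀ y, ρ σ (ρ σ y) - ρ σ y - ρ σ y + y = 0
  e2 : ∃ W : Module.End O Y, W * W = 1 ∧ (∀ s y, W (ψ s y) = ψ s (W y)) ∧
    (∀ σ y, W (ρ σ y) = ρ σ (W y)) ∧
    ∀ (m : ℕ) (y : Y), (∀ σ ∈ A.inertiaSubgroupIn ℚ, ∃ y', ρ σ y - y = (p : O) ^ m • y') →
      ∃ y', ρ Φ (W y) + (q : O) • y = (p : O) ^ m • y'

variable (h : HG hpO S t ψ θ ρ) [Invertible (2 : O)] {g₀ k₀ : GQ} (hgk : HG.IrrAt t g₀ k₀)

include hgk in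
/-- inertia acts unipotently -/
theorem R_sq_zero {σ : GQ} (hσ : ∀ y, ρ σ (ρ σ y) - ρ σ y - ρ σ y + y = 0) :
    (h.R hgk σ - 1) * (h.R hgk σ - 1) = 0 := by
  refine mact_inj (M := h.MQ) (fun a ha => h.faithful_MQ hgk ha) fun m => ?_
  obtain ⟨y, rfl⟩ := (h.EE hgk).surjective m
  have h1 := congrArg (h.EE hgk) (hσ y)
  rw [map_add, map_sub, map_sub, h.EE_rho hgk, h.EE_rho hgk, map_zero] at h1
  have h2 : (h.R hgk σ - 1) * (h.R hgk σ - 1) = h.R hgk σ * h.R hgk σ + (-1 : h.TT) • h.R hgk σ +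
      (-1 : h.TT) • h.R hgk σ + 1 := by
    rw [neg_one_smul]
    noncomm_ring
  rw [h2, mact_add, mact_add, mact_add, mact_one, mact_mul, mact_smul]
  have h3 : mact (0 : Matrix (Fin 2) (Fin 2) h.TT) (h.EE hgk y) = 0 := by
    apply Prod.ext <;> simp [mact]
  rw [h3, ← h1]
  module

/-- a unipotent matrix of determinant one -/
theorem trace_zero_of_sq {A : Type} [CommRing A] {X : Matrix (Fin 2) (Fin 2) A}
    (hsq : (X - 1) * (X - 1) = 0) (hdet : X.det = 1) (hu : IsUnit (X 0 0)) :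
    (X - 1).trace = 0 := by
  have e00 := congrFun (congrFun hsq 0) 0
  have e01 := congrFun (congrFun hsq 0) 1
  simp only [Matrix.mul_apply, Fin.sum_univ_two, Matrix.sub_apply, Matrix.one_apply_eq,
    Matrix.zero_apply, ne_eq, zero_ne_one, not_false_eq_true, Matrix.one_apply_ne, one_ne_zero,
    sub_zero] at e00 e01
  rw [Matrix.det_fin_two] at hdet
  rw [Matrix.trace_fin_two]
  simp only [Matrix.sub_apply, Matrix.one_apply_eq]
  refine (hu.mul_right_eq_zero).1 ?_
  linear_combination e00 + hdet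

section MQ

variable {W : Module.End O Y} (hWW : W * W = 1) (hWψ : ∀ s y, W (ψ s y) = ψ s (W y))
  (hWρ : ∀ σ y, W (ρ σ y) = ρ σ (W y))

include hWψ in
theorem W_smul (a : h.TT) (y : Y) : W (a • y) = a • W y := by
  obtain ⟨s, rfl⟩ := BB.mk_surjective _ a
  exact hWψ _ _

include hWW hWψ hWρ in
/-- the operator on the multiplicity module -/
theorem exists_w : ∃ w : h.MQ →ₗ[h.TT] h.MQ, (∀ x, w (w x) = x) ∧
    ∀ y, h.EE hgk (W y) = (w (h.EE hgk y).1, w (h.EE hgk y).2) := by
  let V : h.MQ × h.MQ → h.MQ × h.MQ := fun m => h.EE hgk (W ((h.EE hgk).symm m))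
  have hV : ∀ y, V (h.EE hgk y) = h.EE hgk (W y) := fun y => by
    change h.EE hgk (W ((h.EE hgk).symm (h.EE hgk y))) = _
    rw [LinearEquiv.symm_apply_apply]
  have hVadd : ∀ m m', V (m + m') = V m + V m' := fun m m' => by
    change h.EE hgk (W ((h.EE hgk).symm (m + m'))) = _
    rw [map_add, map_add, map_add]
  have hVsmul : ∀ (a : h.TT) m, V (a • m) = a • V m := fun a m => by
    change h.EE hgk (W ((h.EE hgk).symm (a • m))) = _
    rw [map_smul, W_smul h hWψ, map_smul]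
  have hVR : ∀ σ m, V (mact (h.R hgk σ) m) = mact (h.R hgk σ) (V m) := fun σ m => by
    obtain ⟨y, rfl⟩ := (h.EE hgk).surjective m
    rw [← h.EE_rho, hV, hWρ, h.EE_rho, hV]
  have h2 : ∀ m : h.MQ, m = -m → m = 0 := by
    intro m hm
    have e1 : (2 : h.TT) • m = 0 := by
      rw [two_smul]
      nth_rewrite 1 [hm]
      rw [neg_add_cancel]
    have e2 : (⅟(2 : h.TT)) • (2 : h.TT) • m = m := by rw [smul_smul, invOf_mul_self, one_smul]
    rw [← e2, e1, smul_zero]
  have hc1 : ∀ m m' : h.MQ, mact (h.R hgk complexConjugation) (m, m') = (m, -m') := by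
    intro m m'
    rw [h.R_conj]
    simp [mact]
  have hV1 : ∀ m : h.MQ, (V (m, 0)).2 = 0 := by
    intro m
    have e1 := hVR complexConjugation (m, 0)
    rw [hc1, neg_zero] at e1
    have e2 : V (m, 0) = ((V (m, 0)).1, -(V (m, 0)).2) := by
      conv_lhs => rw [e1]
      exact hc1 _ _
    exact h2 _ (congrArg Prod.snd e2)
  have hV2 : ∀ m : h.MQ, (V (0, m)).1 = 0 := by
    intro m
    have e1 := hVR complexConjugation (0, m)
    rw [hc1] at e1
    have e3 : V (0, -m) = -V (0, m) := by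
      have := hVsmul (-1) (0, m)
      rw [neg_one_smul, neg_one_smul, Prod.neg_mk, neg_zero] at this
      exact this
    rw [e3] at e1
    have e2 : -V (0, m) = ((V (0, m)).1, -(V (0, m)).2) := by
      conv_lhs => rw [e1]
      exact hc1 _ _
    have e5 := congrArg Prod.fst e2
    exact h2 _ e5.symm
  have hR01 : h.R hgk g₀ 0 1 = 1 := by
    rw [h.R_apply]
    change (↑(h.uu hgk)⁻¹ : h.TT) * bc h.tt complexConjugation g₀ k₀ = 1
    rw [← h.uu_eq hgk]
    exact Units.inv_mul _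
  have hV3 : ∀ m : h.MQ, (V (m, 0)).1 = (V (0, m)).2 := by
    intro m
    have e1 := hVR g₀ (0, m)
    have e2 : mact (h.R hgk g₀) ((0 : h.MQ), m) = (m, 0) + (0, (h.R hgk g₀ 1 1) • m) := by
      apply Prod.ext <;> simp [mact, hR01]
    rw [e2, hVadd] at e1
    have e3 := congrArg Prod.fst e1
    have e4 : (mact (h.R hgk g₀) (V (0, m))).1 = (V (0, m)).2 := by
      simp [mact, hR01, hV2]
    rw [e4, Prod.fst_add, hV2, add_zero] at e3
    exact e3
  let w : h.MQ →ₗ[h.TT] h.MQ :=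
    { toFun := fun m => (V (m, 0)).1
      map_add' := fun m m' => by
        have : ((m + m', (0 : h.MQ)) : h.MQ × h.MQ) = (m, 0) + (m', 0) := by
          apply Prod.ext <;> simp
        rw [this, hVadd]
        rfl
      map_smul' := fun a m => by
        have : ((a • m, (0 : h.MQ)) : h.MQ × h.MQ) = a • (m, 0) := by
          apply Prod.ext <;> simp
        rw [this, hVsmul]
        rfl }
  have hVw : ∀ m m' : h.MQ, V (m, m') = (w m, w m') := by
    intro m m'
    have : ((m, m') : h.MQ × h.MQ) = (m, 0) + (0, m') := by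
      apply Prod.ext <;> simp
    rw [this, hVadd]
    apply Prod.ext
    · change (V (m, 0)).1 + (V (0, m')).1 = (V (m, 0)).1
      rw [hV2, add_zero]
    · change (V (m, 0)).2 + (V (0, m')).2 = (V (m', 0)).1
      rw [hV1, zero_add, hV3]
  refine ⟨w, fun x => ?_, fun y => ?_⟩
  · have e1 : V (V (x, 0)) = (x, 0) := by
      change h.EE hgk (W ((h.EE hgk).symm (h.EE hgk (W ((h.EE hgk).symm (x, 0)))))) = _
      rw [LinearEquiv.symm_apply_apply, ← Module.End.mul_apply, hWW, Module.End.one_apply,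
        LinearEquiv.apply_symm_apply]
    rw [hVw x 0, map_zero, hVw] at e1
    exact congrArg Prod.fst e1
  · rw [← hV, ← hVw]

end MQ

/-- elements killed by the maximal ideal modulo `p` -/
theorem exists_socle {T M : Type} [CommRing T] [IsLocalRing T] [AddCommGroup M] [Module T M]
    [Module.Finite T M] [Nontrivial M] {c : T} (hc : c ∈ maximalIdeal T) {K : ℕ}
    (hK : maximalIdeal T ^ K ≤ Ideal.span {c}) :
    ∃ x : M, (∀ z, x ≠ c • z) ∧ ∀ a ∈ maximalIdeal T, ∃ z, a • x = c • z := by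
  classical
  let P : Submodule T M := Ideal.span {c} • ⊤
  have hP : ∀ x, x ∈ P ↔ ∃ z, x = c • z := by
    intro x
    constructor
    · intro hx
      obtain ⟨z, -, hz⟩ := (Submodule.mem_smul_pointwise_iff_exists x c (⊤ : Submodule T M)).1 (by
        rw [← Submodule.ideal_span_singleton_smul]; exact hx)
      exact ⟨z, hz.symm⟩
    · rintro ⟨z, rfl⟩
      exact Submodule.smul_mem_smul (Ideal.mem_span_singleton_self c) trivial
  have h0 : ¬ (⊤ : Submodule T M) ≤ P := by
    intro h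
    have h1 := Submodule.eq_bot_of_le_smul_of_le_jacobson_bot (maximalIdeal T) (⊤ : Submodule T M)
      Module.Finite.fg_top (h.trans (Submodule.smul_mono_left
        ((Ideal.span_singleton_le_iff_mem _).2 hc))) (IsLocalRing.maximalIdeal_le_jacobson _)
    exact top_ne_bot h1
  have hex : ∃ k, (maximalIdeal T ^ k • ⊤ : Submodule T M) ≤ P :=
    ⟨K, Submodule.smul_mono_left hK⟩
  have hk0 : Nat.find hex ≠ 0 := by
    intro hk
    have := Nat.find_spec hex
    rw [hk, pow_zero, Ideal.one_eq_top, Submodule.top_smul] at this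
    exact h0 this
  obtain ⟨k, hk⟩ := Nat.exists_eq_succ_of_ne_zero hk0
  have h1 := Nat.find_min hex (m := k) (by omega)
  obtain ⟨x, hx, hxP⟩ := Set.not_subset.1 h1
  refine ⟨x, fun z hz => hxP ((hP x).2 ⟨z, hz⟩), fun a ha => ?_⟩
  rw [← hP]
  have h2 := Nat.find_spec hex
  rw [hk] at h2
  apply h2
  rw [pow_succ', Submodule.mul_smul]
  exact Submodule.smul_mem_smul ha hx

include h in
theorem exists_pow_le (hmO : maximalIdeal O = Ideal.span {(p : O)}) :
    ∃ K, maximalIdeal h.TT ^ K ≤ Ideal.span {(p : h.TT)} := by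
  have h1 : Ideal.span {(p : h.TT)} = (maximalIdeal O).map (algebraMap O h.TT) := by
    rw [hmO, Ideal.map_span, Set.image_singleton, map_natCast]
  rw [h1]
  haveI : Module.Finite (O ⧸ maximalIdeal O)
      (h.TT ⧸ (maximalIdeal O).map (algebraMap O h.TT)) :=
    Module.Finite.of_restrictScalars_finite O _ _
  letI : Field (O ⧸ maximalIdeal O) := Ideal.Quotient.field _
  haveI : IsArtinianRing (h.TT ⧸ (maximalIdeal O).map (algebraMap O h.TT)) :=
    IsArtinianRing.of_finite (O ⧸ maximalIdeal O) _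
  exact exists_maximalIdeal_pow_le_of_isArtinianRing_quotient _

section concl

variable {q : ℕ} {A : ValuationSubring Ω} {Φ : GQ} (E : E2P p ψ ρ q A Φ)
  (hmO : maximalIdeal O = Ideal.span {(p : O)}) (hp0 : (p : O) ≠ 0)
  (h2q : ((2 * q : ℕ) : ResidueField O) ≠ 0)
  (hres : ∀ σ ∈ A.inertiaSubgroupIn ℚ, MI (maximalIdeal h.TT) (h.R hgk σ - 1))

include E hmO hp0 h2q hres in
/-- **The action of Frobenius on the kernel of the monodromy.** -/
theorem e2_concl : ∃ ε : O, (ε = 1 ∨ ε = -1) ∧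
    (∀ i j, h.theta (h.R hgk Φ i j) = residue O (-(q : O) * ε) * (1 : M2 (ResidueField O)) i j) ∧
    ∀ (m : ℕ) (x : h.MQ), (∀ σ ∈ A.inertiaSubgroupIn ℚ, ∀ a b, ∃ z : h.MQ,
      (h.R hgk σ - 1) a b • x = ((p : O) ^ m) • z) →
      ∀ a b, ∃ z : h.MQ, (h.R hgk Φ + algebraMap O h.TT (q * ε) • 1) a b • x =
        ((p : O) ^ m) • z := by
  haveI := h.finite_MQ hgk
  haveI := h.free_MQ hgk
  haveI := h.nontrivial_MQ hgk
  haveI : Module.Finite h.TT h.MQ := Module.Finite.of_restrictScalars_finite O _ _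
  obtain ⟨W, hWW, hWψ, hWρ, hW⟩ := E.e2
  obtain ⟨w, hww, hw⟩ := exists_w h hgk hWW hWψ hWρ
  have hpreg : ∀ (c : O), c ≠ 0 → ∀ x y : h.MQ, c • x = c • y → x = y := fun c hc x y hxy =>
    smul_right_injective _ hc hxy
  have hsm : ∀ (c : O) (x : h.MQ), algebraMap O h.TT c • x = c • x := fun c x =>
    algebraMap_smul h.TT c x
  have hcomm : ∀ (c : O) (a : h.TT) (x : h.MQ), a • c • x = c • a • x := fun c a x => by
    rw [← hsm, ← hsm, smul_comm]
  -- the consequence of `E2` in terms of the multiplicity module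
  have key : ∀ (m : ℕ) (x : h.MQ), (∀ σ ∈ A.inertiaSubgroupIn ℚ, ∀ a b, ∃ z : h.MQ,
      (h.R hgk σ - 1) a b • x = ((p : O) ^ m) • z) →
      ∀ a b, ∃ z : h.MQ, h.R hgk Φ a b • w x + (q : O) • (1 : Matrix (Fin 2) (Fin 2) O) a b • x =
        ((p : O) ^ m) • z := by
    intro m x hx
    have e1 : ∀ (x₁ x₂ : h.MQ), (∀ σ ∈ A.inertiaSubgroupIn ℚ, ∃ z : h.MQ × h.MQ,
        mact (h.R hgk σ - 1) (x₁, x₂) = ((p : O) ^ m) • z) →
        ∃ z : h.MQ × h.MQ, mact (h.R hgk Φ) (w x₁, w x₂) + (q : O) • (x₁, x₂) =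
          ((p : O) ^ m) • z := by
      intro x₁ x₂ hx
      have hEs : ∀ (c : O) (y : Y), h.EE hgk (c • y) = c • h.EE hgk y := fun c y =>
        (h.EO hgk).map_smul c y
      obtain ⟨y', hy'⟩ := hW m ((h.EE hgk).symm (x₁, x₂)) (fun σ hσ => by
        obtain ⟨z, hz⟩ := hx σ hσ
        refine ⟨(h.EE hgk).symm z, (h.EE hgk).injective ?_⟩
        rw [hEs, LinearEquiv.apply_symm_apply, ← hz, map_sub, h.EE_rho,
          LinearEquiv.apply_symm_apply, sub_eq_add_neg (h.R hgk σ), mact_add]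
        have e2 : mact (-1 : Matrix (Fin 2) (Fin 2) h.TT) (x₁, x₂) = -(x₁, x₂) := by
          apply Prod.ext <;> simp [mact]
        rw [e2, ← sub_eq_add_neg])
      refine ⟨h.EE hgk y', ?_⟩
      have e2 := congrArg (h.EE hgk) hy'
      rw [hEs, map_add, hEs, h.EE_rho, hw, LinearEquiv.apply_symm_apply] at e2
      exact e2
    have e3 : ∀ b : Fin 2, ∃ z : h.MQ × h.MQ,
        ((h.R hgk Φ 0 b • w x + (q : O) • (1 : Matrix (Fin 2) (Fin 2) O) 0 b • x),
         (h.R hgk Φ 1 b • w x + (q : O) • (1 : Matrix (Fin 2) (Fin 2) O) 1 b • x)) =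
          ((p : O) ^ m) • z := by
      intro b
      obtain rfl | rfl : b = 0 ∨ b = 1 := by fin_cases b <;> simp
      · obtain ⟨z, hz⟩ := e1 x 0 (fun σ hσ => by
          obtain ⟨z₁, hz₁⟩ := hx σ hσ 0 0
          obtain ⟨z₂, hz₂⟩ := hx σ hσ 1 0
          refine ⟨(z₁, z₂), ?_⟩
          apply Prod.ext
          · change (h.R hgk σ - 1) 0 0 • x + (h.R hgk σ - 1) 0 1 • (0 : h.MQ) = (p : O) ^ m • z₁
            rw [smul_zero, add_zero, hz₁]
          · change (h.R hgk σ - 1) 1 0 • x + (h.R hgk σ - 1) 1 1 • (0 : h.MQ) = (p : O) ^ m • z₂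
            rw [smul_zero, add_zero, hz₂])
        refine ⟨z, ?_⟩
        rw [← hz]
        apply Prod.ext
        · simp [mact]
        · simp [mact]
      · obtain ⟨z, hz⟩ := e1 0 x (fun σ hσ => by
          obtain ⟨z₁, hz₁⟩ := hx σ hσ 0 1
          obtain ⟨z₂, hz₂⟩ := hx σ hσ 1 1
          refine ⟨(z₁, z₂), ?_⟩
          apply Prod.ext
          · change (h.R hgk σ - 1) 0 0 • (0 : h.MQ) + (h.R hgk σ - 1) 0 1 • x = (p : O) ^ m • z₁
            rw [smul_zero, zero_add, hz₁]
          · change (h.R hgk σ - 1) 1 0 • (0 : h.MQ) + (h.R hgk σ - 1) 1 1 • x = (p : O) ^ m • z₂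
            rw [smul_zero, zero_add, hz₂])
        refine ⟨z, ?_⟩
        rw [← hz]
        apply Prod.ext
        · simp [mact]
        · simp [mact]
    intro a b
    obtain ⟨z, hz⟩ := e3 b
    fin_cases a
    · exact ⟨z.1, congrArg Prod.fst hz⟩
    · exact ⟨z.2, congrArg Prod.snd hz⟩
  obtain ⟨K, hK⟩ := exists_pow_le h hmO
  -- the eigenspaces of `w` determine the residual action of Frobenius
  have key2 : ∀ (ε : O), (ε = 1 ∨ ε = -1) → (∃ x : h.MQ, x ≠ 0 ∧ w x = ε • x) →
      ∀ i j, h.theta (h.R hgk Φ i j) =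
        residue O (-(q : O) * ε) * (1 : M2 (ResidueField O)) i j := by
    rintro ε hε ⟨x₀, hx₀, hwx₀⟩
    have hεε : ε * ε = 1 := by rcases hε with rfl | rfl <;> ring
    let N : Submodule h.TT h.MQ := LinearMap.ker (w - algebraMap O h.TT ε • LinearMap.id)
    have hN : ∀ x, x ∈ N ↔ w x = ε • x := by
      intro x
      rw [LinearMap.mem_ker, LinearMap.sub_apply, LinearMap.smul_apply, LinearMap.id_apply,
        sub_eq_zero, hsm]
    haveI : Nontrivial N := ⟨⟨⟨x₀, (hN _).2 hwx₀⟩, 0, fun h0 => hx₀ (congrArg Subtype.val h0)⟩⟩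
    obtain ⟨⟨x, hxN⟩, hx1, hx2⟩ := exists_socle (M := N) h.p_mem hK
    have hwx := (hN x).1 hxN
    have hpT : ∀ z : h.MQ, (p : h.TT) • z = (p : O) • z := fun z => by
      rw [← hsm, map_natCast]
    have hx1' : ∀ z : h.MQ, x ≠ (p : O) • z := by
      intro z hz
      have hzN : z ∈ N := by
        rw [hN]
        apply hpreg (p : O) hp0
        rw [← hpT, ← map_smul, hpT, ← hz, hwx, hz, smul_comm]
      refine hx1 ⟨z, hzN⟩ (Subtype.ext ?_)
      change x = (p : h.TT) • z
      rw [hpT, hz]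
    have hx2' : ∀ a ∈ maximalIdeal h.TT, ∃ z : h.MQ, a • x = (p : O) • z := by
      intro a ha
      obtain ⟨z, hz⟩ := hx2 a ha
      refine ⟨z, ?_⟩
      have := congrArg Subtype.val hz
      rw [← hpT]
      exact this
    have hO : ∀ c : O, (∃ z : h.MQ, c • x = (p : O) • z) → c ∈ maximalIdeal O := by
      rintro c ⟨z, hz⟩
      by_contra hc
      have hu : IsUnit c := by
        by_contra hnu
        exact hc ((IsLocalRing.mem_maximalIdeal _).2 hnu)
      obtain ⟨d, hd⟩ := hu.exists_left_inv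
      refine hx1' (d • z) ?_
      rw [smul_comm, ← hz, smul_smul, hd, one_smul]
    intro i j
    obtain ⟨z, hz⟩ := key 1 x (fun σ hσ a b => by
      obtain ⟨z, hz⟩ := hx2' _ (hres σ hσ a b)
      exact ⟨z, by rw [pow_one]; exact hz⟩) i j
    obtain ⟨s, hs⟩ := IsLocalRing.residue_surjective (h.theta (h.R hgk Φ i j))
    have hμ : h.R hgk Φ i j - algebraMap O h.TT s ∈ maximalIdeal h.TT := by
      rw [← h.theta_eq_zero, map_sub, AlgHom.commutes, sub_eq_zero]
      exact hs.symm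
    obtain ⟨z', hz'⟩ := hx2' _ hμ
    rw [sub_smul, hsm] at hz'
    have e4 : (s * ε + q * (1 : Matrix (Fin 2) (Fin 2) O) i j) • x = (p : O) • (z - ε • z') := by
      rw [pow_one, hwx, hcomm] at hz
      rw [smul_sub, ← hz, smul_comm (p : O) ε, ← hz']
      module
    have e5 := hO _ ⟨_, e4⟩
    rw [← IsLocalRing.residue_eq_zero_iff, map_add, map_mul, map_mul, hs] at e5
    have e6 : residue O ε * residue O ε = 1 := by rw [← map_mul, hεε, map_one]
    have e7 : residue O ((1 : Matrix (Fin 2) (Fin 2) O) i j) = (1 : M2 (ResidueField O)) i j := by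
      rw [Matrix.one_apply, Matrix.one_apply]
      split_ifs
      · rw [map_one]
      · rw [map_zero]
    rw [map_mul, map_neg, ← e7]
    linear_combination (residue O ε) * e5 - (h.theta (h.R hgk Φ i j)) * e6
  -- `w` is a sign
  have hsign : ∃ ε : O, (ε = 1 ∨ ε = -1) ∧ ∀ x, w x = ε • x := by
    by_cases h1 : ∀ x, w x = x
    · exact ⟨1, Or.inl rfl, fun x => by rw [h1, one_smul]⟩
    · refine ⟨-1, Or.inr rfl, fun x => ?_⟩
      by_contra hx
      push Not at h1
      obtain ⟨y, hy⟩ := h1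
      have e1 := key2 (-1) (Or.inr rfl) ⟨w y - y, sub_ne_zero.2 hy, by
        rw [map_sub, hww, neg_one_smul, neg_sub]⟩ 0 0
      have e2 := key2 1 (Or.inl rfl) ⟨w x + x, fun h0 => hx (by
        rw [neg_one_smul]
        exact eq_neg_of_add_eq_zero_left h0), by
        rw [map_add, hww, one_smul, add_comm]⟩ 0 0
      rw [e1] at e2
      apply h2q
      rw [Matrix.one_apply_eq, mul_one, mul_one, ← sub_eq_zero, ← map_sub] at e2
      rw [← map_natCast (residue O)]
      rw [← e2]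
      congr 1
      push_cast
      ring
  obtain ⟨ε, hε, hwε⟩ := hsign
  have hεε : ε * ε = 1 := by rcases hε with rfl | rfl <;> ring
  obtain ⟨x₀, hx₀⟩ := exists_ne (0 : h.MQ)
  refine ⟨ε, hε, key2 ε hε ⟨x₀, hx₀, hwε x₀⟩, fun m x hx a b => ?_⟩
  obtain ⟨z, hz⟩ := key m x hx a b
  refine ⟨ε • z, ?_⟩
  rw [hwε, hcomm] at hz
  rw [smul_comm ((p : O) ^ m) ε, ← hz, smul_add, smul_smul ε ε, hεε, one_smul, Matrix.add_apply,
    Matrix.smul_apply, add_smul]
  congr 1
  rw [Matrix.one_apply, Matrix.one_apply]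
  split_ifs
  · rw [smul_eq_mul, mul_one, hsm, one_smul, smul_smul, mul_comm]
  · simp

end concl

end Fermat.Agent.Sel
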