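import Mathlib
import Fermat.Agent.GalRep.Cyclo

/-!
# The Greenberg–Wiles formula: definitions and statement
-/

set_option autoImplicit false
set_option linter.unusedSectionVars false
set_option linter.style.haveILetI false

noncomputable section

namespace Fermat.Agent.Sel

open Fermat.Agent.GalRep

local notation "Ω" => AlgebraicClosure ℚ

local notation "𝒢" => (AlgebraicClosure ℚ) ≃ₐ[ℚ] (AlgebraicClosure ℚ)

section

variable {k : Type} [Field k] {V V' : Type} [AddCommGroup V] [Module k V] [AddCommGroup V']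
  [Module k V']

/-- locally constant functions vanishing near one -/
def LC0 {V : Type} [AddCommGroup V] (D : Subgroup 𝒢) (c : D → V) : Prop :=
  ∃ F : IntermediateField ℚ Ω, FiniteDimensional ℚ F ∧ ∀ σ : D, (∀ x ∈ F, (σ : 𝒢) x = x) → c σ = 0

theorem LC0.zero (D : Subgroup 𝒢) : LC0 D (0 : D → V) := ⟨⊥, inferInstance, fun _ _ => rfl⟩

theorem LC0.add {D : Subgroup 𝒢} {c d : D → V} (hc : LC0 D c) (hd : LC0 D d) : LC0 D (c + d) := by
  obtain ⟨F, hF, h1⟩ := hc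
  obtain ⟨F', hF', h2⟩ := hd
  refine ⟨F ⊔ F', inferInstance, fun σ hσ => ?_⟩
  rw [Pi.add_apply, h1 σ fun x hx => hσ x ((le_sup_left : F ≤ F ⊔ F') hx),
    h2 σ fun x hx => hσ x ((le_sup_right : F' ≤ F ⊔ F') hx), add_zero]

theorem LC0.smul {D : Subgroup 𝒢} {c : D → V} (hc : LC0 D c) (t : k) : LC0 D (t • c) := by
  obtain ⟨F, hF, h1⟩ := hc
  exact ⟨F, hF, fun σ hσ => by rw [Pi.smul_apply, h1 σ hσ, smul_zero]⟩

/-- locally constant cocycles on `D` -/
def Z1 (r : 𝒢 →* Module.End k V) (D : Subgroup 𝒢) : Submodule k (D → V) where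
  carrier := {c | (∀ σ τ : D, c (σ * τ) = c σ + r σ (c τ)) ∧ LC0 D c}
  zero_mem' := ⟨fun σ τ => by simp, LC0.zero D⟩
  add_mem' := fun {c d} hc hd => ⟨fun σ τ => by
    rw [Pi.add_apply, hc.1, hd.1, Pi.add_apply, Pi.add_apply, map_add]; abel, hc.2.add hd.2⟩
  smul_mem' := fun t c hc => ⟨fun σ τ => by
    rw [Pi.smul_apply, hc.1, Pi.smul_apply, Pi.smul_apply, map_smul, smul_add], hc.2.smul t⟩

/-- coboundaries on `D` -/
def B1 (r : 𝒢 →* Module.End k V) (D : Subgroup 𝒢) : Submodule k (D → V) :=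
  LinearMap.range (LinearMap.pi fun σ : D => (r σ - 1 : Module.End k V))

/-- invariants -/
def H0 (r : 𝒢 →* Module.End k V) (D : Subgroup 𝒢) : Submodule k V where
  carrier := {x | ∀ σ ∈ D, r σ x = x}
  zero_mem' := fun σ _ => map_zero _
  add_mem' := fun hx hy σ hσ => by rw [map_add, hx σ hσ, hy σ hσ]
  smul_mem' := fun t x hx σ hσ => by rw [map_smul, hx σ hσ]

/-- the cup product of two cocycles vanishes in `H²(D, k(χ))` -/
def Cup0 (r' : 𝒢 →* Module.End k V') (B : V →ₗ[k] V' →ₗ[k] k) (χ : 𝒢 → k) (D : Subgroup 𝒢)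
    (c : D → V) (c' : D → V') : Prop :=
  ∃ f : D → k, LC0 D f ∧ ∀ σ τ : D, B (c σ) (r' σ (c' τ)) = f σ + χ σ * f τ - f (σ * τ)

/-- the orthogonal complement of a local condition -/
def Perp (r' : 𝒢 →* Module.End k V') (B : V →ₗ[k] V' →ₗ[k] k) (χ : 𝒢 → k) (D : Subgroup 𝒢)
    (L : Submodule k (D → V)) : Submodule k (D → V') where
  carrier := {c' | c' ∈ Z1 r' D ∧ ∀ c ∈ L, Cup0 r' B χ D c c'}
  zero_mem' := ⟨Submodule.zero_mem _, fun c _ => ⟨0, LC0.zero D, fun σ τ => by simp⟩⟩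
  add_mem' := fun {c' d'} hc hd => ⟨Submodule.add_mem _ hc.1 hd.1, fun c h => by
    obtain ⟨f, hf, h1⟩ := hc.2 c h
    obtain ⟨g, hg, h2⟩ := hd.2 c h
    refine ⟨f + g, hf.add hg, fun σ τ => ?_⟩
    rw [Pi.add_apply, map_add, map_add, h1, h2, Pi.add_apply, Pi.add_apply, Pi.add_apply]
    ring⟩
  smul_mem' := fun t c' hc => ⟨Submodule.smul_mem _ t hc.1, fun c h => by
    obtain ⟨f, hf, h1⟩ := hc.2 c h
    refine ⟨t • f, hf.smul t, fun σ τ => ?_⟩
    rw [Pi.smul_apply, map_smul, map_smul, h1, Pi.smul_apply, Pi.smul_apply, Pi.smul_apply]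
    simp only [smul_eq_mul]
    ring⟩

/-- the Selmer space (of cocycles) -/
def SelZ (r : 𝒢 →* Module.End k V) (S : Finset ℕ) (A : S → ValuationSubring Ω)
    (L : ∀ v : S, Submodule k ((A v).decompositionSubgroup ℚ → V)) : Submodule k (𝒢 → V) where
  carrier := {c | (∀ σ τ : 𝒢, c (σ * τ) = c σ + r σ (c τ)) ∧
    (∃ F : IntermediateField ℚ Ω, FiniteDimensional ℚ F ∧ ∀ σ : 𝒢, (∀ x ∈ F, σ x = x) → c σ = 0) ∧
    (∀ l : ℕ, l.Prime → l ∉ S → ∀ A' : ValuationSubring Ω, A'.LiesOverPrime l →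
      ∀ σ ∈ A'.inertiaSubgroupIn ℚ, c σ = 0) ∧
    ∀ v : S, (fun σ : (A v).decompositionSubgroup ℚ => c σ) ∈ L v}
  zero_mem' := ⟨fun σ τ => by simp, ⟨⊥, inferInstance, fun _ _ => rfl⟩, fun _ _ _ _ _ _ _ => rfl,
    fun v => Submodule.zero_mem (L v)⟩
  add_mem' := fun {c d} hc hd => ⟨fun σ τ => by
      rw [Pi.add_apply, hc.1, hd.1, Pi.add_apply, Pi.add_apply, map_add]; abel, by
      obtain ⟨F, hF, h1⟩ := hc.2.1
      obtain ⟨F', hF', h2⟩ := hd.2.1
      refine ⟨F ⊔ F', inferInstance, fun σ hσ => ?_⟩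
      rw [Pi.add_apply, h1 σ fun x hx => hσ x ((le_sup_left : F ≤ F ⊔ F') hx),
        h2 σ fun x hx => hσ x ((le_sup_right : F' ≤ F ⊔ F') hx), add_zero],
    fun l hl hlS A' hA' σ hσ => by
      rw [Pi.add_apply, hc.2.2.1 l hl hlS A' hA' σ hσ, hd.2.2.1 l hl hlS A' hA' σ hσ, add_zero],
    fun v => Submodule.add_mem (L v) (hc.2.2.2 v) (hd.2.2.2 v)⟩
  smul_mem' := fun t c hc => ⟨fun σ τ => by
      rw [Pi.smul_apply, hc.1, Pi.smul_apply, Pi.smul_apply, map_smul, smul_add], by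
      obtain ⟨F, hF, h1⟩ := hc.2.1
      exact ⟨F, hF, fun σ hσ => by rw [Pi.smul_apply, h1 σ hσ, smul_zero]⟩,
    fun l hl hlS A' hA' σ hσ => by
      rw [Pi.smul_apply, hc.2.2.1 l hl hlS A' hA' σ hσ, smul_zero],
    fun v => Submodule.smul_mem (L v) t (hc.2.2.2 v)⟩

end

/-- the standing hypotheses: smooth representations unramified outside `S`, in duality -/
structure DualReps (p : ℕ) [Fact p.Prime] {V V' : Type} [AddCommGroup V] [Module (ZMod p) V]
    [AddCommGroup V'] [Module (ZMod p) V'] (S : Finset ℕ) (r : 𝒢 →* Module.End (ZMod p) V)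
    (r' : 𝒢 →* Module.End (ZMod p) V') (B : V →ₗ[ZMod p] V' →ₗ[ZMod p] ZMod p) : Prop where
  prime : ∀ v ∈ S, v.Prime
  mem : p ∈ S
  lc : ∃ F : IntermediateField ℚ Ω, FiniteDimensional ℚ F ∧
    ∀ σ : 𝒢, (∀ x ∈ F, σ x = x) → r σ = 1 ∧ r' σ = 1
  unr : ∀ l : ℕ, l.Prime → l ∉ S → ∀ A : ValuationSubring Ω, A.LiesOverPrime l →
    ∀ σ ∈ A.inertiaSubgroupIn ℚ, r σ = 1 ∧ r' σ = 1
  nd : ∀ x, (∀ y, B x y = 0) → x = 0
  nd' : ∀ y, (∀ x, B x y = 0) → y = 0
  eq : ∀ σ x y, B (r σ x) (r' σ y) = cyc p σ * B x y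

/-- **Greenberg–Wiles** (inequality, in terms of cocycle spaces) -/
def GWStatement (p : ℕ) [Fact p.Prime] : Prop :=
  ∀ (V V' : Type) [AddCommGroup V] [Module (ZMod p) V] [AddCommGroup V'] [Module (ZMod p) V']
    [FiniteDimensional (ZMod p) V] [FiniteDimensional (ZMod p) V'] (S : Finset ℕ)
    (r : 𝒢 →* Module.End (ZMod p) V) (r' : 𝒢 →* Module.End (ZMod p) V')
    (B : V →ₗ[ZMod p] V' →ₗ[ZMod p] ZMod p), DualReps p S r r' B →
    ∀ (A : S → ValuationSubring Ω) (_ : ∀ v, (A v).LiesOverPrime (v : ℕ))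
      (L : ∀ v : S, Submodule (ZMod p) ((A v).decompositionSubgroup ℚ → V)),
      (∀ v, B1 r _ ≤ L v) → (∀ v, L v ≤ Z1 r _) →
    (∀ v, FiniteDimensional (ZMod p) (L v)) ∧
    FiniteDimensional (ZMod p) (SelZ r S A L) ∧
    FiniteDimensional (ZMod p) (SelZ r' S A fun v => Perp r' B (cyc p) _ (L v)) ∧
    (Module.finrank (ZMod p) (SelZ r S A L) : ℤ) ≤
      Module.finrank (ZMod p) (SelZ r' S A fun v => Perp r' B (cyc p) _ (L v)) +
      ∑ v : S, ((Module.finrank (ZMod p) (L v) : ℤ) - Module.finrank (ZMod p) V) -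
      Module.finrank (ZMod p) (H0 r (Subgroup.zpowers complexConjugation))

/-- local duality: the orthogonal complement of everything consists of coboundaries -/
def LocPerpTop (p : ℕ) [Fact p.Prime] : Prop :=
  ∀ (V V' : Type) [AddCommGroup V] [Module (ZMod p) V] [AddCommGroup V'] [Module (ZMod p) V']
    [FiniteDimensional (ZMod p) V] [FiniteDimensional (ZMod p) V'] (S : Finset ℕ)
    (r : 𝒢 →* Module.End (ZMod p) V) (r' : 𝒢 →* Module.End (ZMod p) V')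
    (B : V →ₗ[ZMod p] V' →ₗ[ZMod p] ZMod p), DualReps p S r r' B →
    ∀ (v : ℕ) (A : ValuationSubring Ω), v.Prime → A.LiesOverPrime v →
    Perp r' B (cyc p) (A.decompositionSubgroup ℚ) (Z1 r _) ≤ B1 r' _

/-- local Euler characteristic away from `p` -/
def LocDim (p : ℕ) [Fact p.Prime] : Prop :=
  ∀ (V V' : Type) [AddCommGroup V] [Module (ZMod p) V] [AddCommGroup V'] [Module (ZMod p) V']
    [FiniteDimensional (ZMod p) V] [FiniteDimensional (ZMod p) V'] (S : Finset ℕ)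
    (r : 𝒢 →* Module.End (ZMod p) V) (r' : 𝒢 →* Module.End (ZMod p) V')
    (B : V →ₗ[ZMod p] V' →ₗ[ZMod p] ZMod p), DualReps p S r r' B →
    ∀ (v : ℕ) (A : ValuationSubring Ω), v.Prime → v ≠ p → A.LiesOverPrime v →
    Module.finrank (ZMod p) (Z1 r (A.decompositionSubgroup ℚ)) =
      Module.finrank (ZMod p) V + Module.finrank (ZMod p) (H0 r' (A.decompositionSubgroup ℚ))

end Fermat.Agent.Sel
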