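import Mathlib

/-!
# A complete unramified discrete valuation ring whose residue field contains the roots of all
quadratic polynomials over the prime field
-/

set_option autoImplicit false
set_option linter.unusedSectionVars false
set_option linter.style.haveILetI false

noncomputable section

namespace Fermat.Agent.Sel

open IsLocalRing Polynomial

/-- the product of the monic quadratic polynomials -/
def quads (p : ℕ) [Fact p.Prime] : (ZMod p)[X] :=
  ∏ ab : ZMod p × ZMod p, (X ^ 2 - C ab.1 * X + C ab.2)

theorem quad_ne (p : ℕ) [Fact p.Prime] (ab : ZMod p × ZMod p) :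
    (X ^ 2 - C ab.1 * X + C ab.2 : (ZMod p)[X]).natDegree = 2 := by
  compute_degree!

theorem dvd_quads (p : ℕ) [Fact p.Prime] (a b : ZMod p) :
    (X ^ 2 - C a * X + C b : (ZMod p)[X]) ∣ quads p := by
  rw [quads]
  have h := Finset.dvd_prod_of_mem (s := (Finset.univ : Finset (ZMod p × ZMod p)))
    (fun ab : ZMod p × ZMod p => (X ^ 2 - C ab.1 * X + C ab.2 : (ZMod p)[X]))
    (Finset.mem_univ (a, b))
  exact h

theorem exists_field (p : ℕ) [Fact p.Prime] : ∃ (K : Type) (_ : Field K) (_ : Finite K)
    (_ : CharP K p), ∀ m n : ℤ, ∃ x y : K, x + y = m ∧ x * y = n := by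
  obtain ⟨K, _, _, _, h1⟩ : ∃ (K : Type) (_ : Field K) (_ : Algebra (ZMod p) K)
      (_ : Module.Finite (ZMod p) K), ((quads p).map (algebraMap (ZMod p) K)).Splits :=
    ⟨(quads p).SplittingField, inferInstance, inferInstance, inferInstance, SplittingField.splits _⟩
  haveI : CharP K p := charP_of_injective_algebraMap (algebraMap (ZMod p) K).injective p
  haveI : Finite K := Module.finite_of_finite (ZMod p)
  refine ⟨K, inferInstance, inferInstance, inferInstance, fun m n => ?_⟩
  have hne : ∀ ab : ZMod p × ZMod p, (X ^ 2 - C ab.1 * X + C ab.2 : (ZMod p)[X]) ≠ 0 := by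
    intro ab h
    have h2 := quad_ne p ab
    rw [h, natDegree_zero] at h2
    omega
  have h2 : ((X ^ 2 - C (m : ZMod p) * X + C (n : ZMod p) : (ZMod p)[X]).map
      (algebraMap (ZMod p) K)).Splits := by
    have h3 := dvd_quads p (m : ZMod p) (n : ZMod p)
    have h5 : quads p ≠ 0 := by
      rw [quads]
      exact Finset.prod_ne_zero_iff.2 fun ab _ => hne ab
    have h6 : (quads p).map (algebraMap (ZMod p) K) ≠ 0 :=
      (Polynomial.map_ne_zero_iff (algebraMap (ZMod p) K).injective).2 h5
    exact Splits.of_dvd h1 h6 (Polynomial.map_dvd _ h3)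
  have h4 : (X ^ 2 - C (m : ZMod p) * X + C (n : ZMod p) : (ZMod p)[X]).map
      (algebraMap (ZMod p) K) = X ^ 2 - C (m : K) * X + C (n : K) := by
    simp
  rw [h4] at h2
  have hdeg : (X ^ 2 - C (m : K) * X + C (n : K) : K[X]).natDegree = 2 := by compute_degree!
  have hmon : (X ^ 2 - C (m : K) * X + C (n : K) : K[X]).Monic := by monicity!
  obtain ⟨x, hx⟩ := h2.exists_eval_eq_zero (by
    rw [degree_eq_natDegree hmon.ne_zero, hdeg]; decide)
  refine ⟨x, m - x, by ring, ?_⟩
  simp only [eval_add, eval_sub, eval_pow, eval_X, eval_mul, eval_C] at hx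
  linear_combination -hx

theorem exists_wit (p : ℕ) [hp : Fact p.Prime] : ∃ (O : Type) (_ : CommRing O) (_ : IsDomain O)
    (_ : IsDiscreteValuationRing O) (_ : IsAdicComplete (maximalIdeal O) O)
    (_ : Finite (ResidueField O)) (_ : CharZero O), maximalIdeal O = Ideal.span {(p : O)} ∧
    ∀ m n : ℤ, ∃ x y : ResidueField O, x + y = m ∧ x * y = n := by
  obtain ⟨K, _, _, _, hK⟩ := exists_field p
  haveI : PerfectRing K p := inferInstance
  have hmax : maximalIdeal (WittVector p K) = Ideal.span {(p : WittVector p K)} :=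
    (WittVector.irreducible p).maximalIdeal_eq
  haveI : IsAdicComplete (maximalIdeal (WittVector p K)) (WittVector p K) := by
    rw [hmax]; infer_instance
  let e : ResidueField (WittVector p K) ≃+* K :=
    (Ideal.quotEquivOfEq hmax).trans WittVector.quotientPEquiv
  haveI : Finite (ResidueField (WittVector p K)) := Finite.of_injective e e.injective
  have hirr := WittVector.irreducible p (k := K)
  haveI : CharZero (WittVector p K) := by
    refine charZero_of_inj_zero fun n hn => ?_
    by_contra hn0
    obtain ⟨m, c, hc, rfl⟩ := Nat.exists_eq_pow_mul_and_not_dvd hn0 p hp.out.ne_one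
    rw [Nat.cast_mul, Nat.cast_pow, mul_eq_zero] at hn
    rcases hn with h | h
    · exact hirr.ne_zero (eq_zero_of_pow_eq_zero h)
    · have h1 : WittVector.constantCoeff ((c : WittVector p K)) = 0 := by rw [h, map_zero]
      rw [map_natCast, CharP.cast_eq_zero_iff K p] at h1
      exact hc h1
  refine ⟨WittVector p K, inferInstance, inferInstance, inferInstance, inferInstance, inferInstance,
    inferInstance, hmax, fun m n => ?_⟩
  obtain ⟨x, y, h1, h2⟩ := hK m n
  refine ⟨e.symm x, e.symm y, ?_, ?_⟩
  · rw [← map_add, h1, map_intCast]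
  · rw [← map_mul, h2, map_intCast]

end Fermat.Agent.Sel
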