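import Fermat.Agent.Sel.Full
import Fermat.Agent.Cheb.Places
import Fermat.Agent.GalRep.Cyclo

/-!
# Taylor–Wiles primes killing a space of cocycles
-/

set_option autoImplicit false
set_option linter.unusedSectionVars false
set_option linter.style.haveILetI false

noncomputable section

namespace Fermat.Agent.Sel

open Matrix Fermat.Agent.GalRep

local notation "Ω" => AlgebraicClosure ℚ

local notation "𝒢" => (AlgebraicClosure ℚ) ≃ₐ[ℚ] (AlgebraicClosure ℚ)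

variable {k : Type} [Field k]

theorem pow_eq_add (g : M2 k) (n : ℕ) : ∃ a b : k, g ^ n = a • g + b • 1 := by
  have hCH : g * g = g.trace • g - g.det • 1 := by
    ext i j
    fin_cases i <;> fin_cases j <;>
      simp [Matrix.mul_apply, Fin.sum_univ_two, Matrix.trace_fin_two, Matrix.det_fin_two] <;> ring
  induction n with
  | zero => exact ⟨0, 1, by rw [pow_zero, zero_smul, zero_add, one_smul]⟩
  | succ n ih =>
    obtain ⟨a, b, h⟩ := ih
    refine ⟨a * g.trace + b, -(a * g.det), ?_⟩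
    rw [pow_succ, h, add_mul, smul_mul_assoc, hCH, smul_mul_assoc, one_mul]
    module

theorem hh_pow (g : M2 k) (n : ℕ) : ∃ a : k, hh (g ^ n) = a • hh g := by
  obtain ⟨a, b, h⟩ := pow_eq_add g n
  refine ⟨a, ?_⟩
  rw [h, hh, hh, Matrix.trace_add, Matrix.trace_smul, Matrix.trace_smul, Matrix.trace_one,
    Fintype.card_fin]
  simp only [smul_eq_mul, Nat.cast_ofNat]
  module

theorem dsc_pow (g : M2 k) (n : ℕ) : ∃ a : k, hh (g ^ n) = a • hh g ∧ dsc (g ^ n) = a ^ 2 * dsc g := by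
  obtain ⟨a, h⟩ := hh_pow g n
  refine ⟨a, h, ?_⟩
  have h1 := hh_mul_self (g ^ n)
  rw [h, smul_mul_assoc, mul_smul_comm, hh_mul_self, smul_smul, smul_smul] at h1
  have h2 := congrFun (congrFun h1 0) 0
  simp only [Matrix.smul_apply, Matrix.one_apply_eq, smul_eq_mul, mul_one] at h2
  rw [← h2]
  ring

variable {ρ : 𝒢 →* M2 k} {c : 𝒢 → M2 k} {p : ℕ}

theorem TCoc.pow (hc : TCoc ρ c) {τ : 𝒢} (hd : (ρ τ).det = 1) (m : ℕ) :
    (c (τ ^ m) * hh (ρ τ)).trace = m * (c τ * hh (ρ τ)).trace := by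
  induction m with
  | zero => rw [pow_zero, hc.one, zero_mul, Matrix.trace_zero, Nat.cast_zero, zero_mul]
  | succ m ih =>
    have h1 := hc.mul τ (τ ^ m)
    rw [hd, one_smul] at h1
    have h2 := trace_cob (X := c (τ ^ m)) (rho_inv_mul (ρ := ρ) τ)
    rw [sub_mul, Matrix.trace_sub, sub_eq_zero] at h2
    rw [pow_succ', h1, add_mul, Matrix.trace_add, h2, ih]
    push_cast
    ring

/-- the functional given by an element of the Galois group -/
def lamb (ρ : 𝒢 →* M2 k) (σ : 𝒢) : (𝒢 → M2 k) →ₗ[k] k where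
  toFun := fun c => (c σ * hh (ρ σ)).trace
  map_add' := fun c d => by rw [Pi.add_apply, add_mul, Matrix.trace_add]
  map_smul' := fun t c => by
    rw [Pi.smul_apply, smul_mul_assoc, Matrix.trace_smul, RingHom.id_apply]

theorem finrank_inf_ker {E : Type} [AddCommGroup E] [Module k E] (D : Submodule k E)
    [FiniteDimensional k D] (l : E →ₗ[k] k) (x : E) (hx : x ∈ D) (hlx : l x ≠ 0) :
    Module.finrank k (D ⊓ LinearMap.ker l : Submodule k E) + 1 = Module.finrank k D := by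
  have h1 := LinearMap.finrank_range_add_finrank_ker (l.domRestrict D)
  have h2 : LinearMap.range (l.domRestrict D) = ⊤ := by
    rw [LinearMap.range_eq_top]
    intro y
    refine ⟨(y / l x) • ⟨x, hx⟩, ?_⟩
    rw [map_smul]
    change (y / l x) • l x = y
    rw [smul_eq_mul, div_mul_cancel₀ _ hlx]
  have h3 : Module.finrank k (LinearMap.ker (l.domRestrict D)) =
      Module.finrank k (D ⊓ LinearMap.ker l : Submodule k E) := by
    have h4 : (LinearMap.ker (l.domRestrict D)).map D.subtype = D ⊓ LinearMap.ker l := by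
      ext z
      simp only [Submodule.mem_map, LinearMap.mem_ker, Submodule.mem_inf]
      constructor
      · rintro ⟨w, hw, rfl⟩
        exact ⟨w.2, hw⟩
      · rintro ⟨hz, hz'⟩
        exact ⟨⟨z, hz⟩, hz', rfl⟩
    rw [← h4]
    exact (LinearEquiv.finrank_eq (Submodule.equivMapOfInjective D.subtype
      D.subtype_injective (LinearMap.ker (l.domRestrict D))))
  rw [h2, finrank_top, Module.finrank_self, h3] at h1
  omega

theorem exists_level (D : Submodule k (𝒢 → M2 k))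
    [FiniteDimensional k D]
    (hD : ∀ c ∈ D, TCoc ρ c) : ∃ F : IntermediateField ℚ Ω, FiniteDimensional ℚ F ∧
    ∀ c ∈ D, ∀ σ, (∀ x ∈ F, σ x = x) → c σ = 0 := by
  classical
  let b := Module.finBasis k D
  choose F hF hF0 using fun i => (hD (b i) (b i).2).lc
  haveI := hF
  refine ⟨⨆ i, F i, inferInstance, fun c hc σ hσ => ?_⟩
  have h1 : ∀ i, (b i : 𝒢 → M2 k) σ = 0 := fun i =>
    hF0 i σ fun x hx => hσ x (le_iSup F i hx)
  have h2 : c = ((∑ i, b.repr ⟨c, hc⟩ i • b i : D) : 𝒢 → M2 k) := by rw [b.sum_repr]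
  rw [h2]
  simp only [Submodule.coe_sum, Submodule.coe_smul, Finset.sum_apply, Pi.smul_apply, h1,
    smul_zero, Finset.sum_const_zero]

/-- **Taylor–Wiles primes.** -/
theorem exists_TW [CharP k p] [Fact p.Prime] (h2 : (2 : k) ≠ 0) (n : ℕ) (hn : 1 ≤ n)
    (hρ : ∃ F : IntermediateField ℚ Ω, FiniteDimensional ℚ F ∧ ∀ σ, (∀ x ∈ F, σ x = x) → ρ σ = 1)
    (hdet : ∀ σ : 𝒢, (∀ ζ : Ω, ζ ^ (p ^ n) = 1 → σ ζ = ζ) → (ρ σ).det = 1)
    (hadj : ∀ W : Submodule k (M2 k), (∀ σ, ∀ X ∈ W, ρ σ * X * ρ σ⁻¹ ∈ W) →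
      (∀ X ∈ W, X.trace = 0) → W ≠ ⊥ → ∀ X : M2 k, X.trace = 0 → X ∈ W)
    (hex : ∃ σ : 𝒢, (∀ ζ : Ω, ζ ^ (p ^ n) = 1 → σ ζ = ζ) ∧ dsc (ρ σ) ≠ 0)
    (hH1 : ∀ c : 𝒢 → M2 k, TCoc ρ c → (∀ σ, ρ σ = 1 → c σ = 0) → TCob ρ c)
    (d : ℕ) (D : Submodule k (𝒢 → M2 k)) [FiniteDimensional k D] (hDd : Module.finrank k D = d)
    (hD : ∀ c ∈ D, TCoc ρ c)
    (hD0 : ∀ c ∈ D, TCob ρ c → c = 0) (S : Set ℕ) (hS : S.Finite) :
    ∃ (qv : Fin d → ℕ) (A : Fin d → ValuationSubring Ω) (Φ : Fin d → 𝒢),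
      Function.Injective qv ∧ (∀ i, (qv i).Prime ∧ qv i ∉ S ∧ p ^ n ∣ qv i - 1 ∧
        (A i).LiesOverPrime (qv i) ∧ (A i).IsFrobeniusAt (Φ i) (qv i) ∧ dsc (ρ (Φ i)) ≠ 0) ∧
      ∀ c ∈ D, (∀ i, (c (Φ i) * hh (ρ (Φ i))).trace = 0) → c = 0 := by
  classical
  have hp : p.Prime := Fact.out
  haveI : NeZero (p ^ n) := ⟨(pow_pos hp.pos n).ne'⟩
  induction d generalizing D S with
  | zero =>
    refine ⟨Fin.elim0, Fin.elim0, Fin.elim0, fun i => i.elim0, fun i => i.elim0, fun c hc _ => ?_⟩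
    rw [Submodule.finrank_eq_zero] at hDd
    rw [hDd, Submodule.mem_bot] at hc
    exact hc
  | succ d ih =>
    obtain ⟨c₀, hc₀, hc₀0⟩ : ∃ c ∈ D, c ≠ 0 := by
      refine (Submodule.ne_bot_iff D).1 fun h => ?_
      rw [h, finrank_bot] at hDd
      omega
    obtain ⟨σ, hσ, hσd, hσc⟩ := exists_kill h2 n (pow_pos hp.pos n).ne' hadj hex hH1 (hD c₀ hc₀)
      (fun h => hc₀0 (hD0 c₀ hc₀ h))
    obtain ⟨F₁, hF₁, h₁⟩ := hρ
    obtain ⟨F₂, hF₂, h₂⟩ := exists_level D hD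
    obtain ⟨F₃, hF₃, h₃⟩ := exists_level_cyc (p ^ n)
    let F := F₁ ⊔ F₂ ⊔ F₃
    haveI : FiniteDimensional ℚ F := by
      haveI := hF₁
      haveI := hF₂
      haveI := hF₃
      infer_instance
    let U : Subgroup 𝒢 := F.fixingSubgroup
    have hUo : IsOpen (U : Set 𝒢) := IntermediateField.fixingSubgroup_isOpen F
    have hUF : ∀ u ∈ U, ∀ x ∈ F, u x = x := fun u hu x hx =>
      (IntermediateField.mem_fixingSubgroup_iff F u).1 hu x hx
    have hUρ : ∀ u ∈ U, ρ u = 1 := fun u hu => h₁ u fun x hx =>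
      hUF u hu x (le_sup_left (a := F₁ ⊔ F₂) (b := F₃) (le_sup_left (a := F₁) (b := F₂) hx))
    have hUc : ∀ u ∈ U, ∀ c ∈ D, c u = 0 := fun u hu c hc => h₂ c hc u fun x hx =>
      hUF u hu x (le_sup_left (a := F₁ ⊔ F₂) (b := F₃) (le_sup_right (a := F₁) (b := F₂) hx))
    have hUz : ∀ u ∈ U, ∀ ζ : Ω, ζ ^ (p ^ n) = 1 → u ζ = ζ := fun u hu ζ hζ => by
      have h4 := h₃ u fun x hx => hUF u hu x (le_sup_right (a := F₁ ⊔ F₂) (b := F₃) hx)
      rw [apply_eq_pow_cyc (p ^ n) u hζ, h4]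
      have h5 : 1 < p ^ n := Nat.one_lt_pow (by omega) hp.one_lt
      haveI : Fact (1 < p ^ n) := ⟨h5⟩
      rw [ZMod.val_one, pow_one]
    obtain ⟨ℓ, hℓ, hℓS, A, hA, τ, hτ, m₁, m₂, hm₁, hm₂⟩ :=
      Fermat.Agent.Cheb.exists_isFrobeniusAt_pow_mem (L := Ω) (S ∪ {p}) (hS.union (Set.finite_singleton p)) U hUo σ
    have hℓS' : ℓ ∉ S := fun h => hℓS (Or.inl h)
    have hℓp : ℓ ≠ p := fun h => hℓS (Or.inr h)
    have hσeq : σ * (σ⁻¹ * τ ^ m₁) = τ ^ m₁ := mul_inv_cancel_left _ _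
    have hτeq : τ * (τ⁻¹ * σ ^ m₂) = σ ^ m₂ := mul_inv_cancel_left _ _
    have hmulU : ∀ g u, u ∈ U → ρ (g * u) = ρ g ∧ ∀ c ∈ D, c (g * u) = c g := by
      intro g u hu
      refine ⟨by rw [map_mul, hUρ u hu, mul_one], fun c hc => ?_⟩
      rw [(hD c hc).mul g u, hUc u hu c hc, mul_zero, zero_mul, smul_zero, add_zero]
    have hσpow : ∀ m : ℕ, ∀ ζ : Ω, ζ ^ (p ^ n) = 1 → (σ ^ m) ζ = ζ := by
      intro m ζ hζ
      induction m with
      | zero => rfl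
      | succ m ih => rw [pow_succ, AlgEquiv.mul_apply, hσ ζ hζ, ih]
    have hτz : ∀ ζ : Ω, ζ ^ (p ^ n) = 1 → τ ζ = ζ := by
      intro ζ hζ
      have h4 : (τ * (τ⁻¹ * σ ^ m₂)) ζ = τ ζ := by
        rw [AlgEquiv.mul_apply, hUz _ hm₂ ζ hζ]
      rw [hτeq, hσpow m₂ ζ hζ] at h4
      exact h4.symm
    have hρσ : ρ σ = ρ τ ^ m₁ := by
      have h4 := (hmulU σ _ hm₁).1
      rw [hσeq, map_pow] at h4
      exact h4.symm
    obtain ⟨a, ha, ha'⟩ := dsc_pow (ρ τ) m₁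
    have hτd : dsc (ρ τ) ≠ 0 := by
      intro h
      rw [← hρσ, h, mul_zero] at ha'
      exact hσd ha'
    have hτdet := hdet τ hτz
    have hcσ : (c₀ σ * hh (ρ σ)).trace = a * (m₁ * (c₀ τ * hh (ρ τ)).trace) := by
      have h4 := (hmulU σ _ hm₁).2 c₀ hc₀
      rw [hσeq] at h4
      rw [← h4, hρσ, ha, mul_smul_comm, Matrix.trace_smul, (hD c₀ hc₀).pow hτdet, smul_eq_mul]
    have hτc : lamb ρ τ c₀ ≠ 0 := by
      intro h
      change (c₀ τ * hh (ρ τ)).trace = 0 at h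
      rw [h, mul_zero, mul_zero] at hcσ
      exact hσc hcσ
    let D' : Submodule k (𝒢 → M2 k) := D ⊓ LinearMap.ker (lamb ρ τ)
    have hfin := finrank_inf_ker D (lamb ρ τ) c₀ hc₀ hτc
    haveI : FiniteDimensional k D' := Submodule.finiteDimensional_inf_left _ _
    obtain ⟨qv, A', Φ, hinj, hq, hker⟩ := ih D' (by change Module.finrank k D' + 1 = _ at hfin; omega)
      (fun c hc => hD c hc.1) (fun c hc => hD0 c hc.1) (S ∪ {ℓ}) (hS.union (Set.finite_singleton ℓ))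
    refine ⟨Fin.cons ℓ qv, Fin.cons A A', Fin.cons τ Φ, ?_, fun i => ?_, fun c hc h => ?_⟩
    · rw [Fin.cons_injective_iff]
      refine ⟨?_, hinj⟩
      rintro ⟨i, hi⟩
      exact (hq i).2.1 (Or.inr hi)
    · refine Fin.cases ?_ (fun i => ?_) i
      · simp only [Fin.cons_zero]
        refine ⟨hℓ, hℓS', ?_, hA, hτ, hτd⟩
        have hcop : Nat.Coprime ℓ (p ^ n) := Nat.Coprime.pow_right n ((Nat.coprime_primes hℓ hp).2 hℓp)
        have h4 := cyc_frobenius hcop hA hτ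
        have h5 : cyc (p ^ n) τ = ((1 : ℕ) : ZMod (p ^ n)) :=
          cyc_eq_of_forall (p ^ n) τ 1 fun x hx => by rw [pow_one]; exact hτz x hx
        rw [h4, ZMod.natCast_eq_natCast_iff] at h5
        exact (Nat.modEq_iff_dvd' hℓ.one_le).1 h5.symm
      · simp only [Fin.cons_succ]
        obtain ⟨a1, a2, a3, a4, a5, a6⟩ := hq i
        exact ⟨a1, fun h => a2 (Or.inl h), a3, a4, a5, a6⟩
    · have h0 := h 0
      simp only [Fin.cons_zero] at h0
      exact hker c ⟨hc, h0⟩ fun i => by simpa only [Fin.cons_succ] using h i.succ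

end Fermat.Agent.Sel
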