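import Fermat.Agent.Sel.FreyRep
import Fermat.Agent.Sel.Primes

/-!
# The residual representation over the coefficient field
-/

set_option autoImplicit false
set_option linter.unusedSectionVars false
set_option linter.style.haveILetI false

noncomputable section

namespace Fermat.Agent.Sel

open Matrix Module Fermat.Agent.GalRep Fermat.Agent.EC

local notation "Ω" => AlgebraicClosure ℚ

local notation "𝒢" => (AlgebraicClosure ℚ) ≃ₐ[ℚ] (AlgebraicClosure ℚ)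

/-- the cyclotomic character is surjective -/
theorem cyc_surj (n : ℕ) [NeZero n] (a : ℕ) (ha : a.Coprime n) : ∃ σ : 𝒢, cyc n σ = a := by
  obtain ⟨ζ, hζ⟩ := exists_zeta n
  have hζ' := hζ.pow_of_coprime a ha
  have h1 : IsConjRoot ℚ (ζ ^ a) ζ := by
    rw [IsConjRoot, ← Polynomial.cyclotomic_eq_minpoly_rat hζ (NeZero.pos n),
      ← Polynomial.cyclotomic_eq_minpoly_rat hζ' (NeZero.pos n)]
  obtain ⟨σ, hσ⟩ := isConjRoot_iff_exists_algEquiv.1 h1
  refine ⟨σ, cyc_eq_of_forall n σ a fun x hx => ?_⟩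
  obtain ⟨i, -, rfl⟩ := hζ.eq_pow_of_pow_eq_one hx
  rw [map_pow, hσ, ← pow_mul, ← pow_mul, mul_comm]

variable {P : FreyPackage} [hp : Fact P.p.Prime] {ρ : 𝒢 →* M2 (ZMod P.p)} (h : Res0 P ρ)
  {k : Type} [Field k] (ι : ZMod P.p →+* k)

/-- extension of scalars -/
def extk (ρ : 𝒢 →* M2 (ZMod P.p)) (ι : ZMod P.p →+* k) : 𝒢 →* M2 k :=
  (ι.mapMatrix : M2 (ZMod P.p) →+* M2 k).toMonoidHom.comp ρ

theorem extk_apply (σ : 𝒢) : extk ρ ι σ = (ρ σ).map ι := rfl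

theorem extk_apply' (σ : 𝒢) : extk ρ ι σ = ι.mapMatrix (ρ σ) := rfl

theorem extk_det (σ : 𝒢) : (extk ρ ι σ).det = ι (ρ σ).det := by
  rw [extk_apply', ← RingHom.map_det]

theorem ne2 : P.p ≠ 2 := by have := P.hp5; omega

include h

theorem Res0.exists_two : ∃ z : 𝒢, ρ z = (2 : ZMod P.p) • 1 := by
  have h4 : (4 : ℕ).Coprime P.p := by
    have h9 : Nat.Coprime (2 ^ 2) P.p := Nat.Coprime.pow_left 2
      ((Nat.coprime_primes Nat.prime_two hp.out).2 (Ne.symm ne2))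
    exact h9
  obtain ⟨z₀, hz₀⟩ := cyc_surj P.p 4 h4
  have hd : (ρ z₀⁻¹).det * 4 = 1 := by
    have h1 := congrArg Matrix.det (rho_inv_mul (ρ := ρ) z₀)
    rw [Matrix.det_mul, Matrix.det_one, h.det z₀, hz₀] at h1
    exact_mod_cast h1
  obtain ⟨σ, -, hσ⟩ := h.full ((2 : ZMod P.p) • ρ z₀⁻¹) (by
    rw [Matrix.det_smul, Fintype.card_fin, ← hd]
    ring)
  refine ⟨σ * z₀, ?_⟩
  rw [map_mul, hσ, smul_mul_assoc, rho_inv_mul]

theorem Res0.exists_ut (a : ZMod P.p) : ∃ σ ∈ fixP P.p, ρ σ = ut a :=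
  h.full _ (by simp [ut, Matrix.det_fin_two])

theorem Res0.exists_lo (a : ZMod P.p) : ∃ σ ∈ fixP P.p, ρ σ = lo a :=
  h.full _ (by simp [lo, Matrix.det_fin_two])

theorem ut_map (a : ZMod P.p) : (ut a).map ι = ut (ι a) := by
  ext i j
  fin_cases i <;> fin_cases j <;> simp [ut]

theorem lo_map (a : ZMod P.p) : (lo a).map ι = lo (ι a) := by
  ext i j
  fin_cases i <;> fin_cases j <;> simp [lo]

theorem Res0.hadj (W : Submodule k (M2 k))
    (hW : ∀ σ, ∀ X ∈ W, extk ρ ι σ * X * extk ρ ι σ⁻¹ ∈ W) (htr : ∀ X ∈ W, X.trace = 0)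
    (hne : W ≠ ⊥) (X : M2 k) (hX : X.trace = 0) : X ∈ W := by
  have h2 : (2 : k) ≠ 0 := by
    intro h2
    have h3 : (2 : ZMod P.p) = 0 := by
      apply ι.injective
      rw [map_ofNat, h2, map_zero]
    have : ((2 : ℕ) : ZMod P.p) = 0 := by exact_mod_cast h3
    rw [ZMod.natCast_eq_zero_iff, Nat.prime_dvd_prime_iff_eq hp.out Nat.prime_two] at this
    exact ne2 this
  have hinv : ∀ (σ : 𝒢) (Y Z : M2 (ZMod P.p)), ρ σ = Y → Z * Y = 1 → ρ σ⁻¹ = Z := by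
    intro σ Y Z h1 h3
    have h4 := rho_mul_inv (ρ := ρ) σ
    rw [h1] at h4
    rw [← one_mul (ρ σ⁻¹), ← h3, mul_assoc, h4, mul_one]
  have hut : ∀ a : ZMod P.p, (ut (-a) : M2 (ZMod P.p)) * ut a = 1 := fun a => by
    ext i j
    rw [Matrix.mul_apply, Fin.sum_univ_two]
    fin_cases i <;> fin_cases j <;> simp [ut]
  have hlo : ∀ a : ZMod P.p, (lo (-a) : M2 (ZMod P.p)) * lo a = 1 := fun a => by
    ext i j
    rw [Matrix.mul_apply, Fin.sum_univ_two]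
    fin_cases i <;> fin_cases j <;> simp [lo]
  refine adj_irr h2 W ?_ ?_ ?_ htr hne X hX
  · intro Y hY
    obtain ⟨σ, -, hσ⟩ := h.exists_ut 1
    have h3 := hW σ Y hY
    rw [extk_apply, extk_apply, hinv σ _ _ hσ (hut 1), hσ, ut_map h, ut_map h, map_neg, map_one] at h3
    exact h3
  · intro Y hY
    obtain ⟨σ, -, hσ⟩ := h.exists_lo 1
    have h3 := hW σ Y hY
    rw [extk_apply, extk_apply, hinv σ _ _ hσ (hlo 1), hσ, lo_map h, lo_map h, map_neg, map_one] at h3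
    exact h3
  · intro Y hY
    obtain ⟨σ, -, hσ⟩ := h.exists_lo (-1)
    have h3 := hW σ Y hY
    rw [extk_apply, extk_apply, hinv σ _ _ hσ (hlo (-1)), hσ, neg_neg, lo_map h, lo_map h, map_neg,
      map_one] at h3
    exact h3

theorem Res0.hex (n : ℕ) : ∃ σ : 𝒢, (∀ ζ : Ω, ζ ^ (P.p ^ n) = 1 → σ ζ = ζ) ∧
    dsc (extk ρ ι σ) ≠ 0 := by
  obtain ⟨σ, hσ, hσ'⟩ := h.full !![0, 1; -1, 0] (by simp [Matrix.det_fin_two])
  refine ⟨σ, fun ζ hζ => hσ n ζ hζ, ?_⟩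
  rw [extk_apply, hσ', dsc, Matrix.trace_fin_two, Matrix.det_fin_two]
  simp only [Matrix.map_apply, Matrix.of_apply, Matrix.cons_val', Matrix.cons_val_zero,
    Matrix.cons_val_one, map_zero, map_neg, map_one]
  have h2 : (2 : k) ≠ 0 := by
    intro h2
    have h3 : (2 : ZMod P.p) = 0 := by
      apply ι.injective
      rw [map_ofNat, h2, map_zero]
    have : ((2 : ℕ) : ZMod P.p) = 0 := by exact_mod_cast h3
    rw [ZMod.natCast_eq_zero_iff, Nat.prime_dvd_prime_iff_eq hp.out Nat.prime_two] at this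
    exact ne2 this
  intro h3
  apply h2
  have h4 : (2 : k) * 2 = 0 := by linear_combination -h3
  exact mul_self_eq_zero.1 h4

theorem Res0.hH1 {c : 𝒢 → M2 k} (hc : TCoc (extk ρ ι) c)
    (h0 : ∀ σ, extk ρ ι σ = 1 → c σ = 0) : TCob (extk ρ ι) c := by
  obtain ⟨z, hz⟩ := h.exists_two
  have hz' : extk ρ ι z = (2 : k) • 1 := by
    ext i j
    rw [extk_apply', hz, RingHom.mapMatrix_apply, Matrix.map_apply, Matrix.smul_apply,
      Matrix.smul_apply, smul_eq_mul, smul_eq_mul, map_mul, map_ofNat, Matrix.one_apply,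
      Matrix.one_apply]
    split_ifs
    · rw [map_one]
    · rw [map_zero]
  have h2 : (2 : k) ≠ 0 := by
    intro h2
    have h3 : (2 : ZMod P.p) = 0 := by
      apply ι.injective
      rw [map_ofNat, h2, map_zero]
    have : ((2 : ℕ) : ZMod P.p) = 0 := by exact_mod_cast h3
    rw [ZMod.natCast_eq_zero_iff, Nat.prime_dvd_prime_iff_eq hp.out Nat.prime_two] at this
    exact ne2 this
  refine cob_of_central hz' ?_ h2 hc h0
  intro h3
  have h4 : (3 : k) = 0 := by linear_combination h3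
  have h5 : ((3 : ℕ) : ZMod P.p) = 0 := by
    apply ι.injective
    rw [map_natCast, map_zero]
    exact_mod_cast h4
  rw [ZMod.natCast_eq_zero_iff] at h5
  have h6 := Nat.le_of_dvd (by norm_num) h5
  have := P.hp5
  omega

theorem Res0.hlc : ∃ F : IntermediateField ℚ Ω, FiniteDimensional ℚ F ∧
    ∀ σ : 𝒢, (∀ x ∈ F, σ x = x) → extk ρ ι σ = 1 := by
  obtain ⟨F, hF, h1⟩ := h.lc
  exact ⟨F, hF, fun σ hσ => by rw [extk_apply', h1 σ hσ, map_one]⟩

theorem Res0.hdet1 {n : ℕ} (hn : 1 ≤ n) {σ : 𝒢}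
    (hσ : ∀ ζ : Ω, ζ ^ (P.p ^ n) = 1 → σ ζ = ζ) : (extk ρ ι σ).det = 1 := by
  have h1 : cyc P.p σ = ((1 : ℕ) : ZMod P.p) := cyc_eq_of_forall P.p σ 1 fun x hx => by
    rw [pow_one]
    refine hσ x ?_
    obtain ⟨m, rfl⟩ : ∃ m, n = m + 1 := ⟨n - 1, by omega⟩
    rw [pow_succ', pow_mul, hx, one_pow]
  rw [extk_det, h.det, h1, Nat.cast_one, map_one]

/-- **Taylor–Wiles primes for the Frey curve** -/
theorem Res0.exists_TW [CharP k P.p] (n : ℕ) (hn : 1 ≤ n) (D : Submodule k (𝒢 → M2 k))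
    [FiniteDimensional k D] (hD : ∀ c ∈ D, TCoc (extk ρ ι) c)
    (hD0 : ∀ c ∈ D, TCob (extk ρ ι) c → c = 0) (S : Set ℕ) (hS : S.Finite) :
    ∃ (qv : Fin (Module.finrank k D) → ℕ) (A : Fin (Module.finrank k D) → ValuationSubring Ω)
      (Φ : Fin (Module.finrank k D) → 𝒢),
      Function.Injective qv ∧ (∀ i, (qv i).Prime ∧ qv i ∉ S ∧ P.p ^ n ∣ qv i - 1 ∧
        (A i).LiesOverPrime (qv i) ∧ (A i).IsFrobeniusAt (Φ i) (qv i) ∧
        dsc (extk ρ ι (Φ i)) ≠ 0) ∧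
      ∀ c ∈ D, (∀ i, (c (Φ i) * hh (extk ρ ι (Φ i))).trace = 0) → c = 0 := by
  have h2 : (2 : k) ≠ 0 := by
    intro h2
    have h3 : (2 : ZMod P.p) = 0 := by
      apply ι.injective
      rw [map_ofNat, h2, map_zero]
    have : ((2 : ℕ) : ZMod P.p) = 0 := by exact_mod_cast h3
    rw [ZMod.natCast_eq_zero_iff, Nat.prime_dvd_prime_iff_eq hp.out Nat.prime_two] at this
    exact ne2 this
  exact Sel.exists_TW (p := P.p) h2 n hn (h.hlc ι) (fun σ hσ => h.hdet1 ι hn hσ)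
    (fun W hW htr hne X hX => h.hadj ι W hW htr hne X hX) (h.hex ι n)
    (fun c hc h0 => h.hH1 ι hc h0) _ D rfl hD hD0 S hS

end Fermat.Agent.Sel
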