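import Fermat.Agent.Sel.Kill

/-!
# Tangent spaces and cocycles
-/

set_option autoImplicit false
set_option linter.unusedSectionVars false
set_option linter.style.haveILetI false

noncomputable section

namespace Fermat.Agent.Sel

open Matrix IsLocalRing

variable {k : Type} [Field k] {T : Type*} [CommRing T]

/-- derivations `T → k` along `π` killing the image of `O` and the ideal `I` -/
structure IsDer (π : T →+* k) (O : Set T) (I : Ideal T) (D : T → k) : Prop where
  add : ∀ a b, D (a + b) = D a + D b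
  mul : ∀ a b, D (a * b) = π a * D b + π b * D a
  zeroO : ∀ a ∈ O, D a = 0
  zeroI : ∀ a ∈ I, D a = 0

namespace IsDer

variable {π : T →+* k} {O : Set T} {I : Ideal T} {D : T → k}

theorem zero (h : IsDer π O I D) : D 0 = 0 := h.zeroI 0 I.zero_mem

theorem one (h : IsDer π O I D) : D 1 = 0 := by
  have h1 := h.mul 1 1
  rw [mul_one, map_one, one_mul] at h1
  exact left_eq_add.1 h1

theorem neg (h : IsDer π O I D) (a : T) : D (-a) = -D a := by
  have h1 := h.add a (-a)
  rw [add_neg_cancel, h.zero] at h1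
  exact (neg_eq_of_add_eq_zero_right h1.symm).symm

theorem sum (h : IsDer π O I D) {ι : Type*} (s : Finset ι) (f : ι → T) :
    D (∑ i ∈ s, f i) = ∑ i ∈ s, D (f i) := by
  classical
  induction s using Finset.induction with
  | empty => rw [Finset.sum_empty, Finset.sum_empty, h.zero]
  | insert i s hi ih => rw [Finset.sum_insert hi, Finset.sum_insert hi, h.add, ih]

/-- the derivative of a matrix -/
theorem map_mul_matrix (h : IsDer π O I D) (X Y : Matrix (Fin 2) (Fin 2) T) :
    (X * Y).map D = X.map π * Y.map D + X.map D * Y.map π := by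
  ext i j
  rw [Matrix.map_apply, Matrix.mul_apply, h.sum, Matrix.add_apply, Matrix.mul_apply,
    Matrix.mul_apply, ← Finset.sum_add_distrib]
  refine Finset.sum_congr rfl fun l _ => ?_
  rw [h.mul, Matrix.map_apply, Matrix.map_apply, Matrix.map_apply, Matrix.map_apply, mul_comm (D _)]

/-- a derivation vanishing on traces is zero -/
theorem eq_zero (h : IsDer π O I D) {S : Set T} (hS : ∀ a ∈ S, D a = 0)
    (hgen : ∀ t : T, ∃ a ∈ Subring.closure (O ∪ S), t - a ∈ I) (t : T) : D t = 0 := by
  have h1 : ∀ a ∈ Subring.closure (O ∪ S), D a = 0 := by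
    intro a ha
    induction ha using Subring.closure_induction with
    | mem a ha => exact ha.elim (h.zeroO a) (hS a)
    | zero => exact h.zero
    | one => exact h.one
    | add a b _ _ ha hb => rw [h.add, ha, hb, add_zero]
    | neg a _ ha => rw [h.neg, ha, neg_zero]
    | mul a b _ _ ha hb => rw [h.mul, ha, hb, mul_zero, mul_zero, add_zero]
  obtain ⟨a, ha, hta⟩ := hgen t
  have h2 := h.add (t - a) a
  rw [sub_add_cancel, h.zeroI _ hta, h1 a ha, add_zero] at h2
  exact h2

end IsDer

section coc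

variable {G : Type*} [Group G] (R : G →* Matrix (Fin 2) (Fin 2) T) (π : T →+* k)

/-- the residual representation -/
def redR : G →* M2 k := (π.mapMatrix : Matrix (Fin 2) (Fin 2) T →+* M2 k).toMonoidHom.comp R

theorem redR_apply (σ : G) : redR R π σ = (R σ).map π := rfl

theorem redR_inv_mul (σ : G) : redR R π σ⁻¹ * redR R π σ = 1 := by
  rw [← map_mul, inv_mul_cancel, map_one]

theorem redR_mul_inv (σ : G) : redR R π σ * redR R π σ⁻¹ = 1 := by
  rw [← map_mul, mul_inv_cancel, map_one]

/-- the cocycle of a derivation -/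
def cD (D : T → k) (σ : G) : M2 k := (R σ).map D * redR R π σ⁻¹

variable {R π} {O : Set T} {I : Ideal T} {D : T → k}

theorem cD_mul (h : IsDer π O I D) (σ τ : G) :
    cD R π D (σ * τ) = cD R π D σ + redR R π σ * cD R π D τ * redR R π σ⁻¹ := by
  rw [cD, map_mul, h.map_mul_matrix, _root_.mul_inv_rev, map_mul]
  rw [cD, cD, ← redR_apply R π σ, ← redR_apply R π τ]
  have h1 : (R σ).map D * redR R π τ * (redR R π τ⁻¹ * redR R π σ⁻¹) =
      (R σ).map D * redR R π σ⁻¹ := by
    rw [mul_assoc, ← mul_assoc (redR R π τ), redR_mul_inv, one_mul]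
  rw [add_mul, h1]
  simp only [mul_assoc]
  rw [add_comm]

theorem cD_trace (h : IsDer π O I D) {σ : G} (hdet : D (R σ).det = 0) :
    (cD R π D σ).trace = 0 := by
  have h1 : (cD R π D σ).trace * (redR R π σ).det = D (R σ).det := by
    have h2 : (R σ).map D = cD R π D σ * redR R π σ := by
      rw [cD, mul_assoc, redR_inv_mul, mul_one]
    have h3 : ∀ i j, D (R σ i j) = (cD R π D σ * redR R π σ) i j := fun i j =>
      congrFun (congrFun h2 i) j
    rw [Matrix.det_fin_two (R σ), sub_eq_add_neg, h.add, h.neg, h.mul, h.mul, h3, h3, h3, h3]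
    have h4 : ∀ i j, π (R σ i j) = redR R π σ i j := fun i j => rfl
    rw [h4, h4, h4, h4, Matrix.det_fin_two, Matrix.trace_fin_two]
    simp only [Matrix.mul_apply, Fin.sum_univ_two]
    ring
  rw [hdet] at h1
  refine (mul_eq_zero.1 h1).resolve_right fun h2 => ?_
  have h3 := congrArg Matrix.det (redR_mul_inv R π σ)
  rw [Matrix.det_mul, h2, zero_mul, Matrix.det_one] at h3
  exact zero_ne_one h3

/-- derivations with coboundary cocycle vanish on traces -/
theorem trace_eq_zero_of_cob (h : IsDer π O I D) {X : M2 k}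
    (hX : ∀ σ, cD R π D σ = redR R π σ * X * redR R π σ⁻¹ - X) (σ : G) : D (R σ).trace = 0 := by
  have h2 : (R σ).map D = redR R π σ * X - X * redR R π σ := by
    calc (R σ).map D = cD R π D σ * redR R π σ := by
          rw [cD, mul_assoc, redR_inv_mul, mul_one]
      _ = redR R π σ * X * (redR R π σ⁻¹ * redR R π σ) - X * redR R π σ := by
          rw [hX, sub_mul, mul_assoc (redR R π σ * X)]
      _ = _ := by rw [redR_inv_mul, mul_one]
  have h3 : ∀ i j, D (R σ i j) = (redR R π σ * X - X * redR R π σ) i j := fun i j =>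
    congrFun (congrFun h2 i) j
  rw [Matrix.trace_fin_two, h.add, h3, h3, ← Matrix.trace_fin_two, Matrix.trace_sub,
    Matrix.trace_mul_comm, sub_self]

end coc

section gens

/-- the universal derivation -/
theorem exists_univ {T : Type} [CommRing T] [IsLocalRing T] [IsNoetherianRing T] (π : T →+* k)
    (hπ : RingHom.ker π = maximalIdeal T) (O : Subring T) (hO : ∀ x : k, ∃ a ∈ O, π a = x)
    (I : Ideal T) (hI : maximalIdeal T ^ 2 ≤ I) (hI' : I ≤ maximalIdeal T)
    (hOI : ∀ a ∈ O, π a = 0 → a ∈ I) :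
    ∃ (V : Type) (_ : AddCommGroup V) (_ : Module k V) (d : T → V), Module.Finite k V ∧
      (∀ a b, d (a + b) = d a + d b) ∧ (∀ a b, d (a * b) = π a • d b + π b • d a) ∧
      (∀ a ∈ O, d a = 0) ∧ (∀ a ∈ I, d a = 0) ∧ (∀ v, ∃ m ∈ maximalIdeal T, d m = v) ∧
      (∀ m ∈ maximalIdeal T, d m = 0 → m ∈ I) := by
  classical
  -- the section
  choose s hsO hs using hO
  have hker : ∀ t, π t = 0 ↔ t ∈ maximalIdeal T := fun t => by
    rw [← hπ, RingHom.mem_ker]
  have hsub : ∀ t, t - s (π t) ∈ maximalIdeal T := fun t => by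
    rw [← hker, map_sub, hs, sub_self]
  have hπs : Function.Surjective π := fun x => ⟨s x, hs x⟩
  have hOker : ∀ a ∈ O, ∀ b ∈ O, π a = π b → a - b ∈ I := fun a ha b hb h =>
    hOI _ (O.sub_mem ha hb) (by rw [map_sub, h, sub_self])
  -- the `k`-vector space `𝔪 / I`
  let I' : Submodule T (maximalIdeal T) := Submodule.comap (maximalIdeal T).subtype I
  let V : Type := (maximalIdeal T) ⧸ I'
  let mk : maximalIdeal T →ₗ[T] V := I'.mkQ
  have hmk0 : ∀ m : maximalIdeal T, mk m = 0 ↔ (m : T) ∈ I := fun m => by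
    change I'.mkQ m = 0 ↔ _
    rw [Submodule.mkQ_apply, Submodule.Quotient.mk_eq_zero]
    rfl
  have hmks : ∀ (a : T) (m : maximalIdeal T), mk (a • m) = a • mk m := fun a m => map_smul mk a m
  have hann : ∀ (a : T) (v : V), a ∈ maximalIdeal T → a • v = 0 := by
    intro a v ha
    obtain ⟨m, rfl⟩ := I'.mkQ_surjective v
    rw [← map_smul]
    refine (hmk0 _).2 (hI ?_)
    rw [pow_two]
    exact Ideal.mul_mem_mul ha m.2
  letI : SMul k V := ⟨fun x v => s x • v⟩
  have hsm : ∀ (c : T) (v : V), π c • v = c • v := by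
    intro c v
    change s (π c) • v = c • v
    rw [← sub_eq_zero, ← sub_smul]
    apply hann
    rw [← neg_mem_iff, neg_sub]
    exact hsub c
  letI : Module k V := Function.Surjective.moduleLeft π hπs hsm
  haveI : Module.Finite T (maximalIdeal T) := inferInstance
  haveI : Module.Finite T V := Module.Finite.of_surjective mk I'.mkQ_surjective
  haveI : Module.Finite k V := by
    obtain ⟨S, hS⟩ := (Module.Finite.fg_top : (⊤ : Submodule T V).FG)
    refine ⟨⟨S, ?_⟩⟩
    rw [eq_top_iff]
    intro v _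
    have hv : v ∈ Submodule.span T (S : Set V) := by rw [hS]; trivial
    induction hv using Submodule.span_induction with
    | mem v hv => exact Submodule.subset_span hv
    | zero => exact Submodule.zero_mem _
    | add v w _ _ hv hw => exact Submodule.add_mem _ (hv trivial) (hw trivial)
    | smul a v _ hv =>
      rw [← hsm]
      exact Submodule.smul_mem _ _ (hv trivial)
  -- derivations
  let μ : T → maximalIdeal T := fun t => ⟨t - s (π t), hsub t⟩
  have hμ : ∀ (t : T) (m : maximalIdeal T) (o : T), o ∈ O → t = o + m → mk (μ t) = mk m := by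
    intro t m o ho h
    rw [← sub_eq_zero, ← map_sub, hmk0]
    change t - s (π t) - m ∈ I
    have h1 : t - s (π t) - m = o - s (π t) := by rw [h]; ring
    rw [h1]
    refine hOker _ ho _ (hsO _) ?_
    rw [hs, h, map_add, (hker _).2 m.2, add_zero]
  have hdm : ∀ m : maximalIdeal T, mk (μ m) = mk m := fun m => by
    rw [hμ m m 0 O.zero_mem (by simp)]
  refine ⟨V, inferInstance, inferInstance, fun t => mk (μ t), inferInstance, fun a b => ?_,
    fun a b => ?_, fun a ha => ?_, fun a ha => ?_, fun v => ?_, fun m hm h => ?_⟩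
  · dsimp only
    rw [hμ (a + b) (μ a + μ b) (s (π a) + s (π b)) (O.add_mem (hsO _) (hsO _)) (by
      change a + b = s (π a) + s (π b) + ((a - s (π a)) + (b - s (π b)))
      ring), map_add]
  · dsimp only
    rw [hμ (a * b) (s (π a) • μ b + s (π b) • μ a + (μ a : T) • μ b) (s (π a) * s (π b))
      (O.mul_mem (hsO _) (hsO _)) (by
      change a * b = s (π a) * s (π b) + (s (π a) * (b - s (π b)) + s (π b) * (a - s (π a)) +
        (a - s (π a)) * (b - s (π b)))
      ring), map_add, map_add, hmks, hmks, hmks, hann _ _ (μ a).2, add_zero]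
    rfl
  · dsimp only
    rw [hμ a 0 a ha (by simp), map_zero]
  · have h0 : s (π a) ∈ I := hOI _ (hsO _) (by rw [hs]; exact (hker _).2 (hI' ha))
    exact (hmk0 _).2 (I.sub_mem ha h0)
  · obtain ⟨m, rfl⟩ := I'.mkQ_surjective v
    exact ⟨m, m.2, hdm m⟩
  · have h1 := hdm ⟨m, hm⟩
    dsimp only at h h1
    rw [h] at h1
    exact (hmk0 ⟨m, hm⟩).1 h1.symm

/-- **Generators from the cotangent space.** -/
theorem exists_gens {T : Type} [CommRing T] [IsLocalRing T] [IsNoetherianRing T]
    {G : Type*} [Group G] (R : G →* Matrix (Fin 2) (Fin 2) T) (π : T →+* k)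
    (hπ : RingHom.ker π = maximalIdeal T) (O : Subring T) (hO : ∀ x : k, ∃ a ∈ O, π a = x)
    (I : Ideal T) (hI : maximalIdeal T ^ 2 ≤ I) (hI' : I ≤ maximalIdeal T)
    (hOI : ∀ a ∈ O, π a = 0 → a ∈ I)
    (hgen : ∀ t : T, ∃ a ∈ Subring.closure ((O : Set T) ∪ Set.range fun σ => (R σ).trace), t - a ∈ I)
    {g : ℕ} (Z : Submodule k (G → M2 k)) (Λ : Z →ₗ[k] (Fin g → k))
    (hZ : ∀ D, IsDer π O I D → cD R π D ∈ Z)
    (hΛ : ∀ c : Z, Λ c = 0 → ∃ X : M2 k, ∀ σ, (c : G → M2 k) σ = redR R π σ * X * redR R π σ⁻¹ - X) :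
    ∃ z : Fin g → T, (∀ i, z i ∈ maximalIdeal T) ∧
      maximalIdeal T ≤ Ideal.span (Set.range z) ⊔ I := by
  classical
  obtain ⟨V, _, _, d, _, hadd, hmul, hdO, hdI, hsurj, hinj⟩ := exists_univ π hπ O hO I hI hI' hOI
  have hD : ∀ φ : Module.Dual k V, IsDer π O I (fun t => φ (d t)) := fun φ =>
    ⟨fun a b => by rw [hadd, map_add], fun a b => by
      rw [hmul, map_add, map_smul, map_smul, smul_eq_mul, smul_eq_mul],
      fun a ha => by rw [hdO a ha, map_zero], fun a ha => by rw [hdI a ha, map_zero]⟩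
  let L : Module.Dual k V →ₗ[k] Z :=
    { toFun := fun φ => ⟨cD R π (fun t => φ (d t)), hZ _ (hD φ)⟩
      map_add' := fun φ ψ => by
        apply Subtype.ext
        funext σ
        change (R σ).map (fun t => (φ + ψ) (d t)) * redR R π σ⁻¹ =
          (R σ).map (fun t => φ (d t)) * redR R π σ⁻¹ + (R σ).map (fun t => ψ (d t)) * redR R π σ⁻¹
        rw [← add_mul]
        congr 1
      map_smul' := fun x φ => by
        apply Subtype.ext
        funext σ
        change (R σ).map (fun t => (x • φ) (d t)) * redR R π σ⁻¹ =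
          x • ((R σ).map (fun t => φ (d t)) * redR R π σ⁻¹)
        rw [← smul_mul_assoc]
        congr 1 }
  have hΨ : Function.Injective (Λ.comp L) := by
    rw [← LinearMap.ker_eq_bot, LinearMap.ker_eq_bot']
    intro φ hφ
    obtain ⟨X, hX⟩ := hΛ _ hφ
    have h1 := (hD φ).eq_zero (S := Set.range fun σ => (R σ).trace) (by
      rintro _ ⟨σ, rfl⟩
      exact trace_eq_zero_of_cob (hD φ) hX σ) hgen
    ext v
    obtain ⟨m, -, rfl⟩ := hsurj v
    exact h1 m
  have hdim : Module.finrank k V ≤ g := by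
    have h1 := LinearMap.finrank_le_finrank_of_injective hΨ
    rwa [Subspace.dual_finrank_eq, Module.finrank_fin_fun] at h1
  let b := Module.finBasis k V
  choose zb hzbm hzb using fun i => hsurj (b i)
  choose s hsO hs using hO
  have hdsum : ∀ (u : Finset (Fin (Module.finrank k V))) (f : Fin (Module.finrank k V) → T),
      d (∑ i ∈ u, f i) = ∑ i ∈ u, d (f i) := by
    intro u f
    induction u using Finset.induction with
    | empty => rw [Finset.sum_empty, Finset.sum_empty, hdI _ I.zero_mem]
    | insert i u hi ih => rw [Finset.sum_insert hi, Finset.sum_insert hi, hadd, ih]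
  refine ⟨fun i => if h : (i : ℕ) < Module.finrank k V then zb ⟨i, h⟩ else 0, fun i => ?_, ?_⟩
  · dsimp only
    split_ifs
    · exact hzbm _
    · exact Ideal.zero_mem _
  · intro m hm
    obtain ⟨w, hw⟩ : ∃ w, w = ∑ i, s (b.repr (d m) i) * zb i := ⟨_, rfl⟩
    have hwm : w ∈ maximalIdeal T := by
      rw [hw]
      exact sum_mem fun i _ => Ideal.mul_mem_left _ _ (hzbm i)
    have hdw : d w = d m := by
      rw [hw, hdsum]
      conv_rhs => rw [← b.sum_repr (d m)]
      refine Finset.sum_congr rfl fun i _ => ?_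
      rw [hmul, hdO _ (hsO _), smul_zero, add_zero, hs, hzb]
    have h2 : m - w ∈ I := by
      apply hinj _ (Ideal.sub_mem _ hm hwm)
      have h3 := hadd (m - w) w
      rw [sub_add_cancel, hdw] at h3
      exact left_eq_add.1 (by rw [add_comm] at h3; exact h3)
    have h3 : m = w + (m - w) := by ring
    rw [h3]
    refine Submodule.add_mem_sup ?_ h2
    rw [hw]
    refine sum_mem fun i _ => ?_
    refine Ideal.mul_mem_left _ _ (Ideal.subset_span ⟨⟨i, i.2.trans_le hdim⟩, ?_⟩)
    dsimp only
    rw [dif_pos i.2]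

end gens

end Fermat.Agent.Sel
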