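import Fermat.Agent.Sel.Fin2
import Fermat.Agent.CFT.GW25

/-!
# The contradiction
-/

set_option autoImplicit false
set_option linter.unusedSectionVars false
set_option linter.style.haveILetI false

noncomputable section

namespace Fermat.Agent.Sel

open Matrix IsLocalRing Fermat.Agent.GalRep Fermat.Agent.TW Fermat.Agent.Places Fermat.Agent.Flat
open Fermat.Agent.Cheb Fermat.Agent.KumG Fermat.Agent.MD

local notation "Ω" => AlgebraicClosure ℚ

local notation "𝒢" => (AlgebraicClosure ℚ) ≃ₐ[ℚ] (AlgebraicClosure ℚ)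

/-- weakening the level -/
def LevD.mono {O : Type} [CommRing O] [IsLocalRing O] {ϖ : O} {p r t g e B n n' : ℕ}
    (X : LevD O ϖ p r t g e B n) (hn : n' ≤ n) : LevD O ϖ p r t g e B n' :=
  letI := X.crA
  letI := X.lrA
  letI := X.nrA
  letI := X.algA
  letI := X.finA
  letI := X.lhA
  { A := X.A
    P := X.P
    hP := fun i => by
      obtain ⟨m, h1, h2⟩ := X.hP i
      exact ⟨m, h1, hn.trans h2⟩
    d := X.d
    hd := X.hd
    f := X.f
    resA := X.resA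
    dia := X.dia
    N := X.N
    Ψ := X.Ψ
    hN := X.hN
    hΨ := X.hΨ
    trN := X.trN
    sqN := X.sqN
    hE2 := X.hE2
    hϖ := X.hϖ
    z := X.z
    hz := X.hz
    hgen := X.hgen }

/-- the local conditions -/
def Lc {k : Type} [Field k] (ρ : 𝒢 →* M2 k) (p : ℕ) [Fact p.Prime] (T : Finset ℕ) (v : ℕ)
    (A : ValuationSubring Ω) : Submodule k (A.decompositionSubgroup ℚ → sl k) :=
  if v = p then flatL ρ p A else if v ∈ T then B1 (adR ρ) _ else Z1 (adR ρ) _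

section

variable {k : Type} [Field k] {ρ : 𝒢 →* M2 k} {p : ℕ} [Fact p.Prime] {T : Finset ℕ}

theorem Lc_p (A : ValuationSubring Ω) : Lc ρ p T p A = flatL ρ p A := if_pos rfl

theorem Lc_T {v : ℕ} (hp : v ≠ p) (hv : v ∈ T) (A : ValuationSubring Ω) :
    Lc ρ p T v A = B1 (adR ρ) _ := by
  rw [Lc, if_neg hp, if_pos hv]

theorem Lc_Z {v : ℕ} (hp : v ≠ p) (hv : v ∉ T) (A : ValuationSubring Ω) :
    Lc ρ p T v A = Z1 (adR ρ) _ := by
  rw [Lc, if_neg hp, if_neg hv]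

theorem B1_le_Lc (hlc : ∃ F : IntermediateField ℚ Ω, FiniteDimensional ℚ F ∧
      ∀ σ : 𝒢, (∀ x ∈ F, σ x = x) → ρ σ = 1) (v : ℕ) (A : ValuationSubring Ω) :
    B1 (adR ρ) _ ≤ Lc ρ p T v A := by
  rw [Lc]
  split_ifs
  · exact B1_le_flatL ρ A
  · exact le_rfl
  · exact B1_le_Z1 ρ hlc _

theorem Lc_le_Z1 (hlc : ∃ F : IntermediateField ℚ Ω, FiniteDimensional ℚ F ∧
      ∀ σ : 𝒢, (∀ x ∈ F, σ x = x) → ρ σ = 1) (v : ℕ) (A : ValuationSubring Ω) :
    Lc ρ p T v A ≤ Z1 (adR ρ) _ := by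
  rw [Lc]
  split_ifs
  · exact flatL_le_Z1 ρ hlc A
  · exact B1_le_Z1 ρ hlc _
  · exact le_rfl

end

variable {P : FreyPackage} [hp : Fact P.p.Prime] {ρ : 𝒢 →* M2 (ZMod P.p)} (h : Res0 P ρ)
  {O : Type} [CommRing O] [IsDomain O] [IsDiscreteValuationRing O]
  [IsAdicComplete (maximalIdeal O) O] [CharZero O] [Finite (ResidueField O)]
  (hmO : maximalIdeal O = Ideal.span {(P.p : O)}) (hpO : (P.p : O) ∈ maximalIdeal O)
  (ι : AlgebraicClosure ℚ →+* ℂ) [Invertible (2 : O)]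
  [Algebra (ZMod P.p) (ResidueField O)]
  (hroot : ∀ m n : ℤ, ∃ x y : ResidueField O, x + y = m ∧ x * y = n)
  {g₀ k₀ : 𝒢} (hg₀ : extk ρ (algebraMap (ZMod P.p) (ResidueField O)) g₀ 0 1 = 1)
  (hgk : HG.IrrAt (fun g => (extk ρ (algebraMap (ZMod P.p) (ResidueField O)) g).trace) g₀ k₀)
  {W : WeierstrassCurve ℤ} (hW : W.IsIntegralModelOf P.freyCurve)
  {M r' : ℕ} [NeZero M] (hsq : Squarefree M) (hpM : ¬ P.p ∣ M) (hmod : P.ModularRepOfLevel M)
  (hmin : ∀ l, l.Prime → l ∣ M → ¬ P.ModularRepOfLevel (M / l))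
  (hr' : r'.Prime) (hr'p : r' ≠ P.p) (hr'M : ¬ r' ∣ M) (hr'12 : r' % 12 = 11)
  (hr'1 : (r' : ResidueField O) ≠ 1)
  (hr't : ∀ A : ValuationSubring Ω, A.LiesOverPrime r' → ∀ Φ : 𝒢, A.IsFrobeniusAt Φ r' →
        (extk ρ (algebraMap (ZMod P.p) (ResidueField O)) Φ).trace ^ 2 ≠
          ((r' : ResidueField O) + 1) ^ 2)
  {S₀ : Set ℕ} (hS₀ : S₀.Finite) (hpS₀ : P.p ∈ S₀) (h2S₀ : 2 ∈ S₀)
  (hgood : ∀ l, l.Prime → l ∉ S₀ → W.IsGoodPrimeFor l)
  (hNS₀ : ∀ l, l.Prime → l ∣ M * r' → l ∈ S₀)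

include h hmO hpO ι hroot hg₀ hgk hW hsq hpM hmod hmin hr' hr'p hr'M hr'12 hr'1 hr't hS₀ hpS₀
  h2S₀ hgood hNS₀ in
set_option maxHeartbeats 2000000 in
/-- **The contradiction**: a minimal level has no odd prime divisor. -/
theorem no_odd {q : ℕ} (hq : q.Prime) (hq2 : q ≠ 2) (hqM : q ∣ M) : False := by
  classical
  set k := ResidueField O with hk
  set κ := algebraMap (ZMod P.p) k with hκ
  set ρb := extk ρ κ with hρb
  haveI : CharP k P.p := charP_res hpO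
  have hp5 := P.hp5
  have hM0 : M ≠ 0 := NeZero.ne M
  haveI : NeZero (M * r') := ⟨mul_ne_zero hM0 hr'.ne_zero⟩
  have hr'11 : 11 ≤ r' := by omega
  -- the odd primes of the level
  set T : Finset ℕ := M.primeFactors.erase 2 with hT
  have hmemT : ∀ l, l ∈ T ↔ l ≠ 2 ∧ l.Prime ∧ l ∣ M := fun l => by
    rw [hT, Finset.mem_erase, Nat.mem_primeFactors]
    exact ⟨fun h => ⟨h.1, h.2.1, h.2.2.1⟩, fun h => ⟨h.1, h.2.1, h.2.2, hM0⟩⟩
  have hTp : ∀ l ∈ T, l ≠ P.p := fun l hl he => hpM (he ▸ ((hmemT l).1 hl).2.2)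
  set Sf₀ : Finset ℕ := insert P.p (insert 2 (insert r' T)) with hSf₀
  have hmemS : ∀ l, l ∈ Sf₀ ↔ l = P.p ∨ l = 2 ∨ l = r' ∨ l ∈ T := fun l => by
    rw [hSf₀, Finset.mem_insert, Finset.mem_insert, Finset.mem_insert]
  have h2p : (2 : ℕ) ≠ P.p := Ne.symm ne2
  have hr'T : r' ∉ T := fun hh => hr'M ((hmemT _).1 hh).2.2
  have h2T : (2 : ℕ) ∉ T := fun hh => ((hmemT _).1 hh).1 rfl
  have hpT : P.p ∉ T := fun hh => hTp _ hh rfl
  have hSprime : ∀ v ∈ Sf₀, v.Prime := by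
    intro v hv
    rcases (hmemS v).1 hv with rfl | rfl | rfl | hv
    · exact hp.out
    · exact Nat.prime_two
    · exact hr'
    · exact ((hmemT v).1 hv).2.1
  have hRes : ResH P.p ρb Sf₀ := resH_extk h κ rfl hSprime ((hmemS 2).2 (Or.inr (Or.inl rfl)))
    ((hmemS _).2 (Or.inl rfl))
  have hsplit : ∀ σ, ∃ α β : k, α + β = (ρb σ).trace ∧ α * β = (ρb σ).det :=
    extk_split κ hroot
  have hconj : ρb complexConjugation = !![1, 0; 0, -1] := extk_conj h κ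
  have hinv : ∀ X : sl k, (∀ σ, adR ρb σ X = X) → X = 0 := h.inv_zero κ
  -- the places
  choose A₀' hA₀' using fun v : {v : ℕ // v.Prime} => exists_liesOverPrime (AlgebraicClosure ℚ) v.2
  let A₀ : ℕ → ValuationSubring Ω := fun v => if hv : v.Prime then A₀' ⟨v, hv⟩ else ⊤
  have hA₀ : ∀ v : ℕ, v.Prime → (A₀ v).LiesOverPrime v := fun v hv => by
    change (if hv : v.Prime then A₀' ⟨v, hv⟩ else ⊤).LiesOverPrime v
    rw [dif_pos hv]
    exact hA₀' ⟨v, hv⟩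
  -- the residual representation is scalar at the odd primes of the level
  have hSS0 : S₀ = S₀ ∪ Set.range (Fin.elim0 : Fin 0 → ℕ) := by
    rw [Set.range_eq_empty, Set.union_empty]
  have hN0 : M * r' = M * r' * ∏ i, (Fin.elim0 : Fin 0 → ℕ) i := by simp
  have hscal : ∀ l ∈ T, B1 (adR ρb) ((A₀ l).decompositionSubgroup ℚ) = ⊥ := by
    intro l hl
    obtain ⟨hl2, hlp, hlM⟩ := (hmemT l).1 hl
    obtain ⟨Φ, hΦ⟩ := exists_isFrobeniusAt (A₀ l) hlp (hA₀ l hlp)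
    obtain ⟨X⟩ := exists_TWLev_frey h hpO ι κ hgk hmod hS₀ hpS₀ hgood hr'12 hW hNS₀ (n := 1)
      le_rfl (v := Fin.elim0) (A := Fin.elim0) (Φ := Fin.elim0) (fun i => i.elim0)
      (fun i => i.elim0) (fun i => i.elim0) (fun i => i.elim0) hN0 hSS0 hNS₀
    obtain ⟨-, a, ha⟩ := exists_QDat_frey h hmO hpO ι κ hgk hsq hpM hmin hr' hr'p hr'M hr'12 hr't
      hS₀ hpS₀ hgood hW hNS₀ hg₀ hlp hlM hl2 (v := Fin.elim0) (A := Fin.elim0) (Φ := Fin.elim0)
      (fun i => i.elim0) (fun i => i.elim0) (fun i => i.elim0) hN0 hSS0 hNS₀ X (hA₀ l hlp) hΦ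
    exact B1_bot_of_scalar fun σ hσ => scalar_dec hRes.lc hlp (hA₀ l hlp) hΦ
      (fun σ hσ => extk_unr h κ hlp hl2 (hTp l hl) (hA₀ l hlp) hσ) ha hσ
  -- the local dimensions
  have hdim_p : Module.finrank k (Lc ρb P.p T P.p (A₀ P.p)) ≤ 5 := by
    rw [Lc_p]
    exact (flatL_bound ρb hRes (hA₀ _ hp.out) hsplit (flat_frey h hmO ι κ hpM hmod hr'p hS₀ hpS₀
      hgood hr' hr'12 hW hNS₀ hg₀ hgk hpO (hA₀ _ hp.out))).2
  have hdim_2 : Module.finrank k (Lc ρb P.p T 2 (A₀ 2)) ≤ 3 := by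
    rw [Lc_Z h2p h2T]
    exact finrank_Z1_le_three (CFT.locDim ne2) hRes Nat.prime_two h2p (hA₀ 2 Nat.prime_two)
      (H0_two h κ (hA₀ 2 Nat.prime_two))
  have hdim_r : Module.finrank k (Lc ρb P.p T r' (A₀ r')) ≤ 3 := by
    rw [Lc_Z hr'p hr'T]
    obtain ⟨Φ, hΦ⟩ := exists_isFrobeniusAt (A₀ r') hr' (hA₀ r' hr')
    exact finrank_Z1_le_three (CFT.locDim ne2) hRes hr' hr'p (hA₀ r' hr')
      (H0_aux h κ hr' hr'p hr'1 (hA₀ r' hr') hΦ (hr't _ (hA₀ r' hr') Φ hΦ))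
  have hdim_T : ∀ l ∈ T, Module.finrank k (Lc ρb P.p T l (A₀ l)) = 0 := by
    intro l hl
    rw [Lc_T (hTp l hl) hl, hscal l hl, finrank_bot]
  have hsum : ∑ v ∈ Sf₀, ((Module.finrank k (Lc ρb P.p T v (A₀ v)) : ℤ) - 3) ≤ 2 - 3 * T.card := by
    have hr'n : r' ∉ T := hr'T
    have h2n : (2 : ℕ) ∉ insert r' T := by
      rw [Finset.mem_insert, not_or]
      exact ⟨by omega, h2T⟩
    have hpn : P.p ∉ insert 2 (insert r' T) := by
      rw [Finset.mem_insert, Finset.mem_insert, not_or, not_or]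
      exact ⟨ne2, Ne.symm hr'p, hpT⟩
    rw [hSf₀, Finset.sum_insert hpn, Finset.sum_insert h2n, Finset.sum_insert hr'n]
    have e1 : ∑ v ∈ T, ((Module.finrank k (Lc ρb P.p T v (A₀ v)) : ℤ) - 3) = -3 * T.card := by
      rw [Finset.sum_congr rfl fun l hl => by rw [hdim_T l hl]]
      simp [mul_comm]
    rw [e1]
    have e2 : ((Module.finrank k (Lc ρb P.p T P.p (A₀ P.p)) : ℕ) : ℤ) ≤ 5 := by
      exact_mod_cast hdim_p
    have e3 : ((Module.finrank k (Lc ρb P.p T 2 (A₀ 2)) : ℕ) : ℤ) ≤ 3 := by exact_mod_cast hdim_2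
    have e4 : ((Module.finrank k (Lc ρb P.p T r' (A₀ r')) : ℕ) : ℤ) ≤ 3 := by
      exact_mod_cast hdim_r
    linarith
  -- the Taylor–Wiles primes
  obtain ⟨r, hr⟩ := tw_sel (CFT.gw ne2) (CFT.locPerpTop ne2) (CFT.locDim ne2) hRes hconj
    (fun v A => Lc ρb P.p T v A) (fun v _ A _ => B1_le_Lc hRes.lc v A)
    (fun v _ A _ => Lc_le_Z1 hRes.lc v A) (fun v hv A => Lc_Z (fun e => hv ((hmemS v).2
      (Or.inl e))) (fun e => hv ((hmemS v).2 (Or.inr (Or.inr (Or.inr e))))) A) A₀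
    (fun v hv => hA₀ v (hSprime v hv)) (fun D hDfin hD hD0 n hn S' hS' => by
      obtain ⟨qv, A, Φ, h1, h2, h3⟩ := h.exists_TW κ n hn D hD hD0 S' hS'
      exact ⟨qv, A, Φ, h1, fun i => ⟨(h2 i).2.1, (h2 i).1, (h2 i).2.2.1, (h2 i).2.2.2.1,
        (h2 i).2.2.2.2.1, (h2 i).2.2.2.2.2⟩, h3⟩)
  -- numerical consequences
  have hcardT : 1 ≤ T.card := Finset.card_pos.2 ⟨q, (hmemT q).2 ⟨hq2, hq, hqM⟩⟩
  have hge : ∀ (S : Finset ℕ) (A : S → ValuationSubring Ω)
      (L : ∀ v : S, Submodule k ((A v).decompositionSubgroup ℚ → sl k)), ResH P.p ρb S →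
      (∀ v, B1 (adR ρb) _ ≤ L v) → FiniteDimensional k (SelZ (adR ρb) S A L) →
      3 ≤ Module.finrank k (SelZ (adR ρb) S A L) := by
    intro S A L hS hL hfin
    have hinj : Function.Injective (cobR ρb) := by
      rw [← LinearMap.ker_eq_bot, LinearMap.ker_eq_bot']
      intro X hX
      refine hinv X fun σ => ?_
      have := congrFun hX σ
      rw [cobR_apply, Pi.zero_apply, sub_eq_zero] at this
      exact this
    have h1 : Module.finrank k (LinearMap.range (cobR ρb)) = 3 := by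
      rw [LinearMap.finrank_range_of_inj hinj, finrank_sl]
    rw [← h1]
    refine Submodule.finrank_mono ?_
    rintro _ ⟨X, rfl⟩
    exact cobR_mem hS hL X
  -- enumeration of the odd primes
  let τ := T.card
  let qq : Fin τ → ℕ := fun j => T.equivFin.symm j
  have hqq : ∀ j, qq j ∈ T := fun j => (T.equivFin.symm j).2
  have hqq' : ∀ l ∈ T, ∃ j, qq j = l := fun l hl => ⟨T.equivFin ⟨l, hl⟩, by
    change ((T.equivFin.symm (T.equivFin ⟨l, hl⟩) : T) : ℕ) = l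
    rw [Equiv.symm_apply_apply]⟩
  let j₀ : Fin τ := ⟨0, hcardT⟩
  obtain ⟨e, he⟩ : ∃ e, ¬ P.p ^ (e + 1) ∣ qq j₀ - 1 := by
    refine ⟨qq j₀, fun hd => ?_⟩
    have hq0 := ((hmemT _).1 (hqq j₀)).2.1.two_le
    have h1 := Nat.le_of_dvd (by omega) hd
    have h2 : qq j₀ + 1 < P.p ^ (qq j₀ + 1) := Nat.lt_pow_self hp.out.one_lt
    omega
  let B := 2 ^ r * Module.finrank O (XG O (M * r'))
  -- the level data
  have hlev : ∃ g : ℕ, g + 3 * τ = r + 1 ∧ ∀ n, Nonempty (LevD O (P.p : O) P.p r τ g e B n) := by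
    have hone : ∀ n, 3 * (τ : ℤ) ≤ r + 1 ∧ ∀ g : ℕ, g + 3 * τ = r + 1 →
        Nonempty (LevD O (P.p : O) P.p r τ g e B (n + 1)) := by
      intro n
      obtain ⟨qv, A, Φ, hinj, hqv, S, Ach, hmem, hAch, hAch0, hAchi, hfin, hle⟩ :=
        hr (n + 1) (by omega) S₀ hS₀
      have hv2 : ∀ i, qv i ≠ 2 := fun i e => (hqv i).1 (e ▸ h2S₀)
      have hvp : ∀ i, qv i ≠ P.p := fun i e => (hqv i).1 (e ▸ hpS₀)
      have hSp : ∀ v ∈ S, v.Prime := by
        intro v hv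
        rcases (hmem v).1 hv with h1 | ⟨i, rfl⟩
        · exact hSprime v h1
        · exact (hqv i).2.2.prime
      have hResS : ResH P.p ρb S := resH_extk h κ rfl hSp
        ((hmem 2).2 (Or.inl ((hmemS 2).2 (Or.inr (Or.inl rfl)))))
        ((hmem _).2 (Or.inl ((hmemS _).2 (Or.inl rfl))))
      haveI := hfin
      have h3 := hge S (fun v : S => Ach v) (fun v => Lc ρb P.p T v (Ach v)) hResS
        (fun v => B1_le_Lc hRes.lc v _) hfin
      have hle' : (Module.finrank k (SelZ (adR ρb) S (fun v : S => Ach v)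
          fun v => Lc ρb P.p T v (Ach v)) : ℤ) ≤ 4 + r - 3 * τ := by
        refine hle.trans ?_
        have := hsum
        change _ ≤ 4 + (r : ℤ) - 3 * (T.card : ℤ)
        linarith
      refine ⟨by
        have h4 : (3 : ℤ) ≤ (Module.finrank k (SelZ (adR ρb) S (fun v : S => Ach v)
          fun v => Lc ρb P.p T v (Ach v)) : ℤ) := by exact_mod_cast h3
        linarith, fun g hg => ?_⟩
      -- the level
      let N := M * r' * ∏ i, qv i
      have hprod0 : ∏ i, qv i ≠ 0 := Finset.prod_ne_zero_iff.2 fun i _ => (hqv i).2.2.prime.ne_zero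
      haveI : NeZero N := ⟨mul_ne_zero (mul_ne_zero hM0 hr'.ne_zero) hprod0⟩
      have hprimeN : ∀ l, l.Prime → l ∣ N → l ∣ M * r' ∨ ∃ i, qv i = l := by
        intro l hl hlN
        rcases (Nat.Prime.dvd_mul hl).1 hlN with h1 | h1
        · exact Or.inl h1
        · obtain ⟨i, -, hi⟩ := (hl.prime.dvd_finsetProd_iff _).1 h1
          exact Or.inr ⟨i, ((Nat.prime_dvd_prime_iff_eq hl (hqv i).2.2.prime).1 hi).symm⟩
      have hNS : ∀ l, l.Prime → l ∣ N → l ∈ S₀ ∪ Set.range qv := by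
        intro l hl hlN
        rcases hprimeN l hl hlN with h1 | ⟨i, hi⟩
        · exact Or.inl (hNS₀ l hl h1)
        · exact Or.inr ⟨i, hi⟩
      have hTWp : ∀ i, TWp P.p (fun g => (extk ρ κ g).trace) (qv i) (A i) (Φ i) := fun i =>
        TWp_of_TWd κ (by omega : 1 ≤ n + 1) hroot h hpO (hqv i).2.2 (hv2 i) (hvp i)
      obtain ⟨X⟩ := exists_TWLev_frey h hpO ι κ hgk hmod hS₀ hpS₀ hgood hr'12 hW hNS₀
        (n := n + 1) (by omega) hinj (fun i => (hqv i).1) (fun i => (hqv i).2.2.dvd) hTWp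
        (N := N) rfl rfl hNS
      have hN3 : 3 ≤ N := by
        have h1 : 0 < M := Nat.pos_of_ne_zero hM0
        have h2 : 0 < ∏ i, qv i := Nat.pos_of_ne_zero hprod0
        have h4 : 11 ≤ M * r' := by nlinarith
        have h5 : M * r' ≤ N := Nat.le_mul_of_pos_right _ h2
        omega
      have hpN : ¬ P.p ∣ N := not_dvd_level hpM hr' hr'p fun i => ⟨(hqv i).2.2.prime, hvp i⟩
      have hNSf : ∀ l, l.Prime → l ∣ N → l ∈ S := by
        intro l hl hlN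
        rcases hprimeN l hl hlN with h1 | ⟨i, hi⟩
        · refine (hmem l).2 (Or.inl ((hmemS l).2 ?_))
          rcases (Nat.Prime.dvd_mul hl).1 h1 with h1 | h1
          · by_cases hl2 : l = 2
            · exact Or.inr (Or.inl hl2)
            · exact Or.inr (Or.inr (Or.inr ((hmemT l).2 ⟨hl2, hl, h1⟩)))
          · exact Or.inr (Or.inr (Or.inl ((Nat.prime_dvd_prime_iff_eq hl hr').1 h1)))
        · exact (hmem l).2 (Or.inr ⟨i, hi⟩)
      refine exists_LevD ne2 hmO hconj hg₀ hinv hN3 hpN X qq (fun j => A₀ (qq j)) ?_ j₀ he hResS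
        hNSf (L := fun v => Lc ρb P.p T v (Ach v)) (fun v => B1_le_Lc hRes.lc v _) (g := g) ?_ ?_
      · intro j
        obtain ⟨hj2, hjp, hjM⟩ := (hmemT _).1 (hqq j)
        obtain ⟨Φq, hΦq⟩ := exists_isFrobeniusAt (A₀ (qq j)) hjp (hA₀ _ hjp)
        exact (exists_QDat_frey h hmO hpO ι κ hgk hsq hpM hmin hr' hr'p hr'M hr'12 hr't
          hS₀ hpS₀ hgood hW hNS₀ hg₀ hjp hjM hj2 hinj (fun i => (hqv i).1) hTWp rfl rfl hNS X
          (hA₀ _ hjp) hΦq).1
      · have h4 : (Module.finrank k (SelZ (adR ρb) S (fun v : S => Ach v)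
          fun v => Lc ρb P.p T v (Ach v)) : ℤ) ≤ 3 + g := by
          refine hle'.trans ?_
          have : (g : ℤ) + 3 * τ = r + 1 := by exact_mod_cast hg
          linarith
        exact_mod_cast h4
      · intro w
        by_cases hwp : (w : ℕ) = P.p
        · right; left
          refine ⟨?_, ?_⟩
          · have := hAch w w.2
            rw [hwp] at this
            exact hwp ▸ hAch w w.2
          · intro c hc
            have e1 : Lc ρb P.p T w (Ach w) = flatL ρb P.p (Ach w) := by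
              rw [Lc, if_pos hwp]
            change c ∈ Lc ρb P.p T w (Ach w)
            rw [e1]
            exact (le_sup_right : Submodule.span k (flatS ρb P.p (Ach w)) ≤ _)
              (Submodule.subset_span hc)
        · by_cases hwT : (w : ℕ) ∈ T
          · right; right
            obtain ⟨j, hj⟩ := hqq' w hwT
            refine ⟨j, ?_⟩
            change Ach w = A₀ (qq j)
            rw [hj]
            exact hAch0 w ((hmemS _).2 (Or.inr (Or.inr (Or.inr hwT))))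
          · left
            change _ ≤ Lc ρb P.p T w (Ach w)
            rw [Lc_Z hwp hwT]
    have h3 : 3 * τ ≤ r + 1 := by exact_mod_cast (hone 0).1
    refine ⟨r + 1 - 3 * τ, by omega, fun n => ?_⟩
    obtain ⟨X⟩ := (hone n).2 (r + 1 - 3 * τ) (by omega)
    exact ⟨X.mono (Nat.le_succ n)⟩
  obtain ⟨g, hg, hlev⟩ := hlev
  have hϖ0 : (P.p : O) ≠ 0 := Nat.cast_ne_zero.2 hp.out.ne_zero
  have h1 := lev_le (O := O) hϖ0 hmO hpO hlev
  have h2 : 1 ≤ τ := hcardT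
  omega

end Fermat.Agent.Sel
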