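import Fermat.Agent.Sel.GWad
import Fermat.Agent.Sel.Primes
import Fermat.Agent.Flat.Local
import Fermat.Agent.Places.Existence

/-!
# Selmer groups with Taylor–Wiles primes
-/

set_option autoImplicit false
set_option linter.unusedSectionVars false
set_option linter.style.haveILetI false

noncomputable section

namespace Fermat.Agent.Sel

open Matrix Fermat.Agent.GalRep
open scoped Pointwise

local notation "Ω" => AlgebraicClosure ℚ

local notation "𝒢" => (AlgebraicClosure ℚ) ≃ₐ[ℚ] (AlgebraicClosure ℚ)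

/-- conjugation of inertia groups -/
theorem conj_inertia {A : ValuationSubring Ω} {g σ : 𝒢} (hσ : σ ∈ (g • A).inertiaSubgroupIn ℚ) :
    g⁻¹ * σ * g ∈ A.inertiaSubgroupIn ℚ := by
  rw [Flat.mem_inertia_iff] at hσ ⊢
  intro x hx
  have h1 : g x ∈ g • A := by
    rw [← AlgEquiv.smul_def]
    exact ValuationSubring.smul_mem_pointwise_smul g x A hx
  have h2 := hσ _ h1
  have h3 : (g⁻¹ * σ * g) x - x = g⁻¹ (σ (g x) - g x) := by
    rw [map_sub, AlgEquiv.mul_apply, AlgEquiv.mul_apply]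
    congr 1
    exact (g.symm_apply_apply x).symm
  rw [h3]
  have h4 : ∀ y, y ∈ (g • A).nonunits → g⁻¹ y ∈ A.nonunits := by
    intro y hy
    rw [ValuationSubring.mem_nonunits_iff_exists_mem_maximalIdeal] at hy ⊢
    obtain ⟨hy1, hy2⟩ := hy
    have h5 : g⁻¹ y ∈ A := by
      have := (ValuationSubring.mem_pointwise_smul_iff_inv_smul_mem).1 hy1
      exact this
    refine ⟨h5, ?_⟩
    rw [IsLocalRing.mem_maximalIdeal, mem_nonunits_iff] at hy2 ⊢
    intro hu
    apply hy2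
    obtain ⟨u, hu⟩ := hu
    have h6 : g (((u⁻¹ : Aˣ) : A) : Ω) ∈ g • A := by
      rw [← AlgEquiv.smul_def]
      exact ValuationSubring.smul_mem_pointwise_smul g _ A (((u⁻¹ : Aˣ) : A)).2
    refine IsUnit.of_mul_eq_one ⟨_, h6⟩ (Subtype.ext ?_)
    change y * g (((u⁻¹ : Aˣ) : A) : Ω) = 1
    have h7 : y = g ((u : A) : Ω) := by
      rw [hu]
      exact (g.apply_symm_apply y).symm
    rw [h7, ← map_mul]
    have h8 : ((u : A) : Ω) * (((u⁻¹ : Aˣ) : A) : Ω) = 1 := by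
      have := congrArg (fun z : A => (z : Ω)) (u.mul_inv)
      exact this
    rw [h8, map_one]
  exact h4 _ h2

variable {k : Type} [Field k] {p : ℕ} [hp : Fact p.Prime] [Algebra (ZMod p) k] [Finite k]

theorem comm_hh {g X : M2 k} (hg : dsc g ≠ 0) (hX : X.trace = 0)
    (hc : g * X = X * g) : ∃ t : k, X = t • hh g := by
  rw [dsc, Matrix.trace_fin_two, Matrix.det_fin_two] at hg
  rw [Matrix.trace_fin_two] at hX
  have h11 : X 1 1 = -X 0 0 := by linear_combination hX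
  have e00 := congrFun (congrFun hc 0) 0
  have e01 := congrFun (congrFun hc 0) 1
  have e10 := congrFun (congrFun hc 1) 0
  rw [Matrix.mul_apply, Matrix.mul_apply, Fin.sum_univ_two, Fin.sum_univ_two] at e00 e01 e10
  rw [h11] at e01
  rw [h11] at e10
  have hd : (g 0 0 - g 1 1) ^ 2 + 4 * (g 0 1 * g 1 0) ≠ 0 := by
    intro h
    apply hg
    linear_combination h
  refine ⟨(X 0 0 * (g 0 0 - g 1 1) + X 0 1 * g 1 0 + X 1 0 * g 0 1) /
    ((g 0 0 - g 1 1) ^ 2 + 4 * (g 0 1 * g 1 0)), ?_⟩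
  have hhe : hh g = !![g 0 0 - g 1 1, 2 * g 0 1; 2 * g 1 0, -(g 0 0 - g 1 1)] := by
    ext i j
    fin_cases i <;> fin_cases j <;> simp [hh, Matrix.trace_fin_two] <;> ring
  rw [hhe]
  ext i j
  fin_cases i <;> fin_cases j
  · simp only [Matrix.smul_apply, smul_eq_mul, Matrix.of_apply, Matrix.cons_val', Matrix.cons_val_zero,
      Matrix.cons_val_one, Fin.zero_eta, Fin.mk_one]
    rw [div_mul_eq_mul_div, eq_div_iff hd]
    linear_combination (-(g 1 0)) * e01 + (g 0 1) * e10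
  · simp only [Matrix.smul_apply, smul_eq_mul, Matrix.of_apply, Matrix.cons_val', Matrix.cons_val_zero,
      Matrix.cons_val_one, Fin.zero_eta, Fin.mk_one]
    rw [div_mul_eq_mul_div, eq_div_iff hd]
    linear_combination (g 0 0 - g 1 1) * e01 + (-2 * g 0 1) * e00
  · simp only [Matrix.smul_apply, smul_eq_mul, Matrix.of_apply, Matrix.cons_val', Matrix.cons_val_zero,
      Matrix.cons_val_one, Fin.zero_eta, Fin.mk_one]
    rw [div_mul_eq_mul_div, eq_div_iff hd]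
    linear_combination (-(g 0 0 - g 1 1)) * e10 + (2 * g 1 0) * e00
  · simp only [Matrix.smul_apply, smul_eq_mul, Matrix.of_apply, Matrix.cons_val', Matrix.cons_val_zero,
      Matrix.cons_val_one, Fin.zero_eta, Fin.mk_one]
    rw [h11, div_mul_eq_mul_div, eq_div_iff hd]
    linear_combination (g 1 0) * e01 - (g 0 1) * e10

variable {ρ : 𝒢 →* M2 k}

theorem finrank_H0_le {D : Subgroup 𝒢} {Φ : 𝒢} (hΦ : Φ ∈ D) (hd : (ρ Φ).det = 1)
    (hdsc : dsc (ρ Φ) ≠ 0) : Module.finrank k (H0 (adT ρ) D) ≤ 1 := by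
  haveI : FiniteDimensional k (sl k) := by
    apply FiniteDimensional.of_finrank_pos
    rw [finrank_sl]
    norm_num
  let x : sl k := ⟨hh (ρ Φ), mem_sl.2 (trace_hh _)⟩
  have hle : H0 (adT ρ) D ≤ Submodule.span k {x} := by
    intro X hX
    have h1 := congrArg Subtype.val (hX Φ hΦ)
    rw [coe_adT, hd, one_smul] at h1
    have h2 : ρ Φ * (X : M2 k) = X * ρ Φ := by
      conv_rhs => rw [← h1]
      rw [mul_assoc (ρ Φ * (X : M2 k)), rho_inv_mul, mul_one]
    obtain ⟨t, ht⟩ := comm_hh hdsc (sl_trace X) h2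
    rw [Submodule.mem_span_singleton]
    exact ⟨t, Subtype.ext ht.symm⟩
  refine (Submodule.finrank_mono hle).trans ?_
  have := finrank_span_le_card (R := k) ({x} : Set (sl k))
  simpa using this

/-- coboundaries -/
def cobT (ρ : 𝒢 →* M2 k) : sl k →ₗ[k] (𝒢 → sl k) := LinearMap.pi fun σ => (adT ρ σ - 1 : Module.End k (sl k))

theorem cobT_apply (X : sl k) (σ : 𝒢) : cobT ρ X σ = adT ρ σ X - X := rfl

theorem mem_perp_top (hLP : LocPerpTop p) {S₀ : Finset ℕ} (h : ResH p ρ S₀)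
    {lam : k →ₗ[ZMod p] ZMod p} (hlam : lam ≠ 0) {v : ℕ} (hv : v.Prime) {A : ValuationSubring Ω}
    (hA : A.LiesOverPrime v) {c : A.decompositionSubgroup ℚ → sl k}
    (hc : c ∈ Perp (resS (p := p) (adT ρ)) (trP lam) (cyc p) (A.decompositionSubgroup ℚ)
      ((Z1 (adR ρ) (A.decompositionSubgroup ℚ)).restrictScalars (ZMod p))) :
    ∃ X : sl k, ∀ σ : A.decompositionSubgroup ℚ, c σ = adT ρ σ X - X := by
  haveI : FiniteDimensional k (sl k) := by
    apply FiniteDimensional.of_finrank_pos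
    rw [finrank_sl]
    norm_num
  haveI : Module.Finite (ZMod p) k := Module.Finite.of_finite
  haveI : FiniteDimensional (ZMod p) (sl k) := Module.Finite.trans k (sl k)
  obtain ⟨X, hX⟩ := hLP (sl k) (sl k) S₀ _ _ _ (dualReps h hlam) v A hv hA hc
  exact ⟨X, fun σ => (congrFun hX σ).symm⟩

/-- the dual Selmer group at level `Q` -/
theorem selD_le (hLP : LocPerpTop p) {S₀ S : Finset ℕ} (h : ResH p ρ S₀) (hSS : S₀ ⊆ S)
    (hS : ∀ v ∈ S, v.Prime)
    {lam : k →ₗ[ZMod p] ZMod p} (hlam : lam ≠ 0)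
    (Lc : ℕ → ∀ A : ValuationSubring Ω, Submodule k (A.decompositionSubgroup ℚ → sl k))
    (hL3 : ∀ v ∉ S₀, ∀ A, Lc v A = Z1 (adR ρ) _) (A₀ Ach : ℕ → ValuationSubring Ω)
    (hAch : ∀ v ∈ S, (Ach v).LiesOverPrime v) (hA0 : ∀ v ∈ S₀, Ach v = A₀ v)
    {c : 𝒢 → sl k} (hc : c ∈ SelD ρ (fun v : S => Ach v) (fun v => Lc v (Ach v)) lam) :
    c ∈ SelD ρ (fun v : S₀ => A₀ v) (fun v => Lc v (A₀ v)) lam ∧
    ∀ v ∈ S, v ∉ S₀ → ∃ X : sl k, ∀ σ ∈ (Ach v).decompositionSubgroup ℚ, c σ = adT ρ σ X - X := by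
  obtain ⟨h1, h2, h3, h4⟩ := hc
  have h5 : ∀ v ∈ S, v ∉ S₀ → ∃ X : sl k, ∀ σ ∈ (Ach v).decompositionSubgroup ℚ,
      c σ = adT ρ σ X - X := by
    intro v hv hv0
    have h6 := h4 ⟨v, hv⟩
    simp only [resL, hL3 v hv0] at h6
    obtain ⟨X, hX⟩ := mem_perp_top hLP h hlam (hS v hv) (hAch v hv) h6
    exact ⟨X, fun σ hσ => hX ⟨σ, hσ⟩⟩
  have hmul : ∀ σ τ, c (σ * τ) = c σ + adT ρ σ (c τ) := fun σ τ => h1 σ τ
  have hone : c 1 = 0 := by
    have := hmul 1 1
    rw [mul_one, map_one] at this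
    exact left_eq_add.1 this
  refine ⟨⟨h1, h2, fun l hl hlS A' hA' σ hσ => ?_, fun v => ?_⟩, h5⟩
  · by_cases hlS' : l ∈ S
    · obtain ⟨X, hX⟩ := h5 l hlS' hlS
      obtain ⟨g, hg⟩ := Places.exists_smul_eq_of_liesOverPrime hl (Ach l) A' (hAch l hlS') hA'
      rw [← hg] at hσ
      have h6 := conj_inertia hσ
      have h7 : adT ρ (g⁻¹ * σ * g) = 1 := adT_eq_one (h.unr l hl hlS _ (hAch l hlS') _ h6)
      have h8 : c (g⁻¹ * σ * g) = 0 := by
        obtain ⟨⟨τ, hτ⟩, -, hτ'⟩ := Subgroup.mem_map.1 h6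
        have h9 := hX (g⁻¹ * σ * g) (by rw [← hτ']; exact hτ)
        rw [h9, h7, Module.End.one_apply, sub_self]
      have h9 : σ = g * ((g⁻¹ * σ * g) * g⁻¹) := by group
      rw [h9, hmul, hmul, h8, h7, zero_add, Module.End.one_apply, ← hmul, mul_inv_cancel, hone]
    · exact h3 l hl hlS' A' hA' σ hσ
  · have h6 := h4 ⟨v, hSS v.2⟩
    have h7 := hA0 v v.2
    simp only at h6 ⊢
    have key : ∀ B : ValuationSubring Ω, Ach v = B →
        (fun σ : (Ach v).decompositionSubgroup ℚ => c σ) ∈ Perp (resS (p := p) (adT ρ)) (trP lam)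
          (cyc p) _ ((Lc v (Ach v)).restrictScalars (ZMod p)) →
        (fun σ : B.decompositionSubgroup ℚ => c σ) ∈ Perp (resS (p := p) (adT ρ)) (trP lam)
          (cyc p) _ ((Lc v B).restrictScalars (ZMod p)) := by
      rintro B rfl hB
      exact hB
    exact key _ h7 h6

/-- composition with the inclusion -/
def coeM : (𝒢 → sl k) →ₗ[k] (𝒢 → M2 k) := LinearMap.compLeft (sl k).subtype 𝒢

theorem coeM_apply (c : 𝒢 → sl k) (σ : 𝒢) : coeM c σ = (c σ : M2 k) := rfl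

theorem coeM_injective : Function.Injective (coeM (k := k)) := fun c d h => by
  funext σ
  exact Subtype.ext (congrFun h σ)

/-- the primes of a Taylor–Wiles set -/
structure TWd (p : ℕ) (ρ : 𝒢 →* M2 k) (n : ℕ) (q : ℕ) (A : ValuationSubring Ω) (Φ : 𝒢) : Prop where
  prime : q.Prime
  dvd : p ^ n ∣ q - 1
  lies : A.LiesOverPrime q
  frob : A.IsFrobeniusAt Φ q
  dsc : dsc (ρ Φ) ≠ 0

theorem TWd.det {n q : ℕ} {A : ValuationSubring Ω} {Φ : 𝒢} (h : TWd p ρ n q A Φ) (hn : 1 ≤ n)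
    {S₀ : Finset ℕ} (hρ : ResH p ρ S₀) : (ρ Φ).det = 1 := by
  have hq : q ≡ 1 [MOD p] := by
    have h1 : p ∣ q - 1 := (dvd_pow_self p (by omega)).trans h.dvd
    exact ((Nat.modEq_iff_dvd' h.prime.one_le).2 h1).symm
  have hqp : q ≠ p := by
    rintro rfl
    have h1 : (q : ℕ) ≡ 0 [MOD q] := by simp [Nat.ModEq]
    have h2 := h1.symm.trans hq
    have h3 := (Nat.modEq_iff_dvd' (by omega)).1 h2
    rw [Nat.sub_zero, Nat.dvd_one] at h3
    exact h.prime.one_lt.ne' h3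
  rw [hρ.det, cyc_frobenius ((Nat.coprime_primes h.prime hp.out).2 hqp) h.lies h.frob]
  have h2 : ((q : ℕ) : ZMod p) = ((1 : ℕ) : ZMod p) := (ZMod.natCast_eq_natCast_iff _ _ _).2 hq
  rw [h2, Nat.cast_one, map_one]

theorem exists_compl_le {E : Type} [AddCommGroup E] [Module k E] (W C : Submodule k E) :
    ∃ D : Submodule k E, D ≤ W ∧ D ⊓ C = ⊥ ∧ W ≤ D ⊔ C := by
  obtain ⟨D, hD⟩ := Submodule.exists_isCompl ((C ⊓ W).comap W.subtype)
  refine ⟨D.map W.subtype, ?_, ?_, ?_⟩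
  · rintro _ ⟨x, -, rfl⟩
    exact x.2
  · rw [eq_bot_iff]
    rintro _ ⟨⟨x, hx, rfl⟩, hxC⟩
    have h1 : x ∈ (C ⊓ W).comap W.subtype ⊓ D := ⟨⟨hxC, x.2⟩, hx⟩
    rw [hD.inf_eq_bot, Submodule.mem_bot] at h1
    rw [h1]
    exact Submodule.zero_mem _
  · intro x hx
    have h1 : (⟨x, hx⟩ : W) ∈ (C ⊓ W).comap W.subtype ⊔ D := by
      rw [hD.sup_eq_top]; trivial
    obtain ⟨y, hy, z, hz, hyz⟩ := Submodule.mem_sup.1 h1
    refine Submodule.mem_sup.2 ⟨z, ⟨z, hz, rfl⟩, y, hy.1, ?_⟩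
    rw [add_comm]
    exact congrArg Subtype.val hyz

theorem fix_zpowers {V : Type} [AddCommGroup V] [Module k V] (r : 𝒢 →* Module.End k V) {c : 𝒢}
    {x : V} (hx : r c x = x) : x ∈ H0 r (Subgroup.zpowers c) := by
  have hinv : r c⁻¹ x = x := by
    conv_lhs => rw [← hx]
    rw [← Module.End.mul_apply, ← map_mul, inv_mul_cancel, map_one, Module.End.one_apply]
  intro σ hσ
  obtain ⟨m, rfl⟩ := Subgroup.mem_zpowers_iff.1 hσ
  clear hσ
  induction m with
  | zero => rw [zpow_zero, map_one, Module.End.one_apply]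
  | succ m ih => rw [_root_.zpow_add_one, map_mul, Module.End.mul_apply, hx, ih]
  | pred m ih => rw [_root_.zpow_sub_one, map_mul, Module.End.mul_apply, hinv, ih]

theorem one_le_H0 (hconj : ρ complexConjugation = !![1, 0; 0, -1]) :
    1 ≤ Module.finrank k (H0 (adR ρ) (Subgroup.zpowers complexConjugation)) := by
  haveI : FiniteDimensional k (sl k) := by
    apply FiniteDimensional.of_finrank_pos
    rw [finrank_sl]
    norm_num
  rw [Nat.one_le_iff_ne_zero, ne_eq, Submodule.finrank_eq_zero]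
  intro h0
  have hx : (⟨!![1, 0; 0, -1], mem_sl.2 (by simp [Matrix.trace_fin_two])⟩ : sl k) ∈
      H0 (adR ρ) (Subgroup.zpowers complexConjugation) := by
    refine fix_zpowers (adR ρ) (Subtype.ext ?_)
    have hi : ρ complexConjugation⁻¹ = !![1, 0; 0, -1] := by
      have := complexConjugation_mul_self
      rw [inv_eq_of_mul_eq_one_left this, hconj]
    rw [coe_adR, hconj, hi]
    ext i j
    fin_cases i <;> fin_cases j <;> simp [Matrix.mul_apply, Fin.sum_univ_two]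
  rw [h0, Submodule.mem_bot] at hx
  have := congrFun (congrFun (congrArg Subtype.val hx) 0) 0
  exact one_ne_zero this

/-- the local dimension at a Taylor–Wiles prime -/
theorem finrank_Z1_le (hLD : LocDim p) {S₀ : Finset ℕ}
    (h : ResH p ρ S₀) {lam : k →ₗ[ZMod p] ZMod p} (hlam : lam ≠ 0) {n q : ℕ} (hn : 1 ≤ n)
    {B : ValuationSubring Ω} {Φ : 𝒢} (hi : TWd p ρ n q B Φ) (hq : q ∉ S₀) :
    Module.finrank k (Z1 (adR ρ) (B.decompositionSubgroup ℚ)) ≤ 4 := by
  haveI : FiniteDimensional k (sl k) := by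
    apply FiniteDimensional.of_finrank_pos
    rw [finrank_sl]
    norm_num
  haveI : Module.Finite (ZMod p) k := Module.Finite.of_finite
  haveI : FiniteDimensional (ZMod p) (sl k) := Module.Finite.trans k (sl k)
  have h10 := hLD (sl k) (sl k) S₀ _ _ _ (dualReps h hlam) q B hi.prime (by
    rintro rfl
    exact hq h.mem) hi.lies
  have hd : 0 < Module.finrank (ZMod p) k := Module.finrank_pos
  obtain ⟨d, hdef⟩ : ∃ d, d = Module.finrank (ZMod p) k := ⟨_, rfl⟩
  have e1 : Module.finrank (ZMod p) (Z1 (resS (p := p) (adR ρ)) (B.decompositionSubgroup ℚ)) =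
      d * Module.finrank k (Z1 (adR ρ) (B.decompositionSubgroup ℚ)) := by
    rw [hdef]
    exact finrank_res (p := p) (Z1 (adR ρ) (B.decompositionSubgroup ℚ))
  have e2 : Module.finrank (ZMod p) (H0 (resS (p := p) (adT ρ)) (B.decompositionSubgroup ℚ)) =
      d * Module.finrank k (H0 (adT ρ) (B.decompositionSubgroup ℚ)) := by
    rw [hdef]
    exact finrank_res (p := p) (H0 (adT ρ) (B.decompositionSubgroup ℚ))
  have e4 : Module.finrank (ZMod p) (sl k) = d * 3 := by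
    rw [← finrank_sl (k := k), hdef]
    exact (Module.finrank_mul_finrank (ZMod p) k (sl k)).symm
  rw [e1, e2, e4, ← mul_add] at h10
  have h11 := Nat.eq_of_mul_eq_mul_left (by rw [hdef]; exact hd) h10
  have h12 : Module.finrank k (H0 (adT ρ) (B.decompositionSubgroup ℚ)) ≤ 1 :=
    finrank_H0_le (Φ := Φ) hi.frob.mem_decompositionSubgroup (hi.det hn h) hi.dsc
  omega

set_option maxHeartbeats 1000000 in
/-- **Selmer groups with Taylor–Wiles primes.** -/
theorem tw_sel (hGW : GWStatement p) (hLP : LocPerpTop p) (hLD : LocDim p) {S₀ : Finset ℕ}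
    (h : ResH p ρ S₀) (hconj : ρ complexConjugation = !![1, 0; 0, -1])
    (Lc : ℕ → ∀ A : ValuationSubring Ω, Submodule k (A.decompositionSubgroup ℚ → sl k))
    (hL1 : ∀ v ∈ S₀, ∀ A : ValuationSubring Ω, A.LiesOverPrime v → B1 (adR ρ) _ ≤ Lc v A)
    (hL2 : ∀ v ∈ S₀, ∀ A : ValuationSubring Ω, A.LiesOverPrime v → Lc v A ≤ Z1 (adR ρ) _)
    (hL3 : ∀ v ∉ S₀, ∀ A, Lc v A = Z1 (adR ρ) _) (A₀ : ℕ → ValuationSubring Ω)
    (hA₀ : ∀ v ∈ S₀, (A₀ v).LiesOverPrime v)
    (hTW : ∀ (D : Submodule k (𝒢 → M2 k)) [FiniteDimensional k D], (∀ c ∈ D, TCoc ρ c) →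
      (∀ c ∈ D, TCob ρ c → c = 0) → ∀ n, 1 ≤ n → ∀ S' : Set ℕ, S'.Finite →
      ∃ (qv : Fin (Module.finrank k D) → ℕ) (A : Fin (Module.finrank k D) → ValuationSubring Ω)
      (Φ : Fin (Module.finrank k D) → 𝒢), Function.Injective qv ∧
      (∀ i, qv i ∉ S' ∧ TWd p ρ n (qv i) (A i) (Φ i)) ∧
      ∀ c ∈ D, (∀ i, (c (Φ i) * hh (ρ (Φ i))).trace = 0) → c = 0) :
    ∃ r : ℕ, ∀ n, 1 ≤ n → ∀ S' : Set ℕ, S'.Finite → ∃ (qv : Fin r → ℕ)
      (A : Fin r → ValuationSubring Ω) (Φ : Fin r → 𝒢), Function.Injective qv ∧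
      (∀ i, qv i ∉ S' ∧ qv i ∉ S₀ ∧ TWd p ρ n (qv i) (A i) (Φ i)) ∧
      ∃ (S : Finset ℕ) (Ach : ℕ → ValuationSubring Ω),
        (∀ v, v ∈ S ↔ v ∈ S₀ ∨ ∃ i, qv i = v) ∧ (∀ v ∈ S, (Ach v).LiesOverPrime v) ∧
        (∀ v ∈ S₀, Ach v = A₀ v) ∧ (∀ i, Ach (qv i) = A i) ∧
        FiniteDimensional k (SelZ (adR ρ) S (fun v : S => Ach v) fun v => Lc v (Ach v)) ∧
        (Module.finrank k (SelZ (adR ρ) S (fun v : S => Ach v) fun v => Lc v (Ach v)) : ℤ) ≤
          3 + ∑ v ∈ S₀, ((Module.finrank k (Lc v (A₀ v)) : ℤ) - 3) + r - 1 := by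
  classical
  haveI : FiniteDimensional k (sl k) := by
    apply FiniteDimensional.of_finrank_pos
    rw [finrank_sl]
    norm_num
  haveI : Module.Finite (ZMod p) k := Module.Finite.of_finite
  haveI : FiniteDimensional (ZMod p) (sl k) := Module.Finite.trans k (sl k)
  obtain ⟨lam, hlam⟩ : ∃ lam : k →ₗ[ZMod p] ZMod p, lam ≠ 0 := by
    by_contra hcon
    push Not at hcon
    have h1 : (1 : k) = 0 := by
      rw [← Module.forall_dual_apply_eq_zero_iff (ZMod p)]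
      intro φ
      rw [hcon φ, LinearMap.zero_apply]
    exact one_ne_zero h1
  obtain ⟨-, -, hfin, -⟩ := gw_ad (A := fun v : S₀ => A₀ v) (L := fun v => Lc v (A₀ v)) hGW h hlam
    (fun v => hA₀ v v.2) (fun v => hL1 v v.2 _ (hA₀ v v.2)) (fun v => hL2 v v.2 _ (hA₀ v v.2))
  set W := SelD ρ (fun v : S₀ => A₀ v) (fun v => Lc v (A₀ v)) lam with hW
  set C := LinearMap.range (cobT ρ) with hC
  -- a complement of the coboundaries
  obtain ⟨D, hDW, hDC, hDC'⟩ := exists_compl_le W C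
  haveI : FiniteDimensional k D := Submodule.finiteDimensional_of_le hDW
  let D' := D.map (coeM (k := k))
  have hTC : ∀ c ∈ W, TCoc ρ (coeM c) := by
    intro c hc
    obtain ⟨h1, h2, -, -⟩ := hc
    refine ⟨fun σ τ => ?_, fun σ => sl_trace _, ?_⟩
    · have := congrArg Subtype.val (h1 σ τ)
      exact this
    · obtain ⟨F, hF, h3⟩ := h2
      exact ⟨F, hF, fun σ hσ => by rw [coeM_apply, h3 σ hσ]; rfl⟩
  haveI : FiniteDimensional k D' := inferInstanceAs (FiniteDimensional k (D.map (coeM (k := k))))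
  refine ⟨Module.finrank k D', fun n hn S' hS' => ?_⟩
  obtain ⟨qv, A, Φ, hinj, hq, hker⟩ := hTW D' (by
      rintro _ ⟨c, hc, rfl⟩
      exact hTC c (hDW hc)) (by
      rintro _ ⟨c, hc, rfl⟩ ⟨X, hX, hcX⟩
      have h1 : c ∈ D ⊓ C := by
        refine ⟨hc, ⟨⟨X, mem_sl.2 hX⟩, ?_⟩⟩
        funext σ
        exact Subtype.ext (hcX σ).symm
      rw [hDC, Submodule.mem_bot] at h1
      rw [h1, map_zero]) n hn (S' ∪ S₀) (hS'.union S₀.finite_toSet)
  have hq' : ∀ i, qv i ∉ S' ∧ qv i ∉ S₀ ∧ TWd p ρ n (qv i) (A i) (Φ i) := fun i =>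
    ⟨fun h1 => (hq i).1 (Or.inl h1), fun h1 => (hq i).1 (Or.inr h1), (hq i).2⟩
  let S : Finset ℕ := S₀ ∪ Finset.univ.image qv
  let Ach : ℕ → ValuationSubring Ω := fun v => if hv : ∃ i, qv i = v then A hv.choose else A₀ v
  have hmemS : ∀ v, v ∈ S ↔ v ∈ S₀ ∨ ∃ i, qv i = v := fun v => by
    simp only [S, Finset.mem_union, Finset.mem_image, Finset.mem_univ, true_and]
  have hAi : ∀ i, Ach (qv i) = A i := by
    intro i
    have hv : ∃ j, qv j = qv i := ⟨i, rfl⟩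
    simp only [Ach]
    rw [dif_pos hv]
    congr 1
    exact hinj hv.choose_spec
  have hA0 : ∀ v ∈ S₀, Ach v = A₀ v := by
    intro v hv
    simp only [Ach]
    rw [dif_neg]
    rintro ⟨i, rfl⟩
    exact (hq' i).2.1 hv
  have hAch : ∀ v ∈ S, (Ach v).LiesOverPrime v := by
    intro v hv
    rcases (hmemS v).1 hv with h1 | ⟨i, rfl⟩
    · rw [hA0 v h1]; exact hA₀ v h1
    · rw [hAi]; exact (hq' i).2.2.lies
  have hSS : S₀ ⊆ S := Finset.subset_union_left
  have hSp : ∀ v ∈ S, v.Prime := by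
    intro v hv
    rcases (hmemS v).1 hv with h1 | ⟨i, rfl⟩
    · exact h.prime v h1
    · exact (hq' i).2.2.prime
  have hRes : ResH p ρ S :=
    { odd := h.odd, prime := hSp, mem := hSS h.mem, lc := h.lc
      unr := fun l hl hlS => h.unr l hl fun h1 => hlS (hSS h1)
      det := h.det }
  have hcases : ∀ v ∈ S, v ∉ S₀ → Lc v (Ach v) = Z1 (adR ρ) _ := fun v _ hv0 => hL3 v hv0 _
  have hZB : ∀ B : ValuationSubring Ω, B1 (adR ρ) (B.decompositionSubgroup ℚ) ≤
      Z1 (adR ρ) (B.decompositionSubgroup ℚ) := by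
    rintro B _ ⟨X, rfl⟩
    refine ⟨fun σ τ => ?_, ?_⟩
    · change adR ρ (σ * τ : 𝒢) X - X = (adR ρ σ X - X) + adR ρ σ (adR ρ τ X - X)
      rw [map_mul, Module.End.mul_apply, map_sub]
      abel
    · obtain ⟨F, hF, h1⟩ := h.lc
      refine ⟨F, hF, fun σ hσ => ?_⟩
      change adR ρ (σ : 𝒢) X - X = 0
      rw [adR_eq_one (h1 _ hσ), Module.End.one_apply, sub_self]
  obtain ⟨h1, h2, h3, h4⟩ := gw_ad (A := fun v : S => Ach v) (L := fun v => Lc v (Ach v)) hGW hRes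
    hlam (fun v => hAch v v.2) (fun v => by
      by_cases hv0 : (v : ℕ) ∈ S₀
      · exact hL1 v hv0 _ (hAch v v.2)
      · change B1 (adR ρ) _ ≤ Lc v (Ach v)
        rw [hcases v v.2 hv0]; exact hZB _) (fun v => by
      by_cases hv0 : (v : ℕ) ∈ S₀
      · exact hL2 v hv0 _ (hAch v v.2)
      · change Lc v (Ach v) ≤ Z1 (adR ρ) _
        rw [hcases v v.2 hv0])
  refine ⟨qv, A, Φ, hinj, hq', S, Ach, hmemS, hAch, hA0, hAi, h2, ?_⟩
  -- the dual Selmer group
  have h5 : Module.finrank k (SelD ρ (fun v : S => Ach v) (fun v => Lc v (Ach v)) lam) ≤ 3 := by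
    have hle : SelD ρ (fun v : S => Ach v) (fun v => Lc v (Ach v)) lam ≤ C := by
      intro c hc
      obtain ⟨h6, h7⟩ := selD_le hLP h hSS hSp hlam Lc hL3 A₀ Ach hAch hA0 hc
      obtain ⟨d, hd, b, ⟨X, hX⟩, hdb⟩ := Submodule.mem_sup.1 (hDC' h6)
      have h8 : coeM d = 0 := by
        refine hker _ ⟨d, hd, rfl⟩ fun i => ?_
        obtain ⟨Y, hY⟩ := h7 (qv i) ((hmemS _).2 (Or.inr ⟨i, rfl⟩)) (hq' i).2.1
        have h9 := hY (Φ i) (by
          rw [hAi]
          exact (hq' i).2.2.frob.mem_decompositionSubgroup)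
        have h10 : d (Φ i) = adT ρ (Φ i) (Y - X) - (Y - X) := by
          have h11 : d (Φ i) = c (Φ i) - b (Φ i) := by
            rw [← hdb, Pi.add_apply, add_sub_cancel_right]
          rw [h11, h9, ← hX, cobT_apply, map_sub]
          abel
        have hdet := (hq' i).2.2.det hn h
        rw [coeM_apply, h10]
        change (((adT ρ (Φ i) (Y - X) : M2 k) - ((Y - X : sl k) : M2 k)) * hh (ρ (Φ i))).trace = 0
        rw [coe_adT, hdet, one_smul]
        exact trace_cob (rho_inv_mul (ρ := ρ) _)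
      have h9 : d = 0 := coeM_injective (by rw [h8, map_zero])
      rw [← hdb, h9, zero_add]
      exact ⟨X, hX⟩
    haveI : FiniteDimensional k C := inferInstanceAs (FiniteDimensional k (LinearMap.range (cobT ρ)))
    refine (Submodule.finrank_mono hle).trans ?_
    have := LinearMap.finrank_range_le (cobT ρ)
    rwa [finrank_sl] at this
  -- the invariants of complex conjugation
  have h6 := one_le_H0 hconj
  -- the sum
  have h7 : ∑ v : S, ((Module.finrank k (Lc v (Ach v)) : ℤ) - 3) ≤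
      ∑ v ∈ S₀, ((Module.finrank k (Lc v (A₀ v)) : ℤ) - 3) + Module.finrank k D' := by
    rw [Finset.sum_coe_sort S (fun v => (Module.finrank k (Lc v (Ach v)) : ℤ) - 3)]
    have hdisj : Disjoint S₀ (Finset.univ.image qv) := by
      rw [Finset.disjoint_right]
      intro v hv
      obtain ⟨i, -, rfl⟩ := Finset.mem_image.1 hv
      exact (hq' i).2.1
    rw [Finset.sum_union hdisj]
    have h8 : ∑ v ∈ S₀, ((Module.finrank k (Lc v (Ach v)) : ℤ) - 3) =
        ∑ v ∈ S₀, ((Module.finrank k (Lc v (A₀ v)) : ℤ) - 3) :=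
      Finset.sum_congr rfl fun v hv => by rw [hA0 v hv]
    rw [h8]
    gcongr
    rw [Finset.sum_image fun i _ j _ hij => hinj hij]
    have h9 : ∀ i ∈ (Finset.univ : Finset (Fin (Module.finrank k D'))),
        (Module.finrank k (Lc (qv i) (Ach (qv i))) : ℤ) - 3 ≤ 1 := by
      intro i _
      have hi := (hq' i).2.2
      rw [hL3 _ (hq' i).2.1, hAi]
      have h12 := finrank_Z1_le hLD h hlam hn hi (hq' i).2.1
      have h13 : ((Module.finrank k (Z1 (adR ρ) ((A i).decompositionSubgroup ℚ)) : ℕ) : ℤ) ≤ 4 := by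
        exact_mod_cast h12
      linarith
    have h10 := Finset.sum_le_card_nsmul _ _ _ h9
    simpa using h10
  have h8 : ((Module.finrank k (SelD ρ (fun v : S => Ach v) (fun v => Lc v (Ach v)) lam) : ℕ) : ℤ)
      ≤ 3 := by exact_mod_cast h5
  have h9 : (1 : ℤ) ≤ (Module.finrank k (H0 (adR ρ) (Subgroup.zpowers complexConjugation)) : ℕ) := by
    exact_mod_cast h6
  linarith

end Fermat.Agent.Sel
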