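import Fermat.Agent.Sel.Kill
import Fermat.Agent.Sel.GWdef

/-!
# The adjoint representation and the Greenberg–Wiles inequality
-/

set_option autoImplicit false
set_option linter.unusedSectionVars false
set_option linter.style.haveILetI false

noncomputable section

namespace Fermat.Agent.Sel

open Matrix Fermat.Agent.GalRep

local notation "Ω" => AlgebraicClosure ℚ

local notation "𝒢" => (AlgebraicClosure ℚ) ≃ₐ[ℚ] (AlgebraicClosure ℚ)

variable (k : Type) [Field k]

/-- trace zero matrices -/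
def sl : Submodule k (M2 k) := LinearMap.ker (Matrix.traceLinearMap (Fin 2) k k)

variable {k}

theorem mem_sl {X : M2 k} : X ∈ sl k ↔ X.trace = 0 := by
  rw [sl, LinearMap.mem_ker, Matrix.traceLinearMap_apply]

theorem sl_trace (X : sl k) : (X : M2 k).trace = 0 := mem_sl.1 X.2

theorem finrank_sl : Module.finrank k (sl k) = 3 := by
  have h1 := LinearMap.finrank_range_add_finrank_ker (Matrix.traceLinearMap (Fin 2) k k)
  have h2 : LinearMap.range (Matrix.traceLinearMap (Fin 2) k k) = ⊤ := by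
    rw [LinearMap.range_eq_top]
    intro x
    exact ⟨!![x, 0; 0, 0], by simp [Matrix.trace_fin_two]⟩
  rw [h2, finrank_top, Module.finrank_self, Module.finrank_matrix, Module.finrank_self,
    Fintype.card_fin] at h1
  change 1 + Module.finrank k (sl k) = _ at h1
  omega

variable (ρ : 𝒢 →* M2 k)

theorem trace_conj (σ : 𝒢) (X : M2 k) : (ρ σ * X * ρ σ⁻¹).trace = X.trace := by
  rw [Matrix.trace_mul_comm, ← mul_assoc, rho_inv_mul, one_mul]

/-- the adjoint representation -/
def adR : 𝒢 →* Module.End k (sl k) where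
  toFun σ :=
    { toFun := fun X => ⟨ρ σ * X * ρ σ⁻¹, by rw [mem_sl, trace_conj]; exact sl_trace X⟩
      map_add' := fun X Y => Subtype.ext (by
        change ρ σ * ((X : M2 k) + Y) * ρ σ⁻¹ = ρ σ * X * ρ σ⁻¹ + ρ σ * Y * ρ σ⁻¹
        rw [mul_add, add_mul])
      map_smul' := fun t X => Subtype.ext (by
        change ρ σ * (t • (X : M2 k)) * ρ σ⁻¹ = t • (ρ σ * X * ρ σ⁻¹)
        rw [mul_smul_comm, smul_mul_assoc]) }
  map_one' := LinearMap.ext fun X => Subtype.ext (by
    change ρ 1 * (X : M2 k) * ρ 1⁻¹ = X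
    rw [inv_one, map_one, one_mul, mul_one])
  map_mul' σ τ := LinearMap.ext fun X => Subtype.ext (by
    change ρ (σ * τ) * (X : M2 k) * ρ (σ * τ)⁻¹ = ρ σ * (ρ τ * X * ρ τ⁻¹) * ρ σ⁻¹
    rw [_root_.mul_inv_rev, map_mul, map_mul]
    simp only [mul_assoc])

theorem coe_adR (σ : 𝒢) (X : sl k) : (adR ρ σ X : M2 k) = ρ σ * X * ρ σ⁻¹ := rfl

/-- the twisted adjoint representation -/
def adT : 𝒢 →* Module.End k (sl k) where
  toFun σ := (ρ σ).det • adR ρ σ
  map_one' := by rw [map_one, map_one, Matrix.det_one, one_smul]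
  map_mul' σ τ := by
    rw [map_mul, map_mul, Matrix.det_mul, smul_mul_assoc, mul_smul_comm, smul_smul]

theorem coe_adT (σ : 𝒢) (X : sl k) : (adT ρ σ X : M2 k) = (ρ σ).det • (ρ σ * X * ρ σ⁻¹) := rfl

section pairing

variable {p : ℕ} [hp : Fact p.Prime] [Algebra (ZMod p) k] (lam : k →ₗ[ZMod p] ZMod p)

/-- the trace pairing with values in the prime field -/
def trP : sl k →ₗ[ZMod p] sl k →ₗ[ZMod p] ZMod p :=
  LinearMap.mk₂ (ZMod p) (fun X Y => lam ((X : M2 k) * Y).trace)
    (fun X X' Y => by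
      change lam (((X : M2 k) + X') * Y).trace = _
      rw [add_mul, Matrix.trace_add, map_add])
    (fun c X Y => by
      change lam ((c • (X : M2 k)) * Y).trace = _
      rw [smul_mul_assoc, Matrix.trace_smul, map_smul])
    (fun X Y Y' => by
      change lam ((X : M2 k) * ((Y : M2 k) + Y')).trace = _
      rw [mul_add, Matrix.trace_add, map_add])
    (fun c X Y => by
      change lam ((X : M2 k) * (c • (Y : M2 k))).trace = _
      rw [mul_smul_comm, Matrix.trace_smul, map_smul])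

theorem trP_apply (X Y : sl k) : trP lam X Y = lam ((X : M2 k) * Y).trace := rfl

theorem trP_smul (t : k) (X Y : sl k) : trP lam (t • X) Y = trP lam X (t • Y) := by
  rw [trP_apply, trP_apply]
  change lam ((t • (X : M2 k)) * Y).trace = lam ((X : M2 k) * (t • (Y : M2 k))).trace
  rw [smul_mul_assoc, mul_smul_comm]

variable {lam}

theorem trP_nd (hlam : lam ≠ 0) (h2 : (2 : k) ≠ 0) (X : sl k) (hX : ∀ Y, trP lam X Y = 0) :
    X = 0 := by
  have hl : ∀ x : k, (∀ t : k, lam (t * x) = 0) → x = 0 := by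
    intro x hx
    by_contra hx0
    apply hlam
    refine LinearMap.ext fun y => ?_
    have := hx (y * x⁻¹)
    rwa [inv_mul_cancel_right₀ hx0] at this
  have h1 : ∀ Y : sl k, ((X : M2 k) * Y).trace = 0 := by
    intro Y
    refine hl _ fun t => ?_
    have h3 := hX (t • Y)
    rw [trP_apply] at h3
    change lam ((X : M2 k) * (t • (Y : M2 k))).trace = 0 at h3
    rwa [mul_smul_comm, Matrix.trace_smul, smul_eq_mul] at h3
  have hE : ∀ Y : M2 k, Y.trace = 0 → ((X : M2 k) * Y).trace = 0 := fun Y hY => h1 ⟨Y, mem_sl.2 hY⟩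
  have e1 := hE !![0, 1; 0, 0] (by simp [Matrix.trace_fin_two])
  have e2 := hE !![0, 0; 1, 0] (by simp [Matrix.trace_fin_two])
  have e3 := hE !![1, 0; 0, -1] (by simp [Matrix.trace_fin_two])
  have e4 := sl_trace X
  simp only [Matrix.trace_fin_two, Matrix.mul_apply, Fin.sum_univ_two, Matrix.of_apply,
    Matrix.cons_val', Matrix.cons_val_zero, Matrix.cons_val_one, mul_zero,
    mul_one, add_zero, zero_add, mul_neg] at e1 e2 e3 e4
  have e5 : (X : M2 k) 0 0 = 0 := by
    have : (2 : k) * (X : M2 k) 0 0 = 0 := by linear_combination e3 + e4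
    exact (mul_eq_zero.1 this).resolve_left h2
  apply Subtype.ext
  ext i j
  change (X : M2 k) i j = 0
  fin_cases i <;> fin_cases j
  · exact e5
  · exact e2
  · exact e1
  · change (X : M2 k) 1 1 = 0
    rw [e5, zero_add] at e4
    exact e4

end pairing

section gw

variable {p : ℕ} [hp : Fact p.Prime] [Algebra (ZMod p) k] [Finite k]

/-- a representation over `k`, viewed over the prime field -/
def resS {V : Type} [AddCommGroup V] [Module k V] [Module (ZMod p) V] [IsScalarTower (ZMod p) k V]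
    (r : 𝒢 →* Module.End k V) : 𝒢 →* Module.End (ZMod p) V where
  toFun σ := (r σ).restrictScalars (ZMod p)
  map_one' := by rw [map_one]; rfl
  map_mul' σ τ := by rw [map_mul]; rfl

theorem resS_apply {V : Type} [AddCommGroup V] [Module k V] [Module (ZMod p) V]
    [IsScalarTower (ZMod p) k V] (r : 𝒢 →* Module.End k V) (σ : 𝒢) (v : V) :
    resS (p := p) r σ v = r σ v := rfl

variable {ρ}

/-- the hypotheses on the residual representation -/
structure ResH (p : ℕ) [hp : Fact p.Prime] [Algebra (ZMod p) k] (ρ : 𝒢 →* M2 k) (S : Finset ℕ) :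
    Prop where
  odd : p ≠ 2
  prime : ∀ v ∈ S, v.Prime
  mem : p ∈ S
  lc : ∃ F : IntermediateField ℚ Ω, FiniteDimensional ℚ F ∧ ∀ σ : 𝒢, (∀ x ∈ F, σ x = x) → ρ σ = 1
  unr : ∀ l : ℕ, l.Prime → l ∉ S → ∀ A : ValuationSubring Ω, A.LiesOverPrime l →
    ∀ σ ∈ A.inertiaSubgroupIn ℚ, ρ σ = 1
  det : ∀ σ, (ρ σ).det = algebraMap (ZMod p) k (cyc p σ)

theorem ResH.two {S : Finset ℕ} (h : ResH p ρ S) : (2 : k) ≠ 0 := by
  intro h2
  have h3 : (2 : ZMod p) = 0 := by
    apply (algebraMap (ZMod p) k).injective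
    rw [map_ofNat, h2, map_zero]
  have : ((2 : ℕ) : ZMod p) = 0 := by exact_mod_cast h3
  rw [ZMod.natCast_eq_zero_iff, Nat.prime_dvd_prime_iff_eq hp.out Nat.prime_two] at this
  exact h.odd this

theorem adR_eq_one {σ : 𝒢} (h : ρ σ = 1) : adR ρ σ = 1 := by
  refine LinearMap.ext fun X => Subtype.ext ?_
  have h1 := rho_mul_inv (ρ := ρ) σ
  rw [h, one_mul] at h1
  rw [coe_adR, h, h1, one_mul, mul_one]
  rfl

theorem adT_eq_one {σ : 𝒢} (h : ρ σ = 1) : adT ρ σ = 1 := by
  change (ρ σ).det • adR ρ σ = 1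
  rw [adR_eq_one h, h, Matrix.det_one, one_smul]

theorem dualReps {S : Finset ℕ} (h : ResH p ρ S) {lam : k →ₗ[ZMod p] ZMod p} (hlam : lam ≠ 0) :
    DualReps p S (resS (p := p) (adR ρ)) (resS (p := p) (adT ρ)) (trP lam) where
  prime := h.prime
  mem := h.mem
  lc := by
    obtain ⟨F, hF, h1⟩ := h.lc
    refine ⟨F, hF, fun σ hσ => ⟨LinearMap.ext fun X => ?_, LinearMap.ext fun X => ?_⟩⟩
    · rw [resS_apply, adR_eq_one (h1 σ hσ)]; rfl
    · rw [resS_apply, adT_eq_one (h1 σ hσ)]; rfl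
  unr := by
    intro l hl hlS A hA σ hσ
    have h1 := h.unr l hl hlS A hA σ hσ
    refine ⟨LinearMap.ext fun X => ?_, LinearMap.ext fun X => ?_⟩
    · rw [resS_apply, adR_eq_one h1]; rfl
    · rw [resS_apply, adT_eq_one h1]; rfl
  nd := fun X hX => trP_nd hlam h.two X hX
  nd' := fun Y hY => trP_nd hlam h.two Y fun X => by
    rw [trP_apply, Matrix.trace_mul_comm]
    exact hY X
  eq := by
    intro σ X Y
    rw [resS_apply, resS_apply, trP_apply, trP_apply, coe_adR, coe_adT, h.det]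
    have h1 : ρ σ * (X : M2 k) * ρ σ⁻¹ * (algebraMap (ZMod p) k (cyc p σ) •
        (ρ σ * (Y : M2 k) * ρ σ⁻¹)) = algebraMap (ZMod p) k (cyc p σ) •
        (ρ σ * ((X : M2 k) * Y) * ρ σ⁻¹) := by
      rw [mul_smul_comm]
      congr 1
      calc ρ σ * (X : M2 k) * ρ σ⁻¹ * (ρ σ * (Y : M2 k) * ρ σ⁻¹)
          = ρ σ * (X : M2 k) * (ρ σ⁻¹ * ρ σ) * (Y : M2 k) * ρ σ⁻¹ := by simp only [mul_assoc]
        _ = _ := by rw [rho_inv_mul, mul_one]; simp only [mul_assoc]
    rw [h1, Matrix.trace_smul, trace_conj, algebraMap_smul, map_smul, smul_eq_mul]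

end gw

end Fermat.Agent.Sel
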