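import Mathlib

/-!
# Duality over Frobenius algebras
-/

set_option autoImplicit false
set_option linter.unusedSectionVars false

noncomputable section

namespace Fermat.Agent.Sel

open Matrix

variable {O : Type} [CommRing O] [IsDomain O] [IsPrincipalIdealRing O]

/-- separation of elements and submodules by functionals -/
theorem exists_sep {M : Type} [AddCommGroup M] [Module O M] [Module.Free O M] [Module.Finite O M]
    {ϖ : O} (hϖ0 : ϖ ≠ 0) (hϖ : ¬ IsUnit ϖ) (W : Submodule O M) {z : M} (hz : z ∉ W) :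
    ∃ (μ : M →ₗ[O] O) (b : O), b ≠ 0 ∧ (∀ w ∈ W, b ∣ μ w) ∧ ¬ b ∣ μ z := by
  classical
  obtain ⟨n, S⟩ := W.smithNormalForm (Module.Free.chooseBasis O M)
  by_cases h1 : ∃ j, j ∉ Set.range S.f ∧ S.bM.repr z j ≠ 0
  · obtain ⟨j, hj, hj0⟩ := h1
    refine ⟨S.bM.coord j, ϖ * S.bM.repr z j, mul_ne_zero hϖ0 hj0, fun w hw => ?_, ?_⟩
    · have h2 := S.repr_eq_zero_of_notMem_range ⟨w, hw⟩ hj
      rw [Module.Basis.coord_apply, h2]
      exact dvd_zero _
    · rw [Module.Basis.coord_apply]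
      rintro ⟨c, hc⟩
      apply hϖ
      refine IsUnit.of_mul_eq_one c ?_
      have h3 : S.bM.repr z j * (ϖ * c) = S.bM.repr z j * 1 := by
        rw [mul_one]
        linear_combination -hc
      exact mul_left_cancel₀ hj0 h3
  · push Not at h1
    by_cases h2 : ∃ i, ¬ S.a i ∣ S.bM.repr z (S.f i)
    · obtain ⟨i, hi⟩ := h2
      refine ⟨S.bM.coord (S.f i), S.a i, ?_, fun w hw => ?_, ?_⟩
      · intro h0
        have h3 := S.snf i
        rw [h0, zero_smul] at h3
        have h4 : S.bN i = 0 := Subtype.ext h3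
        exact S.bN.ne_zero i h4
      · rw [Module.Basis.coord_apply]
        have h3 := S.repr_apply_embedding_eq_repr_smul (m := ⟨w, hw⟩) (i := i)
        rw [h3, map_smul, Finsupp.smul_apply, smul_eq_mul]
        exact dvd_mul_right _ _
      · rw [Module.Basis.coord_apply]
        exact hi
    · exfalso
      push Not at h2
      apply hz
      rw [← S.bM.sum_repr z]
      refine Submodule.sum_mem _ fun j _ => ?_
      by_cases hj : j ∈ Set.range S.f
      · obtain ⟨i, rfl⟩ := hj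
        obtain ⟨c, hc⟩ := h2 i
        rw [hc, mul_comm, mul_smul, ← S.snf]
        exact W.smul_mem _ (S.bN i).2
      · rw [h1 j hj, zero_smul]
        exact W.zero_mem

variable {G : Type} [CommRing G] [Algebra O G] [Module.Free O G] [Module.Finite O G]
  {τ : G →ₗ[O] O} (hτ : ∀ lam : G →ₗ[O] O, ∃ y, ∀ x, lam x = τ (x * y))

include hτ in
theorem dvd_of_trace {b : O} {x : G} (h : ∀ y, b ∣ τ (x * y)) : ∃ z, x = b • z := by
  classical
  let B := Module.Free.chooseBasis O G
  choose c hc using fun i => (show b ∣ B.repr x i from by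
    obtain ⟨y, hy⟩ := hτ (B.coord i)
    rw [← B.coord_apply, hy]
    exact h y)
  refine ⟨∑ i, c i • B i, ?_⟩
  rw [Finset.smul_sum]
  conv_lhs => rw [← B.sum_repr x]
  refine Finset.sum_congr rfl fun i _ => ?_
  rw [smul_smul, hc]

variable {κ : Type} [Fintype κ] [DecidableEq κ]

include hτ in
theorem dvd_of_trace_pi {b : O} {x : κ → G} (h : ∀ y : κ → G, b ∣ τ (x ⬝ᵥ y)) :
    ∃ z : κ → G, x = b • z := by
  choose z hz using fun i => dvd_of_trace hτ (b := b) (x := x i) fun y => by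
    have := h (Pi.single i y)
    rwa [dotProduct_single] at this
  exact ⟨z, funext hz⟩

include hτ in
theorem exists_repr_pi (μ : (κ → G) →ₗ[O] O) : ∃ x : κ → G, ∀ y, μ y = τ (x ⬝ᵥ y) := by
  choose x hx using fun i => hτ (μ ∘ₗ LinearMap.single O (fun _ : κ => G) i)
  refine ⟨x, fun y => ?_⟩
  rw [dotProduct, map_sum]
  have h1 : y = ∑ i, Pi.single i (y i) := (Finset.univ_sum_single y).symm
  conv_lhs => rw [h1]
  rw [map_sum]
  refine Finset.sum_congr rfl fun i _ => ?_
  have := hx i (y i)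
  rw [mul_comm] at this
  exact this

include hτ in
/-- **Duality.** -/
theorem dual_span {ι : Type} [Fintype ι] {ϖ : O} (hϖ0 : ϖ ≠ 0) (hϖ : ¬ IsUnit ϖ)
    (hdvd : ∀ b : O, b ≠ 0 → ∃ m : ℕ, b ∣ ϖ ^ m)
    (N : ι → Matrix κ κ G) (Φ : Matrix κ κ G)
    (h : ∀ (m : ℕ) (x : κ → G), (∀ i, ∃ y, N i *ᵥ x = ϖ ^ m • y) → ∃ y, Φ *ᵥ x = ϖ ^ m • y) :
    ∃ C : ι → Matrix κ κ G, Φᵀ = ∑ i, (N i)ᵀ * C i := by
  classical
  have hb : ∀ b : O, b ≠ 0 → ∀ x : κ → G, (∀ i, ∃ y, N i *ᵥ x = b • y) →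
      ∃ y, Φ *ᵥ x = b • y := by
    intro b hb x hx
    obtain ⟨m, c, hc⟩ := hdvd b hb
    have hc0 : c ≠ 0 := by
      rintro rfl
      rw [mul_zero] at hc
      exact pow_ne_zero m hϖ0 hc
    obtain ⟨y, hy⟩ := h m (c • x) fun i => by
      obtain ⟨y, hy⟩ := hx i
      refine ⟨y, ?_⟩
      rw [mulVec_smul, hy, smul_smul, hc, mul_comm]
    refine ⟨y, ?_⟩
    rw [mulVec_smul, hc, mul_comm, mul_smul] at hy
    exact smul_right_injective _ hc0 hy
  let L : (ι → κ → G) →ₗ[O] (κ → G) :=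
    { toFun := fun c => ∑ i, (N i)ᵀ *ᵥ c i
      map_add' := fun c d => by
        rw [← Finset.sum_add_distrib]
        exact Finset.sum_congr rfl fun i _ => by rw [Pi.add_apply, mulVec_add]
      map_smul' := fun a c => by
        rw [RingHom.id_apply, Finset.smul_sum]
        exact Finset.sum_congr rfl fun i _ => by rw [Pi.smul_apply, mulVec_smul] }
  have key : ∀ y : κ → G, Φᵀ *ᵥ y ∈ LinearMap.range L := by
    intro y
    by_contra hy
    obtain ⟨μ, b, hb0, hW, hz⟩ := exists_sep hϖ0 hϖ _ hy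
    obtain ⟨x, hx⟩ := exists_repr_pi hτ μ
    obtain ⟨z, hz'⟩ := hb b hb0 x fun i => dvd_of_trace_pi hτ fun y' => by
      have h1 := hW (L (Pi.single i y')) ⟨_, rfl⟩
      have h2 : L (Pi.single i y') = (N i)ᵀ *ᵥ y' := by
        change ∑ j, (N j)ᵀ *ᵥ (Pi.single i y' : ι → κ → G) j = _
        rw [Finset.sum_eq_single i]
        · rw [Pi.single_eq_same]
        · intro j _ hj
          rw [Pi.single_eq_of_ne hj, mulVec_zero]
        · intro h
          exact absurd (Finset.mem_univ i) h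
      rw [h2, hx, dotProduct_mulVec, vecMul_transpose] at h1
      exact h1
    apply hz
    rw [hx, dotProduct_mulVec, vecMul_transpose, hz', smul_dotProduct, map_smul, smul_eq_mul]
    exact dvd_mul_right _ _
  choose c hc using fun j : κ => key (Pi.single j 1)
  refine ⟨fun i => Matrix.of fun l j => c j i l, ?_⟩
  ext l j
  have h1 := congrFun (hc j) l
  change (∑ i, (N i)ᵀ *ᵥ c j i) l = _ at h1
  rw [mulVec_single_one] at h1
  have h2 : Φᵀ l j = (Φᵀ).col j l := rfl
  rw [h2, ← h1, Finset.sum_apply, Matrix.sum_apply]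
  rfl

end Fermat.Agent.Sel
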