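import Fermat.Agent.Sel.LevAsm
import Fermat.Agent.MD.Glue
import Fermat.Agent.MD.RPrime
import Fermat.Agent.MD.Occ

/-!
# Preparations for the final argument
-/

set_option autoImplicit false
set_option linter.unusedSectionVars false
set_option linter.style.haveILetI false

noncomputable section

namespace Fermat.Agent.Sel

open Matrix IsLocalRing Fermat.Agent.GalRep Fermat.Agent.TW Fermat.Agent.Places Fermat.Agent.Flat
open Fermat.Agent.Cheb Fermat.Agent.KumG Fermat.Agent.MD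

local notation "Ω" => AlgebraicClosure ℚ

local notation "𝒢" => (AlgebraicClosure ℚ) ≃ₐ[ℚ] (AlgebraicClosure ℚ)

section field

variable {P : FreyPackage} [hp : Fact P.p.Prime] {ρ : 𝒢 →* M2 (ZMod P.p)} (h : Res0 P ρ)
  {k : Type} [Field k] (κ : ZMod P.p →+* k)

include κ in
theorem two_ne_k : (2 : k) ≠ 0 := by
  intro h2
  have h3 : (2 : ZMod P.p) = 0 := by
    apply κ.injective
    rw [map_ofNat, h2, map_zero]
  have : ((2 : ℕ) : ZMod P.p) = 0 := by exact_mod_cast h3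
  rw [ZMod.natCast_eq_zero_iff, Nat.prime_dvd_prime_iff_eq hp.out Nat.prime_two] at this
  exact ne2 this

include κ in
theorem three_ne_k : (3 : k) ≠ 0 := by
  intro h2
  have h3 : (3 : ZMod P.p) = 0 := by
    apply κ.injective
    rw [map_ofNat, h2, map_zero]
  have : ((3 : ℕ) : ZMod P.p) = 0 := by exact_mod_cast h3
  rw [ZMod.natCast_eq_zero_iff] at this
  have h6 := Nat.le_of_dvd (by norm_num) this
  have := P.hp5
  omega

include κ in
theorem nat_ne_k {n : ℕ} (hn : ¬ P.p ∣ n) : (n : k) ≠ 0 := by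
  intro h0
  apply hn
  rw [← ZMod.natCast_eq_zero_iff]
  apply κ.injective
  rw [map_natCast, h0, map_zero]

theorem κ_int (z : ZMod P.p) : κ z = ((z.val : ℤ) : k) := by
  conv_lhs => rw [← ZMod.natCast_zmod_val z]
  rw [map_natCast, Int.cast_natCast]

theorem extk_split (hroot : ∀ m n : ℤ, ∃ x y : k, x + y = m ∧ x * y = n) (σ : 𝒢) :
    ∃ α β : k, α + β = (extk ρ κ σ).trace ∧ α * β = (extk ρ κ σ).det := by
  obtain ⟨x, y, h1, h2⟩ := hroot ((ρ σ).trace.val : ℤ) ((ρ σ).det.val : ℤ)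
  exact ⟨x, y, by rw [h1, extk_trace, κ_int κ], by rw [h2, extk_det, κ_int κ]⟩

include h in
theorem extk_conj : extk ρ κ complexConjugation = !![1, 0; 0, -1] := by
  rw [extk_apply, h.conj]
  ext i j
  fin_cases i <;> fin_cases j <;> simp

include h in
theorem extk_unr {l : ℕ} (hl : l.Prime) (h2 : l ≠ 2) (hlp : l ≠ P.p) {A : ValuationSubring Ω}
    (hA : A.LiesOverPrime l) {σ : 𝒢} (hσ : σ ∈ A.inertiaSubgroupIn ℚ) : extk ρ κ σ = 1 := by
  rw [extk_apply', h.unr l hl h2 hlp A hA σ hσ, map_one]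

include h in
/-- the hypotheses on the residual representation -/
theorem resH_extk [Algebra (ZMod P.p) k] (hκ : algebraMap (ZMod P.p) k = κ) {S : Finset ℕ}
    (hSp : ∀ v ∈ S, v.Prime) (h2 : 2 ∈ S) (hpS : P.p ∈ S) : ResH P.p (extk ρ κ) S where
  odd := ne2
  prime := hSp
  mem := hpS
  lc := h.hlc κ
  unr := fun l hl hlS A hA σ hσ => extk_unr h κ hl (fun e => hlS (e ▸ h2)) (fun e => hlS (e ▸ hpS))
    hA hσ
  det := fun σ => by rw [extk_det, h.det, hκ]

include h in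
/-- commutators have trace different from two -/
theorem exists_com : ∃ σ τ, (extk ρ κ (σ * τ * σ⁻¹ * τ⁻¹)).trace ≠ 2 := by
  obtain ⟨σ, -, hσ⟩ := h.exists_ut 1
  obtain ⟨τ, -, hτ⟩ := h.exists_lo 1
  have hinv : ∀ (σ : 𝒢) (Y Z : M2 (ZMod P.p)), ρ σ = Y → Z * Y = 1 → ρ σ⁻¹ = Z := by
    intro σ Y Z h1 h3
    have h4 := rho_mul_inv (ρ := ρ) σ
    rw [h1] at h4
    rw [← one_mul (ρ σ⁻¹), ← h3, mul_assoc, h4, mul_one]
  have h1 : ρ σ⁻¹ = ut (-1) := hinv σ _ _ hσ (by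
    ext i j
    rw [Matrix.mul_apply, Fin.sum_univ_two]
    fin_cases i <;> fin_cases j <;> simp [ut])
  have h2 : ρ τ⁻¹ = lo (-1) := hinv τ _ _ hτ (by
    ext i j
    rw [Matrix.mul_apply, Fin.sum_univ_two]
    fin_cases i <;> fin_cases j <;> simp [lo])
  refine ⟨σ, τ, ?_⟩
  rw [extk_trace, map_mul, map_mul, map_mul, hσ, hτ, h1, h2]
  have h3 : (ut (1 : ZMod P.p) * lo 1 * ut (-1) * lo (-1)).trace = 3 := by
    simp [ut, lo, Matrix.trace_fin_two]
    norm_num
  rw [h3, map_ofNat]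
  intro h4
  have h5 : (1 : k) = 0 := by linear_combination h4
  exact one_ne_zero h5

end field

section two

variable {P : FreyPackage} [hp : Fact P.p.Prime] {ρ : 𝒢 →* M2 (ZMod P.p)} (h : Res0 P ρ)
  {k : Type} [Field k] (κ : ZMod P.p →+* k)

include h in
/-- the local invariants at `2` -/
theorem H0_two {A : ValuationSubring Ω} (hA : A.LiesOverPrime 2) :
    H0 (adT (extk ρ κ)) (A.decompositionSubgroup ℚ) = ⊥ := by
  haveI : Fact (Nat.Prime 2) := ⟨Nat.prime_two⟩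
  obtain ⟨σ, hσ, hne⟩ := h.ram A hA
  obtain ⟨Φ, hΦ⟩ := exists_isFrobeniusAt A Nat.prime_two hA
  have hnil : ∀ τ ∈ A.inertiaSubgroupIn ℚ, (extk ρ κ τ - 1) * (extk ρ κ τ - 1) = 0 := by
    intro τ hτ
    have h1 := congrArg (κ.mapMatrix : M2 (ZMod P.p) →+* M2 k) (h.unip A hA τ hτ)
    rw [map_mul, map_sub, map_one, map_zero] at h1
    exact h1
  have hdec : σ ∈ A.decompositionSubgroup ℚ := by
    obtain ⟨⟨τ, hτ⟩, -, hτ'⟩ := Subgroup.mem_map.1 hσ
    rw [← hτ']
    exact hτ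
  refine H0_bot_of_nil (two_ne_k κ) (three_ne_k κ) hdec hΦ.mem_decompositionSubgroup ?_
    (hnil σ hσ) ?_ ?_
  · intro h1
    apply hne
    ext i j
    apply κ.injective
    have h2 := congrFun (congrFun h1 i) j
    rw [extk_apply, Matrix.map_apply] at h2
    rw [h2, Matrix.one_apply, Matrix.one_apply]
    split_ifs
    · rw [map_one]
    · rw [map_zero]
  · rw [extk_det, h.det, cyc_frobenius ((Nat.coprime_primes Nat.prime_two hp.out).2 (Ne.symm ne2))
      hA hΦ, map_natCast, Nat.cast_ofNat]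
  · refine frob_tame (f := extk ρ κ) (p := P.p) hp.out ne2 (h.hlc κ) (fun τ hτ => ⟨1, ?_⟩) hA
      (isFr_of_isFrobeniusAt hΦ) hσ
    have h1 := pow_unip (hnil τ hτ) (P.p ^ 1)
    have h2 : ((P.p ^ 1 : ℕ) : k) = 0 := by
      rw [pow_one, ← map_natCast κ, CharP.cast_eq_zero, map_zero]
    rw [h2, zero_smul, sub_eq_zero] at h1
    exact h1

include h in
/-- the local invariants at the auxiliary prime -/
theorem H0_aux {r : ℕ} (hr : r.Prime) (hrp : r ≠ P.p) (hr1 : (r : k) ≠ 1)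
    {A : ValuationSubring Ω} (hA : A.LiesOverPrime r) {Φ : 𝒢} (hΦ : A.IsFrobeniusAt Φ r)
    (htr : (extk ρ κ Φ).trace ^ 2 ≠ ((r : k) + 1) ^ 2) :
    H0 (adT (extk ρ κ)) (A.decompositionSubgroup ℚ) = ⊥ := by
  have hdet : (extk ρ κ Φ).det = (r : k) := by
    rw [extk_det, h.det, cyc_frobenius ((Nat.coprime_primes hr hp.out).2 hrp) hA hΦ, map_natCast]
  refine H0_bot_of_frob hΦ.mem_decompositionSubgroup ?_ ?_ ?_
  · rw [hdet]
    exact nat_ne_k κ fun hd => hrp ((Nat.prime_dvd_prime_iff_eq hp.out hr).1 hd).symm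
  · rw [hdet]; exact hr1
  · rw [hdet]; exact htr

end two

end Fermat.Agent.Sel
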