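import Fermat.Agent.Sel.Fin1

/-!
# The levels
-/

set_option autoImplicit false
set_option linter.unusedSectionVars false
set_option linter.style.haveILetI false

noncomputable section

namespace Fermat.Agent.Sel

open Matrix IsLocalRing Fermat.Agent.GalRep Fermat.Agent.TW Fermat.Agent.Places Fermat.Agent.Flat
open Fermat.Agent.Cheb Fermat.Agent.KumG Fermat.Agent.MD

local notation "Ω" => AlgebraicClosure ℚ

local notation "𝒢" => (AlgebraicClosure ℚ) ≃ₐ[ℚ] (AlgebraicClosure ℚ)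

variable {P : FreyPackage} [hp : Fact P.p.Prime] {ρ : 𝒢 →* M2 (ZMod P.p)} (h : Res0 P ρ)
  {O : Type} [CommRing O] [IsDomain O] [IsDiscreteValuationRing O]
  [IsAdicComplete (maximalIdeal O) O] [CharZero O] [Finite (ResidueField O)]
  (hmO : maximalIdeal O = Ideal.span {(P.p : O)}) (hpO : (P.p : O) ∈ maximalIdeal O)
  (ι : AlgebraicClosure ℚ →+* ℂ) [Invertible (2 : O)] (κ : ZMod P.p →+* ResidueField O)
  (hroot : ∀ m n : ℤ, ∃ x y : ResidueField O, x + y = m ∧ x * y = n)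
  {g₀ k₀ : 𝒢} (hg₀ : extk ρ κ g₀ 0 1 = 1)
  (hgk : HG.IrrAt (fun g => (extk ρ κ g).trace) g₀ k₀)
  {W : WeierstrassCurve ℤ} (hW : W.IsIntegralModelOf P.freyCurve)
  {M r' : ℕ} [NeZero M] (hsq : Squarefree M) (hpM : ¬ P.p ∣ M) (hmod : P.ModularRepOfLevel M)
  (hmin : ∀ l, l.Prime → l ∣ M → ¬ P.ModularRepOfLevel (M / l))
  (hr' : r'.Prime) (hr'p : r' ≠ P.p) (hr'M : ¬ r' ∣ M) (hr'12 : r' % 12 = 11)
  (hr'1 : (r' : ResidueField O) ≠ 1)
  (hr't : ∀ A : ValuationSubring Ω, A.LiesOverPrime r' → ∀ Φ : 𝒢, A.IsFrobeniusAt Φ r' →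
        (extk ρ κ Φ).trace ^ 2 ≠ ((r' : ResidueField O) + 1) ^ 2)
  {S₀ : Set ℕ} (hS₀ : S₀.Finite) (hpS₀ : P.p ∈ S₀) (h2S₀ : 2 ∈ S₀)
  (hgood : ∀ l, l.Prime → l ∉ S₀ → W.IsGoodPrimeFor l)
  (hNS₀ : ∀ l, l.Prime → l ∣ M * r' → l ∈ S₀)

/-- the traces of Frobenius -/
def tlW (κ : ZMod P.p →+* ResidueField O) (W : WeierstrassCurve ℤ) (l : ℕ) : ResidueField O :=
  κ (W.apOfModel l : ℤ)

/-- a Taylor–Wiles prime, from the Selmer side -/
theorem TWp_of_TWd {n v : ℕ} (hn : 1 ≤ n) {A : ValuationSubring Ω} {Φ : 𝒢}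
    (hroot : ∀ m n : ℤ, ∃ x y : ResidueField O, x + y = m ∧ x * y = n)
    (h : Res0 P ρ) (hpO : (P.p : O) ∈ maximalIdeal O)
    (hv : TWd P.p (extk ρ κ) n v A Φ) (hv2 : v ≠ 2) (hvp : v ≠ P.p) :
    TWp P.p (fun g => (extk ρ κ g).trace) v A Φ := by
  have hpv : P.p ∣ v - 1 := (dvd_pow_self _ (by omega)).trans hv.dvd
  have hv1 : 1 ≤ v := hv.prime.one_le
  have hp0 : ((P.p : ℕ) : ResidueField O) = 0 := by
    rw [← map_natCast (residue O)]
    exact (IsLocalRing.residue_eq_zero_iff _).2 hpO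
  have hone : (v : ResidueField O) = 1 := by
    obtain ⟨c, hc⟩ := hpv
    have h1 : v = 1 + P.p * c := by omega
    rw [h1, Nat.cast_add, Nat.cast_mul, hp0, zero_mul, add_zero, Nat.cast_one]
  refine ⟨hv.prime, Ne.symm hvp, hv.lies, hv.frob, hone, fun σ hσ g => ?_, ?_⟩
  · rw [map_mul, extk_unr h κ hv.prime hv2 hvp hv.lies hσ, mul_one]
  · obtain ⟨a, b, h1, h2⟩ := extk_split κ hroot Φ
    have h3 : (extk ρ κ Φ).det = 1 := by
      rw [extk_det, h.det, cyc_frobenius ((Nat.coprime_primes hv.prime hp.out).2 hvp) hv.lies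
        hv.frob, map_natCast, hone]
    refine ⟨a, b, h1, by rw [h2, h3], ?_⟩
    rintro rfl
    apply hv.dsc
    rw [dsc, ← h1, ← h2]
    ring

include h hS₀ hpS₀ hgood hmod hpO in
/-- the Taylor–Wiles levels for the Frey curve -/
theorem exists_TWLev_frey [NeZero (M * r')] (hr'12 : r' % 12 = 11)
    (hW : W.IsIntegralModelOf P.freyCurve) (hNS₀ : ∀ l, l.Prime → l ∣ M * r' → l ∈ S₀)
    {r n : ℕ} (hn : 1 ≤ n) {v : Fin r → ℕ} {A : Fin r → ValuationSubring Ω}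
    {Φ : Fin r → GQ} (hinj : Function.Injective v) (hvS : ∀ i, v i ∉ S₀)
    (hvn : ∀ i, P.p ^ n ∣ v i - 1)
    (hv : ∀ i, TWp P.p (fun g => (extk ρ κ g).trace) (v i) (A i) (Φ i))
    {N : ℕ} [NeZero N] (hN : N = M * r' * ∏ i, v i) {S : Set ℕ} (hSS : S = S₀ ∪ Set.range v)
    (hNS : ∀ l, l.Prime → l ∣ N → l ∈ S) :
    Nonempty (TWLev hpO ι hgk hNS (thS (tlW κ W) S) v A n
      (2 ^ r * Module.finrank O (XG O (M * r')))) := by
  have h3 : 3 ≤ M * r' := by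
    have h1 : 0 < M := NeZero.pos M
    have h2 : 11 ≤ r' := by omega
    nlinarith
  exact exists_TWLev hpO ne2 ι hgk h3 hS₀ hpS₀ hNS₀ (isPseudoRep κ ρ) (isLocConst_tr h κ)
    (hfrob_S κ h hW hpS₀ hgood)
    (occ_of_modular hpO ι κ h hW (dvd_mul_right M r') hmod hS₀ hNS₀ hpS₀ hgood)
    (exists_com h κ) hn hinj hvS hvn hv hN hSS hNS

include h hS₀ hpS₀ hgood hsq hpM hmin hr' hr'p hr'M hr'12 hr't hmO in
/-- the data at the primes of `M` -/
theorem exists_QDat_frey (hW : W.IsIntegralModelOf P.freyCurve)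
    (hNS₀ : ∀ l, l.Prime → l ∣ M * r' → l ∈ S₀) (hg₀ : extk ρ κ g₀ 0 1 = 1)
    {q : ℕ} (hq : q.Prime) (hqM : q ∣ M) (hq2 : q ≠ 2)
    {r n B : ℕ} {v : Fin r → ℕ} {A : Fin r → ValuationSubring Ω}
    {Φ : Fin r → GQ} (hinj : Function.Injective v) (hvS : ∀ i, v i ∉ S₀)
    (hv : ∀ i, TWp P.p (fun g => (extk ρ κ g).trace) (v i) (A i) (Φ i))
    {N : ℕ} [NeZero N] (hN : N = M * r' * ∏ i, v i) {S : Set ℕ} (hSS : S = S₀ ∪ Set.range v)
    (hNS : ∀ l, l.Prime → l ∣ N → l ∈ S)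
    (X : TWLev hpO ι hgk hNS (thS (tlW κ W) S) v A n B) {Aq : ValuationSubring Ω}
    (hAq : Aq.LiesOverPrime q) {Φq : 𝒢} (hΦq : Aq.IsFrobeniusAt Φq q) :
    letI := X.hH; letI := X.nt; letI := X.fr
    (∃ N Ψ, QDat X.hg hgk q Aq N Ψ) ∧ ∃ a : ResidueField O, extk ρ κ Φq = a • 1 := by
  letI := X.hH
  letI := X.nt
  letI := X.fr
  haveI : Fact q.Prime := ⟨hq⟩
  have hqp : q ≠ P.p := by
    rintro rfl
    exact hpM hqM
  haveI : NeZero (M / q) := ⟨(Nat.div_pos (Nat.le_of_dvd (NeZero.pos M) hqM) hq.pos).ne'⟩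
  obtain ⟨A', hA'⟩ := exists_liesOverPrime (AlgebraicClosure ℚ) hr'
  obtain ⟨Φ', hΦ'⟩ := exists_isFrobeniusAt A' hr' hA'
  have hMS₀ : ∀ l, l.Prime → l ∣ M / q → l ∈ S₀ := fun l hl hd =>
    hNS₀ l hl ((hd.trans (Nat.div_dvd_of_dvd hqM)).trans (dvd_mul_right M r'))
  have E := e2P_TWLev hpO ne2 ι (isPseudoRep κ ρ) (isLocConst_tr h κ) hS₀ hpS₀
    (hfrob_S κ h hW hpS₀ hgood) (exists_com h κ) hgk (M := M) (r' := r') hq hqp hqM
    (fun h2 => by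
      have h3 := Nat.squarefree_iff_prime_squarefree.1 hsq q hq
      rw [← pow_two] at h3
      exact h3 h2) hMS₀ (hNS₀ q hq (hqM.trans (dvd_mul_right M r')))
    (not_occ_of_not_modular hpO ι κ h hW hS₀ hMS₀ hpS₀ hgood (hmin q hq hqM))
    hr' hr'p hr'M (hNS₀ r' hr' (dvd_mul_left r' M)) hr'12 hA' hΦ' (hr't A' hA' Φ' hΦ')
    hinj hvS hv hN hSS hNS X hAq hΦq
  have hp0 : (P.p : O) ≠ 0 := Nat.cast_ne_zero.2 hp.out.ne_zero
  refine exists_QDat X.hg hgk (Ne.symm hqp) hAq hΦq E hmO hp0 ?_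
    (fun σ hσ => extk_unr h κ hq hq2 hqp hAq hσ) (extk_conj h κ) hg₀
  refine nat_ne_k κ fun hd => ?_
  rcases (Nat.Prime.dvd_mul hp.out).1 hd with h1 | h1
  · exact ne2 ((Nat.prime_dvd_prime_iff_eq hp.out Nat.prime_two).1 h1)
  · exact hqp ((Nat.prime_dvd_prime_iff_eq hp.out hq).1 h1).symm

/-- `p` does not divide the level -/
theorem not_dvd_level {r : ℕ} {v : Fin r → ℕ} (hpM : ¬ P.p ∣ M) (hr' : r'.Prime) (hr'p : r' ≠ P.p)
    (hv : ∀ i, (v i).Prime ∧ v i ≠ P.p) : ¬ P.p ∣ M * r' * ∏ i, v i := by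
  intro hd
  rcases (Nat.Prime.dvd_mul hp.out).1 hd with h1 | h1
  · rcases (Nat.Prime.dvd_mul hp.out).1 h1 with h1 | h1
    · exact hpM h1
    · exact hr'p ((Nat.prime_dvd_prime_iff_eq hp.out hr').1 h1).symm
  · obtain ⟨i, -, hi⟩ := (hp.out.prime.dvd_finsetProd_iff _).1 h1
    exact (hv i).2 ((Nat.prime_dvd_prime_iff_eq hp.out (hv i).1).1 hi).symm

include h hS₀ hpS₀ hgood hmod hmO hpM hr'p ι in
/-- the residual representation is flat at `p` -/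
theorem flat_frey [NeZero (M * r')] (hr' : r'.Prime) (hr'12 : r' % 12 = 11)
    (hW : W.IsIntegralModelOf P.freyCurve) (hNS₀ : ∀ l, l.Prime → l ∣ M * r' → l ∈ S₀)
    (hg₀ : extk ρ κ g₀ 0 1 = 1) (hgk : HG.IrrAt (fun g => (extk ρ κ g).trace) g₀ k₀)
    (hpO : (P.p : O) ∈ maximalIdeal O)
    {A : ValuationSubring Ω} (hA : A.LiesOverPrime P.p) :
    FlC A hA (Fin 2 → ResidueField O) (fun σ v => endV (extk ρ κ) σ v) := by
  have hSS : S₀ = S₀ ∪ Set.range (Fin.elim0 : Fin 0 → ℕ) := by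
    rw [Set.range_eq_empty, Set.union_empty]
  have hN : M * r' = M * r' * ∏ i, (Fin.elim0 : Fin 0 → ℕ) i := by simp
  obtain ⟨X⟩ := exists_TWLev_frey h hpO ι κ hgk hmod hS₀ hpS₀ hgood hr'12 hW hNS₀ (n := 1)
    le_rfl (v := Fin.elim0) (A := Fin.elim0) (Φ := Fin.elim0) (fun i => i.elim0) (fun i => i.elim0)
    (fun i => i.elim0) (fun i => i.elim0) hN hSS hNS₀
  letI := X.hH
  letI := X.nt
  letI := X.fr
  have hred := redR_eq X.hg hgk (extk_conj h κ) hg₀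
  let k := ResidueField O
  letI : Invertible (2 : k) := (Invertible.map (residue O) 2).copy 2 (by rw [map_ofNat])
  have hk : ∀ x : k, (P.p : ℕ) • x = 0 := by
    intro x
    rw [nsmul_eq_mul]
    have h1 : ((P.p : ℕ) : k) = 0 := by
      rw [← map_natCast (residue O)]
      exact (IsLocalRing.residue_eq_zero_iff _).2 hpO
    rw [h1, zero_mul]
  haveI : Module.Finite O k := Module.Finite.of_surjective (Algebra.linearMap O k)
      IsLocalRing.residue_surjective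
  have hN3 : 3 ≤ M * r' := by
    have h1 : 0 < M := NeZero.pos M
    have h2 : 11 ≤ r' := by omega
    nlinarith
  have hpN : ¬ P.p ∣ M * r' := by
    have := not_dvd_level (v := (Fin.elim0 : Fin 0 → ℕ)) hpM hr' hr'p (fun i => i.elim0)
    rwa [← hN] at this
  exact flC_of_lam X.hg hgk ne2 hpN hN3 hA (finite_quot hmO) X.hg.theta
    (isQRep_endV (extk ρ κ)) (by
      change (extk ρ κ complexConjugation).det = -1
      rw [extk_conj h κ, Matrix.det_fin_two]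
      simp) (fun g => X.hg.theta_tt g) (fun v => by
      funext i
      exact hk (v i)) (AddEquiv.refl _) _ (fun σ v => rfl)

end Fermat.Agent.Sel
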