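import Fermat.Agent.Sel.FlatP
import Fermat.Agent.Flat.Coc

/-!
# Flatness of the tangent cocycles
-/

set_option autoImplicit false
set_option linter.unusedSectionVars false
set_option linter.style.haveILetI false

open scoped TensorProduct
open IsLocalRing Matrix
open Fermat.Agent.KumG Fermat.Agent.GalRep Fermat.Agent.Places Fermat.Agent.Cheb Fermat.Agent.TW
open Fermat.Agent.FFG Fermat.Agent.Flat Fermat.Agent.FlT

namespace Fermat.Agent.Sel

noncomputable section

section gen

variable {T' : Type} [CommRing T'] [Nontrivial T'] {G : Type} [Group G]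
  (M : G →* Matrix (Fin 2) (Fin 2) T')

/-- a matrix representation as a representation -/
def endV : G →* Module.End T' (Fin 2 → T') :=
  (Matrix.toLinAlgEquiv' (R := T') (n := Fin 2) : Matrix (Fin 2) (Fin 2) T' →* _).comp M

theorem endV_apply (g : G) (v : Fin 2 → T') : endV M g v = M g *ᵥ v := rfl

theorem isQRep_endV : IsQRep (endV M) (Matrix.detMonoidHom.comp M) (fun g => (M g).trace) where
  rel g := by
    refine LinearMap.ext fun v => ?_
    change M g *ᵥ v + (M g).det • (M g⁻¹ *ᵥ v) = (M g).trace • v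
    have h1 : M g⁻¹ * M g = 1 := by rw [← map_mul, inv_mul_cancel, map_one]
    have h2 : (M g).det • M g⁻¹ = (M g).adjugate := by
      have h3 : (M g).det • M g⁻¹ = M g⁻¹ * (M g * (M g).adjugate) := by
        rw [Matrix.mul_adjugate, mul_smul_comm, mul_one]
      rw [h3, ← mul_assoc, h1, one_mul]
    rw [← Matrix.smul_mulVec, h2, ← Matrix.add_mulVec]
    have h3 : M g + (M g).adjugate = (M g).trace • (1 : Matrix (Fin 2) (Fin 2) T') := by
      ext i j
      rw [Matrix.adjugate_fin_two, Matrix.trace_fin_two]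
      fin_cases i <;> fin_cases j <;> simp [add_comm]
    rw [h3, Matrix.smul_mulVec, Matrix.one_mulVec]
  inj a ha := by
    have h1 := LinearMap.congr_fun ha (Pi.single 0 1)
    have h2 := congrFun h1 0
    change a * _ = 0 at h2
    rwa [Module.End.one_apply, Pi.single_eq_same, mul_one] at h2

end gen

section dual

variable {k : Type} [Field k] (X : Matrix (Fin 2) (Fin 2) (DualNumber k)) (v : Fin 2 → DualNumber k)

theorem fst_mulVec (i : Fin 2) : ((X *ᵥ v) i).fst =
    ((Matrix.of fun a b => (X a b).fst) *ᵥ fun j => (v j).fst) i := by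
  simp [Matrix.mulVec, dotProduct, Fin.sum_univ_two]

theorem snd_mulVec (i : Fin 2) : ((X *ᵥ v) i).snd =
    ((Matrix.of fun a b => (X a b).fst) *ᵥ fun j => (v j).snd) i +
      ((Matrix.of fun a b => (X a b).snd) *ᵥ fun j => (v j).fst) i := by
  simp [Matrix.mulVec, dotProduct, Fin.sum_univ_two]
  ring

/-- vectors over the dual numbers -/
def dualE (k : Type) [Field k] : (Fin 2 → DualNumber k) ≃+ (Fin 2 → k) × (Fin 2 → k) where
  toFun v := (fun i => (v i).fst, fun i => (v i).snd)
  invFun w := fun i => (TrivSqZeroExt.inl (w.1 i) + TrivSqZeroExt.inr (w.2 i))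
  left_inv v := by
    funext i
    exact TrivSqZeroExt.inl_fst_add_inr_snd_eq _
  right_inv w := by
    apply Prod.ext <;> funext i <;> simp
  map_add' v w := by
    apply Prod.ext <;> funext i <;> simp

theorem dualE_mulVec {A B C : Matrix (Fin 2) (Fin 2) k}
    (h1 : (Matrix.of fun a b => (X a b).fst) = A) (h2 : (Matrix.of fun a b => (X a b).snd) = B)
    (h3 : C * A = B) : dualE k (X *ᵥ v) =
      (A *ᵥ (dualE k v).1, A *ᵥ (dualE k v).2 + C *ᵥ (A *ᵥ (dualE k v).1)) := by
  apply Prod.ext
  · funext i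
    change ((X *ᵥ v) i).fst = _
    rw [fst_mulVec, h1]
    rfl
  · funext i
    change ((X *ᵥ v) i).snd = _
    rw [snd_mulVec, h1, h2, ← h3, ← Matrix.mulVec_mulVec]
    rfl

end dual

section lev

variable {O : Type} [CommRing O] [IsLocalRing O] [IsNoetherianRing O]
  [IsAdicComplete (maximalIdeal O) O] {p : ℕ} [hp : Fact p.Prime]
  {hpO : (p : O) ∈ maximalIdeal O} {N : ℕ} [NeZero N] {ι : AlgebraicClosure ℚ →+* ℂ}
  {H : Subgroup (ZMod N)ˣ} [hH : Fact ((-1 : (ZMod N)ˣ) ∈ H)] {S : Set ℕ}
  {hNS : ∀ l, l.Prime → l ∣ N → l ∈ S} {e : TS O S} {t : GQ → ResidueField O}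
  {θ : TD O S N →ₐ[O] ResidueField O} [Nontrivial (YH H hNS e)] [Module.Free O (YH H hNS e)]
  (h : HG hpO S t (psiY H hNS e) θ (rhoY hpO ι H hNS e))
  [Invertible (2 : O)] {g₀ k₀ : GQ} (hgk : HG.IrrAt t g₀ k₀)
  {I : Ideal h.TT} {D : h.TT → ResidueField O}
  (hD : IsDer h.theta.toRingHom (Set.range (algebraMap O h.TT)) I D)

/-- the homomorphism to the dual numbers -/
def lamD : h.TT →ₐ[O] DualNumber (ResidueField O) where
  toFun a := TrivSqZeroExt.inl (h.theta a) + TrivSqZeroExt.inr (D a)
  map_one' := by rw [map_one, hD.one, TrivSqZeroExt.inr_zero, add_zero, TrivSqZeroExt.inl_one]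
  map_mul' a b := by
    rw [map_mul, hD.mul]
    ext
    · simp
    · simp
      ring
  map_zero' := by rw [map_zero, hD.zero, TrivSqZeroExt.inr_zero, add_zero, TrivSqZeroExt.inl_zero]
  map_add' a b := by
    rw [map_add, hD.add]
    ext
    · simp
    · simp
  commutes' c := by
    rw [AlgHom.commutes, hD.zeroO _ ⟨c, rfl⟩, TrivSqZeroExt.inr_zero, add_zero]
    rfl

theorem lamD_fst (a : h.TT) : (lamD h hD a).fst = h.theta a := by
  change (TrivSqZeroExt.inl (h.theta a) + TrivSqZeroExt.inr (D a)).fst = _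
  simp

theorem lamD_snd (a : h.TT) : (lamD h hD a).snd = D a := by
  change (TrivSqZeroExt.inl (h.theta a) + TrivSqZeroExt.inr (D a)).snd = _
  simp

include h hgk hD in
/-- **The tangent cocycles are flat at `p`.** -/
theorem flC_cD [Finite (ResidueField O)] (hp2 : p ≠ 2) (hpN : ¬ p ∣ N) (hN3 : 3 ≤ N)
    {A : ValuationSubring (AlgebraicClosure ℚ)} (hA : A.LiesOverPrime p)
    (hfin : ∀ m : ℕ, Finite (O ⧸ Ideal.span {((p ^ m : ℕ) : O)})) :
    FlC A hA ((Fin 2 → ResidueField O) × (Fin 2 → ResidueField O))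
      (actE (endV (redR (h.R hgk) h.theta.toRingHom))
        fun σ => Matrix.toLinAlgEquiv' (cD (h.R hgk) h.theta.toRingHom D σ)) := by
  let k := ResidueField O
  letI : Invertible (2 : DualNumber k) :=
    (Invertible.map (algebraMap O (DualNumber k)) 2).copy 2 (by rw [map_ofNat])
  haveI : Finite (DualNumber k) := inferInstanceAs (Finite (k × k))
  let M : GQ →* Matrix (Fin 2) (Fin 2) (DualNumber k) :=
    ((lamD h hD).toRingHom.mapMatrix : Matrix (Fin 2) (Fin 2) h.TT →+*
      Matrix (Fin 2) (Fin 2) (DualNumber k)).toMonoidHom.comp (h.R hgk)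
  have hM : ∀ σ, M σ = (h.R hgk σ).map (lamD h hD) := fun σ => rfl
  have hk : ∀ x : k, (p : ℕ) • x = 0 := by
    intro x
    rw [nsmul_eq_mul]
    have h1 : ((p : ℕ) : k) = 0 := by
      rw [← map_natCast (residue O)]
      exact (IsLocalRing.residue_eq_zero_iff _).2 hpO
    rw [h1, zero_mul]
  haveI : Module.Finite O (DualNumber k) := by
    haveI : Module.Finite O k := Module.Finite.of_surjective (Algebra.linearMap O k)
      IsLocalRing.residue_surjective
    exact inferInstanceAs (Module.Finite O (k × k))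
  refine flC_of_lam h hgk hp2 hpN hN3 hA hfin (lamD h hD) (isQRep_endV M) ?_ (fun g => ?_)
    (fun v => ?_) (dualE k) _ fun σ v => ?_
  · change (M complexConjugation).det = -1
    rw [hM, h.R_conj]
    rw [Matrix.det_fin_two]
    simp
  · change _ = (M g).trace
    rw [hM, ← h.R_trace hgk, Matrix.trace_fin_two, Matrix.trace_fin_two, map_add]
    rfl
  · funext i
    apply TrivSqZeroExt.ext
    · change ((p : ℕ) • v i).fst = 0
      rw [TrivSqZeroExt.fst_smul, hk]
    · change ((p : ℕ) • v i).snd = 0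
      rw [TrivSqZeroExt.snd_smul, hk]
  · have e1 : (Matrix.of fun a b => (M σ a b).fst) = redR (h.R hgk) h.theta.toRingHom σ := by
      ext a b
      exact lamD_fst h hD _
    have e2 : (Matrix.of fun a b => (M σ a b).snd) = (h.R hgk σ).map D := by
      ext a b
      exact lamD_snd h hD _
    have e3 : cD (h.R hgk) h.theta.toRingHom D σ * redR (h.R hgk) h.theta.toRingHom σ =
        (h.R hgk σ).map D := by
      rw [cD, mul_assoc, redR_inv_mul, mul_one]
    exact dualE_mulVec (M σ) v e1 e2 e3

end lev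

end

end Fermat.Agent.Sel
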