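import Fermat.Agent.Sel.LevRep
import Fermat.Agent.FlT.Main
import Fermat.Agent.FFG.FlatC

/-!
# Flatness at `p` of quotients of the representation over the trace ring, level `Γ_H(N)`
-/

set_option autoImplicit false
set_option linter.unusedSectionVars false
set_option linter.style.haveILetI false

open scoped TensorProduct
open IsLocalRing
open Fermat.Agent.KumG Fermat.Agent.GalRep Fermat.Agent.Places Fermat.Agent.Cheb Fermat.Agent.TW
open Fermat.Agent.FFG Fermat.Agent.Flat Fermat.Agent.FlT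

namespace Fermat.Agent.Sel

noncomputable section

section gal

variable {O : Type} [CommRing O] [IsLocalRing O] [IsNoetherianRing O]
  [IsAdicComplete (maximalIdeal O) O] {p : ℕ} [hp : Fact p.Prime]
  (hpO : (p : O) ∈ maximalIdeal O)
  {Γ : Subgroup (Matrix.SpecialLinearGroup (Fin 2) ℤ)} [LvlG Γ] [RatG Γ] [Module.Finite ℤ (LZ Γ)]
  (ι : AlgebraicClosure ℚ →+* ℂ)
  {P : Type} [AddCommGroup P] [Module O P] [Module.Finite O P] (τ : O ⊗[ℤ] LZ Γ →ₗ[O] P)
  (hτ : Function.Surjective τ) (ρP : GQ → P →ₗ[O] P)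

include hτ in
/-- **subquotients of powers of the lattice are flat**; only inertia matters -/
theorem exists_flat_I {A : ValuationSubring (AlgebraicClosure ℚ)} (hA : A.LiesOverPrime p)
    (hρP : ∀ g ∈ A.inertiaSubgroupIn ℚ, ∀ x, τ (rhoO ι hpO g x) = ρP g (τ x))
    (hX : ∀ m : ℕ, ∀ [NeZero m], ∃ 𝓗 : Subalgebra (R0 A) (XL Γ m → AlgebraicClosure ℚ),
      IsHopfFn (fun γ : AlgebraicClosure ℚ ≃ₐ[R0 A] AlgebraicClosure ℚ => rhoF ι m (rq γ)) 𝓗)
    (hfinX : ∀ m : ℕ, ∀ [NeZero m], Finite (XL Γ m))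
    (hfin : ∀ m : ℕ, Finite (O ⧸ Ideal.span {((p ^ m : ℕ) : O)}))
    {J B : Type} [Fintype J] [AddCommGroup B] [Module O B]
    (Φ : B →ₗ[O] (J → P)) (hΦ : Function.Injective Φ) (ac : GQ → B → B)
    (hac : ∀ g x j, Φ (ac g x) j = ρP g (Φ x j))
    {V' : Type} [AddCommGroup V'] (q : B →+ V') (hq : Function.Surjective q)
    {n : ℕ} (hqn : ∀ x, q (((p ^ n : ℕ) : O) • x) = 0) (act' : GQ → V' → V')
    (hact' : ∀ g x, q (ac g x) = act' g (q x)) :
    ∃ 𝓗 : Subalgebra (R0 A) (V' → AlgebraicClosure ℚ), IsHopfFn (actI (A := A) act') 𝓗 := by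
  haveI := isPrincipalIdealRing_R0 hA
  obtain ⟨c, hc⟩ := exists_div_bound Φ hΦ (p : O)
  haveI : NeZero (p ^ (n + c)) := ⟨pow_ne_zero _ hp.out.ne_zero⟩
  obtain ⟨𝓧, h𝓧⟩ := hX (p ^ (n + c))
  haveI := hfinX (p ^ (n + c))
  haveI := hfin (n + c)
  obtain ⟨b, o, ho⟩ := FlT.exists_gens (((p ^ (n + c) : ℕ) : O))
  have hpi := IsHopfFn.pi (J := J × Fin b) (fun _ => h𝓧)
  refine exists_of_corr hpi (corrC o τ (mkX : LZ Γ →+ XL Γ (p ^ (n + c))) (p ^ (n + c)) Φ q)
    ?_ ?_ ?_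
  · intro v hv
    refine corrC_zero (fun f hf => ?_) (fun x y hxy => ?_) hv
    · obtain ⟨g, hg⟩ := exists_of_mkX (φ := f) (ψ := 0) (m := p ^ (n + c)) (by
        rw [hf, map_zero])
      exact ⟨g, by rw [hg, zero_add]⟩
    · obtain ⟨z, hz⟩ := hc n x y (by rw [hxy, Nat.cast_pow])
      rw [hz, ← Nat.cast_pow, hqn]
  · exact fun v => corrC_surj hτ ho v hq
  · intro γ w v hwv
    exact corrC_act mkX_surjective (fun f f' hff' => apx_rhoO (O := O) ι hpO (rq γ) (n + c) f f'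
      hff'.symm) (hρP (rq γ) (rq_mem γ)) (hac (rq γ)) (hact' (rq γ)) hwv

end gal

section lev

variable {O : Type} [CommRing O] [IsLocalRing O] [IsNoetherianRing O]
  [IsAdicComplete (maximalIdeal O) O] {p : ℕ} [hp : Fact p.Prime]
  {hpO : (p : O) ∈ maximalIdeal O} {N : ℕ} [NeZero N] {ι : AlgebraicClosure ℚ →+* ℂ}
  {H : Subgroup (ZMod N)ˣ} [hH : Fact ((-1 : (ZMod N)ˣ) ∈ H)] {S : Set ℕ}
  {hNS : ∀ l, l.Prime → l ∣ N → l ∈ S} {e : TS O S} {t : GQ → ResidueField O}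
  {θ : TD O S N →ₐ[O] ResidueField O} [Nontrivial (YH H hNS e)] [Module.Free O (YH H hNS e)]
  (h : HG hpO S t (psiY H hNS e) θ (rhoY hpO ι H hNS e))
  [Invertible (2 : O)] {g₀ k₀ : GQ} (hgk : HG.IrrAt t g₀ k₀)

include h hgk in
/-- **Flatness at `p`** of the modules killed by `p` on which Galois acts through the trace ring. -/
theorem flC_of_lam (hp2 : p ≠ 2) (hpN : ¬ p ∣ N) (hN3 : 3 ≤ N)
    {A : ValuationSubring (AlgebraicClosure ℚ)} (hA : A.LiesOverPrime p)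
    (hfin : ∀ m : ℕ, Finite (O ⧸ Ideal.span {((p ^ m : ℕ) : O)}))
    {T' : Type} [CommRing T'] [Algebra O T'] [Module.Finite O T'] [Invertible (2 : T')]
    (lam : h.TT →ₐ[O] T') {V : Type} [AddCommGroup V] [Module T' V] [Module.Finite T' V]
    {ρV : GQ →* Module.End T' V} {D : GQ →* T'} {t' : GQ → T'} (hV : IsQRep ρV D t')
    (hDc : D complexConjugation = -1) (htt : ∀ g, lam (h.tt g) = t' g) [Finite V]
    (hpV : ∀ v : V, p • v = 0) {U : Type} [AddCommGroup U] [Finite U] (E : V ≃+ U)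
    (act : GQ → U → U) (hact : ∀ σ v, E (ρV σ v) = act σ (E v)) :
    FlC A hA U act := by
  obtain ⟨J, B, iJ, iB1, iB2, Φ, Ψ, ac, hΨn, hΦ, hΨ, hΦac, hΨac⟩ := exists_rel h hgk lam hV hDc
    htt
  have hcomm : ∀ g ∈ A.inertiaSubgroupIn ℚ, ∀ (x : XH O N H),
      toPart (phiD O H hNS) (incD O S N e) (rhoO ι hpO g x) =
        rhoY hpO ι H hNS e g (toPart (phiD O H hNS) (incD O S N e) x) := by
    intro g hg x
    apply Subtype.ext
    have h1 := rhoN_phiD (O := O) (H := H) hpO hNS ι g (incD O S N e) x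
    have h3 : cycU N g = 1 := cycU_inertia ((Nat.Prime.coprime_iff_not_dvd hp.out).2 hpN) hA hg
    have h2 : rhoT (O := O) hpO ι N H g = rhoN hpO ι N H g := by
      rw [rhoT_apply, twd_apply, h3, QuotientGroup.mk_one, one_pow, map_one, one_mul]
    refine h1.symm.trans ?_
    change _ = rhoT (O := O) hpO ι N H g _
    rw [h2]
    rfl
  obtain ⟨𝓗, h𝓗⟩ := exists_flat_I (O := O) hpO ι
    (toPart (phiD O H hNS) (incD O S N e)) (LinearMap.surjective_rangeRestrict _)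
    (fun g => rhoY hpO ι H hNS e g) hA hcomm
    (fun m _ => exists_isHopfFn_XL (m := m) hA hpN hN3 hH.out ι)
    (fun m _ => inferInstance) hfin Φ hΦ ac hΦac
    ((E : V →+ U).comp Ψ) (E.surjective.comp hΨ) (n := 1)
    (fun x => by
      change E (Ψ _) = 0
      rw [hΨn, pow_one, hpV, map_zero])
    act (fun g x => by
      change E (Ψ _) = act g (E (Ψ x))
      rw [hΨac, hact])
  refine flC_of_isHopfFn hA hp2 h𝓗 fun u => ?_
  obtain ⟨v, rfl⟩ := E.surjective u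
  rw [← map_nsmul, hpV, map_zero]

end lev

end

end Fermat.Agent.Sel
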