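import Fermat.Agent.Sel.Full
import Fermat.Agent.CL.AbsIrr
import Fermat.Agent.CL.Inert
import Fermat.Agent.EC.FreyRam
import Fermat.Agent.EC.Frey

/-!
# The matrix representation on the `p`-torsion of the Frey curve
-/

set_option autoImplicit false
set_option linter.unusedSectionVars false
set_option linter.style.haveILetI false

noncomputable section

namespace Fermat.Agent.Sel

open Matrix Module Fermat.Agent.GalRep Fermat.Agent.PRem Fermat.Agent.EC
open WeierstrassCurve WeierstrassCurve.Affine WeierstrassCurve.Affine.Point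

local notation "Ω" => AlgebraicClosure ℚ

local notation "𝒢" => (AlgebraicClosure ℚ) ≃ₐ[ℚ] (AlgebraicClosure ℚ)

/-- the elements fixing all `p`-power roots of unity -/
def fixP (p : ℕ) : Subgroup 𝒢 where
  carrier := {σ | ∀ n : ℕ, ∀ ζ : Ω, ζ ^ (p ^ n) = 1 → σ ζ = ζ}
  one_mem' := fun _ _ _ => rfl
  mul_mem' := fun {σ τ} hσ hτ n ζ hζ => by
    rw [AlgEquiv.mul_apply, hτ n ζ hζ, hσ n ζ hζ]
  inv_mem' := fun {σ} hσ n ζ hζ => by
    conv_lhs => rw [← hσ n ζ hζ]
    exact AlgEquiv.symm_apply_apply σ ζ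

theorem mem_fixP {p : ℕ} {σ : 𝒢} : σ ∈ fixP p ↔ ∀ n : ℕ, ∀ ζ : Ω, ζ ^ (p ^ n) = 1 → σ ζ = ζ :=
  Iff.rfl

instance fixP_normal (p : ℕ) : (fixP p).Normal where
  conj_mem := fun σ hσ τ n ζ hζ => by
    have h1 : (τ⁻¹ ζ) ^ (p ^ n) = 1 := by rw [← map_pow, hζ, map_one]
    rw [AlgEquiv.mul_apply, AlgEquiv.mul_apply, hσ n _ h1]
    exact AlgEquiv.apply_symm_apply τ ζ

/-- the properties of the matrix representation of a Frey curve -/
structure Res0 (P : FreyPackage) [Fact P.p.Prime] (ρ : 𝒢 →* M2 (ZMod P.p)) : Prop where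
  conj : ρ complexConjugation = !![1, 0; 0, -1]
  g0 : ∃ g₀, ρ g₀ 0 1 = 1
  k0 : ∃ k₀, ρ k₀ 1 0 ≠ 0
  det : ∀ σ, (ρ σ).det = cyc P.p σ
  lc : ∃ F : IntermediateField ℚ Ω, FiniteDimensional ℚ F ∧ ∀ σ : 𝒢, (∀ x ∈ F, σ x = x) → ρ σ = 1
  full : ∀ X : M2 (ZMod P.p), X.det = 1 → ∃ σ ∈ fixP P.p, ρ σ = X
  unr : ∀ l : ℕ, l.Prime → l ≠ 2 → l ≠ P.p → ∀ A : ValuationSubring Ω, A.LiesOverPrime l →
    ∀ σ ∈ A.inertiaSubgroupIn ℚ, ρ σ = 1
  unip : ∀ A : ValuationSubring Ω, A.LiesOverPrime 2 → ∀ σ ∈ A.inertiaSubgroupIn ℚ,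
    (ρ σ - 1) * (ρ σ - 1) = 0
  ram : ∀ A : ValuationSubring Ω, A.LiesOverPrime 2 → ∃ σ ∈ A.inertiaSubgroupIn ℚ, ρ σ ≠ 1
  trace : ∀ W : WeierstrassCurve ℤ, W.IsIntegralModelOf P.freyCurve → ∀ l : ℕ, l.Prime →
    W.IsGoodPrimeFor l → l ≠ P.p → ∀ A : ValuationSubring Ω, A.LiesOverPrime l →
    ∀ τ : 𝒢, A.IsFrobeniusAt τ l → (ρ τ).trace = ((W.apOfModel l : ℤ) : ZMod P.p)

/-- inertia at `2` acts unipotently on the torsion of the Frey curve -/
theorem frey_unip_two (P : FreyPackage) [DecidableEq Ω] {A : ValuationSubring Ω}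
    (hA : A.LiesOverPrime 2) {σ : 𝒢} (hσ : σ ∈ A.inertiaSubgroupIn ℚ)
    {Q : (P.freyCurve⁄Ω).Point} (hQ : P.p • Q = 0) : σ • (σ • Q - Q) - (σ • Q - Q) = 0 := by
  set v := A.valuation with hvdef
  have hv : v ((2 : ℕ) : Ω) < 1 := val_two_lt hA
  have hp2 : P.p ≠ 2 := by have := P.hp5; omega
  have hI := frey_isInt (K := Ω) P v
  obtain ⟨tp, tm, M⟩ := frey_MultT0 P v Nat.prime_two hv
    (dvd_mul_of_dvd_right (frey_two_dvd_b P) _) (frey_two_hm P v hv)
  have hvp : v (P.p : Ω) = 1 := by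
    have : ¬ ((2 : ℕ) : ℤ) ∣ ((P.p : ℕ) : ℤ) := by
      intro h
      rw [Int.natCast_dvd_natCast, Nat.prime_dvd_prime_iff_eq Nat.prime_two P.pp] at h
      exact hp2 h.symm
    exact_mod_cast val_int_eq_one_of_not_dvd v Nat.prime_two hv this
  have hτ := isInert_of_mem A hσ
  have h1 := hτ.sub_mem_E0 M P.pp hp2 hQ
  have h2 := hτ.sub_mem_E1 M.toIntT M.hm h1
  exact EC.eq_zero_of_mem_E1 M.toIntT hI P.hp_odd hvp (nsmul_smul_sub (nsmul_smul_sub hQ σ) σ) h2

theorem exists_res0 (P : FreyPackage) [Fact P.p.Prime]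
    (hirr : GaloisRepIsIrreducible (K := AlgebraicClosure ℚ) ℚ P.freyCurve P.p) :
    ∃ ρ : 𝒢 →* M2 (ZMod P.p), Res0 P ρ := by
  classical
  have hp := P.pp
  have hp2 : P.p ≠ 2 := by have := P.hp5; omega
  haveI : P.freyCurve.IsElliptic := ⟨isUnit_iff_ne_zero.2 (frey_Δ_ne P)⟩
  have hE : finrank (ZMod P.p) (TE P.freyCurve P.p) = 2 := finrank_TE hp2
  have hirr' := irr_repE (E := P.freyCurve) (p := P.p) hirr
  obtain ⟨W₀, hW₀⟩ : ∃ W : WeierstrassCurve ℤ, W.IsIntegralModelOf P.freyCurve := by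
    exact ⟨P.freyCurveInt, 1, by rw [one_smul]; exact freyCurve_eq_map P⟩
  have hf := frobRel_E (E := P.freyCurve) hp2 hW₀ 1
  have hSf : (badS W₀ 1 P.p).Finite := finite_badS (E := P.freyCurve) hW₀ one_ne_zero
  have hpb : P.p ∈ badS W₀ 1 P.p := Or.inl (by rw [one_mul])
  haveI : FiniteDimensional (ZMod P.p) (TE P.freyCurve P.p) :=
    FiniteDimensional.of_finrank_pos (by rw [hE]; norm_num)
  have h2p : (2 : ZMod P.p) ≠ 0 := by
    intro h2
    have : ((2 : ℕ) : ZMod P.p) = 0 := by exact_mod_cast h2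
    rw [ZMod.natCast_eq_zero_iff, Nat.prime_dvd_prime_iff_eq hp Nat.prime_two] at this
    exact hp2 this
  have hdet : LinearMap.det (repE P.freyCurve P.p complexConjugation) = -1 := by
    rw [hf.det_eq_cyc hE hirr' hSf hpb, cyc_complexConjugation]
  obtain ⟨b₀, hb₀⟩ := exists_basis (repE P.freyCurve P.p) hE h2p complexConjugation_mul_self hdet
  obtain ⟨g₀, hg₀⟩ := exists_offdiag hE hirr' b₀ (i := 0) (j := 1) (by decide)
  obtain ⟨k₀, hk₀⟩ := exists_offdiag hE hirr' b₀ (i := 1) (j := 0) (by decide)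
  obtain ⟨lam, hlam⟩ : ∃ lam : (ZMod P.p)ˣ,
      (lam : ZMod P.p) * LinearMap.toMatrixAlgEquiv b₀ (repE P.freyCurve P.p g₀) 0 1 = 1 :=
    ⟨(Units.mk0 _ hg₀)⁻¹, by rw [Units.val_inv_eq_inv_val, Units.val_mk0, inv_mul_cancel₀ hg₀]⟩
  let b := b₀.unitsSMul ![1, lam]
  have hent : ∀ (f : Module.End (ZMod P.p) (TE P.freyCurve P.p)) (i j : Fin 2),
      LinearMap.toMatrixAlgEquiv b f i j = (((![1, lam] i)⁻¹ * ![1, lam] j : (ZMod P.p)ˣ) : ZMod P.p) *
        LinearMap.toMatrixAlgEquiv b₀ f i j := by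
    intro f i j
    rw [LinearMap.toMatrixAlgEquiv_apply, LinearMap.toMatrixAlgEquiv_apply, Basis.repr_unitsSMul,
      Basis.unitsSMul_apply, Units.smul_def, Units.smul_def, map_smul, map_smul,
      Finsupp.smul_apply, smul_eq_mul, smul_eq_mul, Units.val_mul]
    ring
  let ρ := CL.matOf (repE P.freyCurve P.p) b
  have hρ : ∀ σ, ρ σ = LinearMap.toMatrixAlgEquiv b (repE P.freyCurve P.p σ) := fun σ => rfl
  have hdetρ : ∀ σ, (ρ σ).det = cyc P.p σ := fun σ => by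
    rw [← hf.det_eq_cyc hE hirr' hSf hpb]
    exact CL.matOf_det _ _ _
  have hlc : ∃ F : IntermediateField ℚ Ω, FiniteDimensional ℚ F ∧
      ∀ σ : 𝒢, (∀ x ∈ F, σ x = x) → ρ σ = 1 := by
    obtain ⟨L, hL, hL'⟩ := hf.level
    exact ⟨L, hL, fun σ hσ => by rw [hρ, hL' σ hσ, map_one]⟩
  have hunip : ∀ A : ValuationSubring Ω, A.LiesOverPrime 2 → ∀ σ ∈ A.inertiaSubgroupIn ℚ,
      (ρ σ - 1) * (ρ σ - 1) = 0 := by
    intro A hA σ hσ
    have h1 : (repE P.freyCurve P.p σ - 1) * (repE P.freyCurve P.p σ - 1) = 0 := by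
      refine LinearMap.ext fun x => Subtype.ext ?_
      have hx : P.p • (x : (P.freyCurve⁄Ω).Point) = 0 := by
        have := (Submodule.mem_torsionBy_iff (P.p : ℤ) (x : (P.freyCurve⁄Ω).Point)).mp x.2
        rwa [natCast_zsmul] at this
      exact frey_unip_two P hA hσ hx
    rw [hρ, ← map_one (LinearMap.toMatrixAlgEquiv b), ← map_sub, ← map_mul, h1, _root_.map_zero]
  have hram : ∀ A : ValuationSubring Ω, A.LiesOverPrime 2 →
      ∃ σ ∈ A.inertiaSubgroupIn ℚ, ρ σ ≠ 1 := by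
    intro A hA
    obtain ⟨σ, hσ, Q, hQ, hne⟩ := frey_ramified_two P hA
    refine ⟨σ, hσ, fun h => hne ?_⟩
    have h1 : repE P.freyCurve P.p σ = 1 := by
      apply (LinearMap.toMatrixAlgEquiv b).injective
      rw [map_one]
      exact h
    have hQ' : Q ∈ Submodule.torsionBy ℤ (P.freyCurve⁄Ω).Point P.p := by
      rw [Submodule.mem_torsionBy_iff, natCast_zsmul]
      exact hQ
    have h2 := congrArg Subtype.val (LinearMap.congr_fun h1 ⟨Q, hQ'⟩)
    exact h2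
  refine ⟨ρ, ?_, ⟨g₀, ?_⟩, ⟨k₀, ?_⟩, hdetρ, hlc, ?_, ?_, hunip, hram, ?_⟩
  · ext i j
    rw [hρ, hent, hb₀]
    have hz : ∀ x : ZMod P.p, x * 0 = 0 := mul_zero
    fin_cases i <;> fin_cases j
    · change (((![1, lam] 0)⁻¹ * ![1, lam] 0 : (ZMod P.p)ˣ) : ZMod P.p) * 1 = 1
      rw [inv_mul_cancel, Units.val_one, mul_one]
    · exact mul_zero _
    · exact mul_zero _
    · change (((![1, lam] 1)⁻¹ * ![1, lam] 1 : (ZMod P.p)ˣ) : ZMod P.p) * (-1) = -1
      rw [inv_mul_cancel, Units.val_one, one_mul]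
  · rw [hρ, hent]
    simpa using hlam
  · rw [hρ, hent]
    exact mul_ne_zero (Units.ne_zero _) hk₀
  · intro X hX
    obtain ⟨A, hA⟩ := Places.exists_liesOverPrime Ω Nat.prime_two
    obtain ⟨σ₀, hσ₀, hne⟩ := hram A hA
    refine sl2_of_irr ρ ?_ (fixP P.p) ?_ (hunip A hA σ₀ hσ₀) hne hX
    · intro v hv
      by_contra hcon
      push Not at hcon
      choose t ht using hcon
      obtain ⟨x, hx⟩ : ∃ x, x = b.repr.symm (Finsupp.equivFunOnFinite.symm v) := ⟨_, rfl⟩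
      have hxv : ⇑(b.repr x) = v := by rw [hx, LinearEquiv.apply_symm_apply]; rfl
      have hx0 : x ≠ 0 := by
        rintro rfl
        apply hv
        rw [← hxv, _root_.map_zero]
        rfl
      have hst : ∀ σ, repE P.freyCurve P.p σ x = t σ • x := by
        intro σ
        apply b.repr.injective
        apply DFunLike.coe_injective
        have h1 := LinearMap.toMatrix_mulVec_repr b b (repE P.freyCurve P.p σ) x
        rw [← h1, hxv, map_smul, Finsupp.coe_smul, hxv]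
        exact ht σ
      rcases hirr' (Submodule.span (ZMod P.p) {x}) (fun g y hy => by
        obtain ⟨a, rfl⟩ := Submodule.mem_span_singleton.1 hy
        rw [map_smul, hst]
        exact Submodule.smul_mem _ _ (Submodule.smul_mem _ _ (Submodule.mem_span_singleton_self _)))
        with h | h
      · rw [Submodule.span_singleton_eq_bot] at h
        exact hx0 h
      · have h1 := finrank_span_singleton (K := ZMod P.p) hx0
        rw [h, finrank_top, hE] at h1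
        omega
    · intro n ζ hζ
      haveI : NeZero (P.p ^ n) := ⟨(pow_pos hp.pos n).ne'⟩
      rw [apply_eq_pow_cyc (P.p ^ n) σ₀ hζ, cyc_inertia (ℓ := 2) ?_ hA hσ₀]
      · rcases Nat.eq_zero_or_pos n with rfl | hn
        · rw [pow_zero, pow_one] at hζ
          rw [hζ, one_pow]
        · haveI : Fact (1 < P.p ^ n) := ⟨Nat.one_lt_pow (by omega) hp.one_lt⟩
          rw [ZMod.val_one, pow_one]
      · exact Nat.Coprime.pow_right n ((Nat.coprime_primes Nat.prime_two hp).2 (Ne.symm hp2))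
  · intro l hl hl2 hlp A hA σ hσ
    have h1 : repE P.freyCurve P.p σ = 1 := by
      refine LinearMap.ext fun x => Subtype.ext ?_
      have hx : P.p • (x : (P.freyCurve⁄Ω).Point) = 0 := by
        have := (Submodule.mem_torsionBy_iff (P.p : ℤ) (x : (P.freyCurve⁄Ω).Point)).mp x.2
        rwa [natCast_zsmul] at this
      exact EC.frey_unramified P A.valuation hl hl2 hlp hA (isInert_of_mem A hσ) hx
    rw [hρ, h1, map_one]
  · intro W hW l hl hgood hlp A hA τ hτ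
    have hf' := frobRel_E (E := P.freyCurve) hp2 hW 1
    have h1 := hf'.trace_frob hE hirr' (finite_badS (E := P.freyCurve) hW one_ne_zero)
      (Or.inl (by rw [one_mul])) hl (by
        simp only [badS, Set.mem_ofPred_eq, not_or, not_not]
        refine ⟨?_, hgood⟩
        rw [one_mul, Nat.prime_dvd_prime_iff_eq hl hp]
        exact hlp) hA hτ
    exact (CL.matOf_trace _ _ _).trans h1.1

end Fermat.Agent.Sel
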