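import Fermat.Agent.Sel.SL2

/-!
# Consequences of full image
-/

set_option autoImplicit false
set_option linter.unusedSectionVars false

noncomputable section

namespace Fermat.Agent.Sel

open Matrix

local notation "Ω" => AlgebraicClosure ℚ

local notation "𝒢" => (AlgebraicClosure ℚ) ≃ₐ[ℚ] (AlgebraicClosure ℚ)

variable {k : Type} [Field k]

theorem conj_ut (X : M2 k) (hX : X.trace = 0) :
    ut 1 * X * ut (-1) - X = !![X 1 0, -2 * X 0 0 - X 1 0; 0, -X 1 0] := by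
  rw [Matrix.trace_fin_two] at hX
  have h11 : X 1 1 = -X 0 0 := by linear_combination hX
  ext i j
  rw [Matrix.sub_apply, Matrix.mul_apply, Fin.sum_univ_two, Matrix.mul_apply, Fin.sum_univ_two,
    Matrix.mul_apply, Fin.sum_univ_two]
  fin_cases i <;> fin_cases j <;> simp [ut, h11]
  ring

/-- `ad⁰` is irreducible if the image contains the standard transvections -/
theorem adj_irr (h2 : (2 : k) ≠ 0) (W : Submodule k (M2 k))
    (hu : ∀ X ∈ W, ut 1 * X * ut (-1) ∈ W) (hl : ∀ X ∈ W, lo 1 * X * lo (-1) ∈ W)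
    (hl' : ∀ X ∈ W, lo (-1) * X * lo 1 ∈ W)
    (htr : ∀ X ∈ W, X.trace = 0) (hne : W ≠ ⊥) (X : M2 k) (hX : X.trace = 0) : X ∈ W := by
  obtain ⟨Y, hY, hY0⟩ := (Submodule.ne_bot_iff W).1 hne
  have hA : ∀ Z ∈ W, (!![Z 1 0, -2 * Z 0 0 - Z 1 0; 0, -Z 1 0] : M2 k) ∈ W := fun Z hZ => by
    rw [← conj_ut Z (htr Z hZ)]
    exact W.sub_mem (hu Z hZ) hZ
  have hE : (!![0, 1; 0, 0] : M2 k) ∈ W := by
    by_cases hc : Y 1 0 = 0
    · by_cases ha : Y 0 0 = 0
      · have h11 : Y 1 1 = 0 := by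
          have := htr Y hY
          rw [Matrix.trace_fin_two, ha, zero_add] at this
          exact this
        have hb : Y 0 1 ≠ 0 := by
          intro hb
          apply hY0
          ext i j
          fin_cases i <;> fin_cases j
          · exact ha
          · exact hb
          · exact hc
          · exact h11
        have h1 := W.smul_mem (Y 0 1)⁻¹ hY
        have h3 : (Y 0 1)⁻¹ • Y = !![0, 1; 0, 0] := by
          ext i j
          fin_cases i <;> fin_cases j <;> simp [ha, hc, h11, hb]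
        rwa [h3] at h1
      · have h1 := W.smul_mem (-2 * Y 0 0)⁻¹ (hA Y hY)
        have h3 : (-2 * Y 0 0)⁻¹ • (!![Y 1 0, -2 * Y 0 0 - Y 1 0; 0, -Y 1 0] : M2 k) =
            !![0, 1; 0, 0] := by
          ext i j
          fin_cases i <;> fin_cases j <;> simp [hc]
          field_simp
        rwa [h3] at h1
    · have h1 := W.smul_mem (-2 * Y 1 0)⁻¹ (hA _ (hA Y hY))
      have h3 : (-2 * Y 1 0)⁻¹ • (!![(!![Y 1 0, -2 * Y 0 0 - Y 1 0; 0, -Y 1 0] : M2 k) 1 0,
          -2 * (!![Y 1 0, -2 * Y 0 0 - Y 1 0; 0, -Y 1 0] : M2 k) 0 0 -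
          (!![Y 1 0, -2 * Y 0 0 - Y 1 0; 0, -Y 1 0] : M2 k) 1 0; 0,
          -(!![Y 1 0, -2 * Y 0 0 - Y 1 0; 0, -Y 1 0] : M2 k) 1 0] : M2 k) = !![0, 1; 0, 0] := by
        ext i j
        fin_cases i <;> fin_cases j <;> simp
        field_simp
      rwa [h3] at h1
  have hY1 : (!![-1, 0; -1, 1] : M2 k) ∈ W := by
    have h1 := W.sub_mem (hl _ hE) hE
    have h3 : lo 1 * !![0, 1; 0, 0] * lo (-1) - !![0, 1; 0, 0] = (!![-1, 0; -1, 1] : M2 k) := by
      ext i j
      fin_cases i <;> fin_cases j <;> simp [lo]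
    rwa [h3] at h1
  have hZ1 : (!![1, 0; -1, -1] : M2 k) ∈ W := by
    have h1 := W.sub_mem (hl' _ hE) hE
    have h3 : lo (-1) * !![0, 1; 0, 0] * lo 1 - !![0, 1; 0, 0] = (!![1, 0; -1, -1] : M2 k) := by
      ext i j
      fin_cases i <;> fin_cases j <;> simp [lo]
    rwa [h3] at h1
  have h11 : X 1 1 = -X 0 0 := by
    rw [Matrix.trace_fin_two] at hX
    linear_combination hX
  have h3 : X = X 0 1 • !![0, 1; 0, 0] + (-X 1 0 / 2) • (!![-1, 0; -1, 1] + !![1, 0; -1, -1]) +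
      (-X 0 0 / 2) • (!![-1, 0; -1, 1] - !![1, 0; -1, -1]) := by
    ext i j
    fin_cases i <;> fin_cases j <;> simp [h11] <;> field_simp <;> ring
  rw [h3]
  exact W.add_mem (W.add_mem (W.smul_mem _ hE) (W.smul_mem _ (W.add_mem hY1 hZ1)))
    (W.smul_mem _ (W.sub_mem hY1 hZ1))

variable {ρ : 𝒢 →* M2 k} {c : 𝒢 → M2 k}

/-- vanishing of cohomology by a central element -/
theorem cob_of_central {z : 𝒢} {a : k} (hz : ρ z = a • 1) (ha : a ^ 2 ≠ 1) (ha0 : a ≠ 0)
    (hc : TCoc ρ c) (h0 : ∀ σ, ρ σ = 1 → c σ = 0) : TCob ρ c := by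
  have hzi : ρ z⁻¹ = a⁻¹ • 1 := by
    have h1 := rho_inv_mul (ρ := ρ) z
    rw [hz, mul_smul_comm, mul_one] at h1
    rw [← h1, smul_smul, inv_mul_cancel₀ ha0, one_smul]
  have hdz : (ρ z).det = a ^ 2 := by
    rw [hz, Matrix.det_smul, Matrix.det_one, Fintype.card_fin, mul_one]
  have hd1 : a ^ 2 - 1 ≠ 0 := sub_ne_zero.2 ha
  refine ⟨(a ^ 2 - 1)⁻¹ • c z, by rw [Matrix.trace_smul, hc.tr, smul_zero], fun g => ?_⟩
  have h1 := hc.mul z g
  have h2 := hc.mul g z
  have h3 : c (z * g) = c (g * z) := by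
    have h4 : ρ ((g * z)⁻¹ * (z * g)) = 1 := by
      rw [map_mul, map_mul, _root_.mul_inv_rev, map_mul, hz, hzi]
      simp only [smul_mul_assoc, one_mul, mul_smul_comm, rho_inv_mul, smul_smul,
        mul_inv_cancel₀ ha0, one_smul]
    have h5 := hc.mul (g * z) ((g * z)⁻¹ * (z * g))
    rw [mul_inv_cancel_left, h0 _ h4, mul_zero, zero_mul, smul_zero, add_zero] at h5
    exact h5
  rw [h1, h2, hdz, hz, hzi, smul_mul_assoc, one_mul, mul_smul_comm, mul_one, smul_smul, smul_smul,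
    inv_mul_cancel_right₀ ha0] at h3
  have h4 : (a ^ 2 - 1) • c g = (ρ g).det • (ρ g * c z * ρ g⁻¹) - c z := by
    rw [sub_smul, one_smul, sub_eq_sub_iff_add_eq_add, add_comm, h3, add_comm]
  have h5 : c g = (a ^ 2 - 1)⁻¹ • ((a ^ 2 - 1) • c g) := by
    rw [smul_smul, inv_mul_cancel₀ hd1, one_smul]
  rw [h5, h4, mul_smul_comm, smul_mul_assoc, smul_sub, smul_comm]

end Fermat.Agent.Sel
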