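import Fermat.Agent.Sel.Ad

/-!
# The Greenberg–Wiles inequality over the coefficient field
-/

set_option autoImplicit false
set_option linter.unusedSectionVars false
set_option linter.style.haveILetI false

noncomputable section

namespace Fermat.Agent.Sel

open Matrix Fermat.Agent.GalRep

local notation "Ω" => AlgebraicClosure ℚ

local notation "𝒢" => (AlgebraicClosure ℚ) ≃ₐ[ℚ] (AlgebraicClosure ℚ)

variable {k : Type} [Field k] {p : ℕ} [hp : Fact p.Prime] [Algebra (ZMod p) k] [Finite k]

theorem finrank_res {W : Type} [AddCommGroup W] [Module k W] [Module (ZMod p) W]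
    [IsScalarTower (ZMod p) k W] (N : Submodule k W) :
    Module.finrank (ZMod p) (N.restrictScalars (ZMod p)) =
      Module.finrank (ZMod p) k * Module.finrank k N :=
  (Module.finrank_mul_finrank (ZMod p) k N).symm

theorem finite_res {W : Type} [AddCommGroup W] [Module k W] [Module (ZMod p) W]
    [IsScalarTower (ZMod p) k W] (N : Submodule k W)
    (h : FiniteDimensional (ZMod p) (N.restrictScalars (ZMod p))) : FiniteDimensional k N := by
  haveI : Module.Finite (ZMod p) N := h
  exact Module.Finite.of_restrictScalars_finite (ZMod p) k N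

variable {ρ : 𝒢 →* M2 k} {S : Finset ℕ} (A : S → ValuationSubring Ω)
  (L : ∀ v : S, Submodule k ((A v).decompositionSubgroup ℚ → sl k))

/-- the local conditions over the prime field -/
def resL (v : S) : Submodule (ZMod p) ((A v).decompositionSubgroup ℚ → sl k) :=
  (L v).restrictScalars (ZMod p)

variable (ρ) (lam : k →ₗ[ZMod p] ZMod p)

/-- the dual Selmer space, over the prime field -/
def SelDp : Submodule (ZMod p) (𝒢 → sl k) :=
  SelZ (resS (p := p) (adT ρ)) S A fun v =>
    Perp (resS (p := p) (adT ρ)) (trP lam) (cyc p) _ (resL (p := p) A L v)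

/-- the dual Selmer space -/
def SelD : Submodule k (𝒢 → sl k) where
  carrier := {c | c ∈ SelDp ρ A L lam}
  zero_mem' := (SelDp ρ A L lam).zero_mem
  add_mem' := fun ha hb => (SelDp ρ A L lam).add_mem ha hb
  smul_mem' := fun t c hc => by
    obtain ⟨h1, ⟨F, hF, h2⟩, h3, h4⟩ := hc
    refine ⟨fun σ τ => ?_, ⟨F, hF, fun σ hσ => ?_⟩, fun l hl hlS A' hA' σ hσ => ?_, fun v => ?_⟩
    · rw [Pi.smul_apply, h1, Pi.smul_apply, Pi.smul_apply, resS_apply, resS_apply, map_smul,
        smul_add]
    · rw [Pi.smul_apply, h2 σ hσ, smul_zero]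
    · rw [Pi.smul_apply, h3 l hl hlS A' hA' σ hσ, smul_zero]
    · obtain ⟨⟨h5, F', hF', h6⟩, h7⟩ := h4 v
      refine ⟨⟨fun σ τ => ?_, F', hF', fun σ hσ => ?_⟩, fun d hd => ?_⟩
      · have h8 := h5 σ τ
        simp only at h8
        simp only [Pi.smul_apply]
        rw [h8, resS_apply, resS_apply, map_smul, smul_add]
      · have h8 := h6 σ hσ
        simp only at h8
        simp only [Pi.smul_apply]
        rw [h8, smul_zero]
      · obtain ⟨f, hf, h8⟩ := h7 (t • d) ((L v).smul_mem t hd)
        refine ⟨f, hf, fun σ τ => ?_⟩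
        rw [← h8 σ τ]
        simp only [Pi.smul_apply]
        rw [resS_apply, resS_apply, map_smul, ← trP_smul]

variable {ρ A L lam}

theorem mem_SelD {c : 𝒢 → sl k} : c ∈ SelD ρ A L lam ↔ c ∈ SelDp ρ A L lam := Iff.rfl

theorem SelZ_res : SelZ (resS (p := p) (adR ρ)) S A (resL (p := p) A L) =
    (SelZ (adR ρ) S A L).restrictScalars (ZMod p) := rfl

theorem SelD_res : SelDp ρ A L lam = (SelD ρ A L lam).restrictScalars (ZMod p) := rfl

theorem H0_res {V : Type} [AddCommGroup V] [Module k V] [Module (ZMod p) V]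
    [IsScalarTower (ZMod p) k V] (r : 𝒢 →* Module.End k V) (D : Subgroup 𝒢) :
    H0 (resS (p := p) r) D = (H0 r D).restrictScalars (ZMod p) := rfl

set_option maxHeartbeats 1000000 in
/-- **The Greenberg–Wiles inequality over `k`.** -/
theorem gw_ad (hGW : GWStatement p) (h : ResH p ρ S) (hlam : lam ≠ 0)
    (hA : ∀ v, (A v).LiesOverPrime (v : ℕ))
    (hL1 : ∀ v, B1 (adR ρ) _ ≤ L v) (hL2 : ∀ v, L v ≤ Z1 (adR ρ) _) :
    (∀ v, FiniteDimensional k (L v)) ∧ FiniteDimensional k (SelZ (adR ρ) S A L) ∧
    FiniteDimensional k (SelD ρ A L lam) ∧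
    (Module.finrank k (SelZ (adR ρ) S A L) : ℤ) ≤ Module.finrank k (SelD ρ A L lam) +
      ∑ v : S, ((Module.finrank k (L v) : ℤ) - 3) -
      Module.finrank k (H0 (adR ρ) (Subgroup.zpowers complexConjugation)) := by
  haveI : FiniteDimensional k (sl k) := by
    apply FiniteDimensional.of_finrank_pos
    rw [finrank_sl]
    norm_num
  haveI : Module.Finite (ZMod p) k := Module.Finite.of_finite
  haveI : FiniteDimensional (ZMod p) (sl k) := Module.Finite.trans k (sl k)
  obtain ⟨h1, h2, h3, h4⟩ := hGW (sl k) (sl k) S _ _ _ (dualReps h hlam) A hA (resL (p := p) A L)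
    (fun v => by
      intro c hc
      obtain ⟨x, rfl⟩ := hc
      exact hL1 v ⟨x, rfl⟩)
    (fun v c hc => hL2 v hc)
  refine ⟨fun v => finite_res _ (h1 v), finite_res _ h2, finite_res (SelD ρ A L lam) h3, ?_⟩
  have hd : 0 < Module.finrank (ZMod p) k := Module.finrank_pos
  set d := Module.finrank (ZMod p) k with hdef
  have e1 : Module.finrank (ZMod p) (SelZ (resS (p := p) (adR ρ)) S A (resL (p := p) A L)) =
      d * Module.finrank k (SelZ (adR ρ) S A L) := finrank_res (p := p) (SelZ (adR ρ) S A L)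
  have e2 : Module.finrank (ZMod p) (SelZ (resS (p := p) (adT ρ)) S A fun v =>
      Perp (resS (p := p) (adT ρ)) (trP lam) (cyc p) _ (resL (p := p) A L v)) =
      d * Module.finrank k (SelD ρ A L lam) := finrank_res (p := p) (SelD ρ A L lam)
  have e3 : ∀ v, Module.finrank (ZMod p) (resL (p := p) A L v) = d * Module.finrank k (L v) :=
    fun v => finrank_res (p := p) (L v)
  have e4 : Module.finrank (ZMod p) (sl k) = d * 3 := by
    rw [← finrank_sl (k := k)]
    exact (Module.finrank_mul_finrank (ZMod p) k (sl k)).symm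
  have e5 : Module.finrank (ZMod p) (H0 (resS (p := p) (adR ρ))
      (Subgroup.zpowers complexConjugation)) =
      d * Module.finrank k (H0 (adR ρ) (Subgroup.zpowers complexConjugation)) :=
    finrank_res (p := p) (H0 (adR ρ) (Subgroup.zpowers complexConjugation))
  rw [e1, e2, e5, e4] at h4
  simp only [e3] at h4
  push_cast at h4
  have e6 : ∑ v : S, ((d : ℤ) * (Module.finrank k (L v) : ℤ) - (d : ℤ) * 3) =
      d * ∑ v : S, ((Module.finrank k (L v) : ℤ) - 3) := by
    rw [Finset.mul_sum]
    exact Finset.sum_congr rfl fun v _ => by ring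
  rw [e6] at h4
  have hd' : (0 : ℤ) < d := by exact_mod_cast hd
  refine le_of_mul_le_mul_left ?_ hd'
  calc (d : ℤ) * Module.finrank k (SelZ (adR ρ) S A L) ≤ _ := h4
    _ = _ := by ring

end Fermat.Agent.Sel
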