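import Mathlib

/-!
# Taylor–Wiles primes: the Galois-theoretic killing lemma

Matrix cocycles with values in `ad⁰(1)`.
-/

set_option autoImplicit false
set_option linter.unusedSectionVars false

noncomputable section

namespace Fermat.Agent.Sel

open Matrix

local notation "Ω" => AlgebraicClosure ℚ

local notation "𝒢" => (AlgebraicClosure ℚ) ≃ₐ[ℚ] (AlgebraicClosure ℚ)

variable {k : Type} [Field k]

/-- two by two matrices -/
abbrev M2 (k : Type) : Type := Matrix (Fin 2) (Fin 2) k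

/-- cocycles with values in `ad⁰(1)` (where `1` denotes the twist by the determinant) -/
structure TCoc (ρ : 𝒢 →* M2 k) (c : 𝒢 → M2 k) : Prop where
  mul : ∀ σ τ, c (σ * τ) = c σ + (ρ σ).det • (ρ σ * c τ * ρ σ⁻¹)
  tr : ∀ σ, (c σ).trace = 0
  lc : ∃ F : IntermediateField ℚ Ω, FiniteDimensional ℚ F ∧ ∀ σ, (∀ x ∈ F, σ x = x) → c σ = 0

/-- coboundaries with values in `ad⁰(1)` -/
def TCob (ρ : 𝒢 →* M2 k) (c : 𝒢 → M2 k) : Prop :=
  ∃ X : M2 k, X.trace = 0 ∧ ∀ σ, c σ = (ρ σ).det • (ρ σ * X * ρ σ⁻¹) - X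

/-- `2 g - tr g` -/
def hh (g : M2 k) : M2 k := (2 : k) • g - g.trace • 1

/-- the discriminant -/
def dsc (g : M2 k) : k := g.trace ^ 2 - 4 * g.det

theorem trace_hh (g : M2 k) : (hh g).trace = 0 := by
  simp [hh, Matrix.trace_fin_two]
  ring

theorem hh_mul_self (g : M2 k) : hh g * hh g = dsc g • 1 := by
  ext i j
  fin_cases i <;> fin_cases j <;>
    simp [hh, dsc, Matrix.trace_fin_two, Matrix.det_fin_two, Matrix.mul_apply, Fin.sum_univ_two] <;>
    ring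

theorem trace_hh_sq (g : M2 k) : (hh g * hh g).trace = 2 * dsc g := by
  rw [hh_mul_self, Matrix.trace_smul, Matrix.trace_one, Fintype.card_fin]
  simp [mul_comm]

/-- coboundaries of `g` are orthogonal to `hh g` -/
theorem trace_cob {g g' X : M2 k} (h : g' * g = 1) : ((g * X * g' - X) * hh g).trace = 0 := by
  have h2 : (X * g).trace = (g * X * g' * g).trace := by
    rw [mul_assoc, h, mul_one, Matrix.trace_mul_comm]
  have h3 : (g * X * g').trace = X.trace := by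
    rw [Matrix.trace_mul_comm, ← mul_assoc, h, one_mul]
  rw [hh, sub_mul, mul_sub, mul_sub, Matrix.trace_sub, Matrix.trace_sub, Matrix.trace_sub,
    mul_smul_comm, mul_smul_comm, mul_smul_comm, mul_smul_comm, mul_one, mul_one,
    Matrix.trace_smul, Matrix.trace_smul, Matrix.trace_smul, Matrix.trace_smul, ← h2, h3]
  ring

section kill

variable {ρ : 𝒢 →* M2 k} {c : 𝒢 → M2 k}

theorem comm_root (g κ : 𝒢) {m : ℕ} (hm : m ≠ 0) {ζ : Ω} (hζ : ζ ^ m = 1) :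
    g (κ ζ) = κ (g ζ) := by
  have : NeZero m := ⟨hm⟩
  obtain ⟨ζ₀, h0⟩ := HasEnoughRootsOfUnity.exists_primitiveRoot Ω m
  have hpow : ∀ z : Ω, z ^ m = 1 → ∃ a : ℕ, z = ζ₀ ^ a := fun z hz => by
    obtain ⟨a, -, ha⟩ := h0.eq_pow_of_pow_eq_one hz
    exact ⟨a, ha.symm⟩
  obtain ⟨a, rfl⟩ := hpow ζ hζ
  obtain ⟨b, hb⟩ := hpow (g ζ₀) (by rw [← map_pow, h0.pow_eq_one, map_one])
  obtain ⟨d, hd⟩ := hpow (κ ζ₀) (by rw [← map_pow, h0.pow_eq_one, map_one])
  rw [map_pow, map_pow, map_pow, map_pow, hb, hd, map_pow, map_pow, hb, hd]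
  ring

theorem rho_inv_mul (σ : 𝒢) : ρ σ⁻¹ * ρ σ = 1 := by rw [← map_mul, inv_mul_cancel, map_one]

theorem rho_mul_inv (σ : 𝒢) : ρ σ * ρ σ⁻¹ = 1 := by rw [← map_mul, mul_inv_cancel, map_one]

theorem det_ne_zero (σ : 𝒢) : (ρ σ).det ≠ 0 := by
  intro h
  have h1 := congrArg Matrix.det (rho_mul_inv (ρ := ρ) σ)
  rw [Matrix.det_mul, h, zero_mul, Matrix.det_one] at h1
  exact zero_ne_one h1

theorem TCoc.one (hc : TCoc ρ c) : c 1 = 0 := by
  have h := hc.mul 1 1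
  rw [mul_one, map_one, Matrix.det_one, one_smul, inv_one, map_one, one_mul, mul_one] at h
  exact left_eq_add.1 h

/-- conjugation of elements in the kernel -/
theorem TCoc.conj (hc : TCoc ρ c) {κ : 𝒢} (hκ : ρ κ = 1) (g : 𝒢) :
    c (g * κ * g⁻¹) = (ρ g).det • (ρ g * c κ * ρ g⁻¹) := by
  have h1 := hc.mul g (κ * g⁻¹)
  have h2 := hc.mul κ g⁻¹
  have h3 := hc.mul g g⁻¹
  have hκ' : ρ κ⁻¹ = 1 := by
    have := rho_mul_inv (ρ := ρ) κ
    rwa [hκ, one_mul] at this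
  rw [mul_inv_cancel, hc.one] at h3
  rw [← mul_assoc, h2, hκ, hκ', Matrix.det_one, one_smul, one_mul, mul_one, mul_add, add_mul,
    smul_add] at h1
  rw [h1]
  have h4 : c g + (ρ g).det • (ρ g * c g⁻¹ * ρ g⁻¹) = 0 := h3.symm
  calc _ = (c g + (ρ g).det • (ρ g * c g⁻¹ * ρ g⁻¹)) + (ρ g).det • (ρ g * c κ * ρ g⁻¹) := by abel
    _ = _ := by rw [h4, zero_add]

variable {p : ℕ}

/-- **The killing lemma.** -/
theorem exists_kill (h2 : (2 : k) ≠ 0) (n : ℕ) (hpn : p ^ n ≠ 0)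
    (hadj : ∀ W : Submodule k (M2 k), (∀ σ, ∀ X ∈ W, ρ σ * X * ρ σ⁻¹ ∈ W) → (∀ X ∈ W, X.trace = 0) →
      W ≠ ⊥ → ∀ X : M2 k, X.trace = 0 → X ∈ W)
    (hex : ∃ σ : 𝒢, (∀ ζ : Ω, ζ ^ (p ^ n) = 1 → σ ζ = ζ) ∧ dsc (ρ σ) ≠ 0)
    (hH1 : ∀ c : 𝒢 → M2 k, TCoc ρ c → (∀ σ, ρ σ = 1 → c σ = 0) → TCob ρ c)
    (hc : TCoc ρ c) (hnc : ¬ TCob ρ c) :
    ∃ σ : 𝒢, (∀ ζ : Ω, ζ ^ (p ^ n) = 1 → σ ζ = ζ) ∧ dsc (ρ σ) ≠ 0 ∧ (c σ * hh (ρ σ)).trace ≠ 0 := by
  by_contra hcon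
  push Not at hcon
  apply hnc
  obtain ⟨σ₀, hσ₀, hd₀⟩ := hex
  -- step 1
  have step1 : ∀ κ : 𝒢, ρ κ = 1 → (∀ ζ : Ω, ζ ^ (p ^ n) = 1 → κ ζ = ζ) → c κ = 0 := by
    let W : Submodule k (M2 k) := Submodule.span k {X | ∃ κ : 𝒢, ρ κ = 1 ∧
      (∀ ζ : Ω, ζ ^ (p ^ n) = 1 → κ ζ = ζ) ∧ X = c κ}
    have hstab : ∀ σ, ∀ X ∈ W, ρ σ * X * ρ σ⁻¹ ∈ W := by
      intro σ X hX
      induction hX using Submodule.span_induction with
      | mem X hX =>
        obtain ⟨κ, h1, h2, rfl⟩ := hX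
        have h3 := hc.conj h1 σ
        have h4 : ρ σ * c κ * ρ σ⁻¹ = ((ρ σ).det)⁻¹ • c (σ * κ * σ⁻¹) := by
          rw [h3, smul_smul, inv_mul_cancel₀ (det_ne_zero σ), one_smul]
        rw [h4]
        refine W.smul_mem _ (Submodule.subset_span ⟨σ * κ * σ⁻¹, ?_, ?_, rfl⟩)
        · rw [map_mul, map_mul, h1, mul_one, rho_mul_inv]
        · intro ζ hζ
          have h5 : (σ⁻¹ ζ) ^ (p ^ n) = 1 := by rw [← map_pow, hζ, map_one]
          rw [AlgEquiv.mul_apply, AlgEquiv.mul_apply, h2 _ h5]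
          exact σ.apply_symm_apply ζ
      | zero => rw [mul_zero, zero_mul]; exact W.zero_mem
      | add X Y _ _ hX hY => rw [mul_add, add_mul]; exact W.add_mem hX hY
      | smul t X _ hX => rw [mul_smul_comm, smul_mul_assoc]; exact W.smul_mem _ hX
    have htr : ∀ X ∈ W, X.trace = 0 := by
      intro X hX
      induction hX using Submodule.span_induction with
      | mem X hX => obtain ⟨κ, -, -, rfl⟩ := hX; exact hc.tr κ
      | zero => exact Matrix.trace_zero _ _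
      | add X Y _ _ hX hY => rw [Matrix.trace_add, hX, hY, add_zero]
      | smul t X _ hX => rw [Matrix.trace_smul, hX, smul_zero]
    have horth : ∀ X ∈ W, (X * hh (ρ σ₀)).trace = 0 := by
      intro X hX
      induction hX using Submodule.span_induction with
      | mem X hX =>
        obtain ⟨κ, h1, h2, rfl⟩ := hX
        have hκ' : ρ κ⁻¹ = 1 := by
          have := rho_mul_inv (ρ := ρ) κ
          rwa [h1, one_mul] at this
        have h3 : ρ (κ * σ₀) = ρ σ₀ := by rw [map_mul, h1, one_mul]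
        have h4 := hcon (κ * σ₀) (fun ζ hζ => by rw [AlgEquiv.mul_apply, hσ₀ ζ hζ, h2 ζ hζ])
          (by rw [h3]; exact hd₀)
        have h5 := hcon σ₀ hσ₀ hd₀
        rw [h3, hc.mul κ σ₀, h1, hκ', Matrix.det_one, one_smul, one_mul, mul_one, add_mul,
          Matrix.trace_add, h5, add_zero] at h4
        exact h4
      | zero => rw [zero_mul]; exact Matrix.trace_zero _ _
      | add X Y _ _ hX hY => rw [add_mul, Matrix.trace_add, hX, hY, add_zero]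
      | smul t X _ hX => rw [smul_mul_assoc, Matrix.trace_smul, hX, smul_zero]
    have hW : W = ⊥ := by
      by_contra hne
      have h1 := hadj W hstab htr hne (hh (ρ σ₀)) (trace_hh _)
      have h3 := horth _ h1
      rw [trace_hh_sq] at h3
      exact mul_ne_zero h2 hd₀ h3
    intro κ h1 h2
    have h3 : c κ ∈ W := Submodule.subset_span ⟨κ, h1, h2, rfl⟩
    rw [hW, Submodule.mem_bot] at h3
    exact h3
  apply hH1 c hc
  intro κ hκ
  by_contra hne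
  have hcomm : ∀ g : 𝒢, (ρ g).det • (ρ g * c κ * ρ g⁻¹) = c κ := by
    intro g
    rw [← hc.conj hκ g]
    have h1 : ρ (g * κ * g⁻¹ * κ⁻¹) = 1 := by
      have hκ' : ρ κ⁻¹ = 1 := by
        have := rho_mul_inv (ρ := ρ) κ
        rwa [hκ, one_mul] at this
      rw [map_mul, map_mul, map_mul, hκ, mul_one, rho_mul_inv, one_mul, hκ']
    have h3 : ∀ ζ : Ω, ζ ^ (p ^ n) = 1 → (g * κ * g⁻¹ * κ⁻¹) ζ = ζ := by
      intro ζ hζ
      have h4 : (κ⁻¹ ζ) ^ (p ^ n) = 1 := by rw [← map_pow, hζ, map_one]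
      rw [AlgEquiv.mul_apply, AlgEquiv.mul_apply, AlgEquiv.mul_apply]
      have h5 : (g⁻¹ (κ⁻¹ ζ)) ^ (p ^ n) = 1 := by rw [← map_pow, h4, map_one]
      rw [comm_root g κ hpn h5]
      have h6 : g (g⁻¹ (κ⁻¹ ζ)) = κ⁻¹ ζ := g.apply_symm_apply _
      rw [h6]
      exact κ.apply_symm_apply _
    have h4 := step1 _ h1 h3
    have h5 := hc.mul (g * κ * g⁻¹ * κ⁻¹) κ
    rw [inv_mul_cancel_right, h4, h1] at h5
    have h6 : ρ (g * κ * g⁻¹ * κ⁻¹)⁻¹ = 1 := by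
      have := rho_mul_inv (ρ := ρ) (g * κ * g⁻¹ * κ⁻¹)
      rwa [h1, one_mul] at this
    rw [h6, Matrix.det_one, one_smul, one_mul, mul_one, zero_add] at h5
    exact h5
  have hline := hadj (Submodule.span k {c κ}) (fun σ X hX => by
    obtain ⟨t, rfl⟩ := Submodule.mem_span_singleton.1 hX
    have h1 := hcomm σ
    have h3 : ρ σ * c κ * ρ σ⁻¹ = ((ρ σ).det)⁻¹ • c κ := by
      conv_rhs => rw [← h1]
      rw [smul_smul, inv_mul_cancel₀ (det_ne_zero σ), one_smul]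
    rw [mul_smul_comm, smul_mul_assoc, h3, smul_smul]
    exact Submodule.smul_mem _ _ (Submodule.mem_span_singleton_self _)) (fun X hX => by
    obtain ⟨t, rfl⟩ := Submodule.mem_span_singleton.1 hX
    rw [Matrix.trace_smul, hc.tr, smul_zero]) (fun h => hne (by
    rwa [Submodule.span_singleton_eq_bot] at h))
  obtain ⟨s, hs⟩ := Submodule.mem_span_singleton.1 (hline !![0, 1; 0, 0] (by
    simp [Matrix.trace_fin_two]))
  obtain ⟨t, ht⟩ := Submodule.mem_span_singleton.1 (hline !![0, 0; 1, 0] (by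
    simp [Matrix.trace_fin_two]))
  have h3 : (!![0, 1; 0, 0] : M2 k) * !![0, 0; 1, 0] = !![0, 0; 1, 0] * !![0, 1; 0, 0] := by
    rw [← hs, ← ht]
    simp only [smul_mul_assoc, mul_smul_comm]
    rw [smul_comm]
  have h4 := congrFun (congrFun h3 0) 0
  simp [Matrix.mul_apply, Fin.sum_univ_two] at h4

end kill

end Fermat.Agent.Sel
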