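import Fermat.Agent.Sel.LocA

/-!
# The number of generators of the trace ring
-/

set_option autoImplicit false
set_option linter.unusedSectionVars false
set_option linter.style.haveILetI false

noncomputable section

namespace Fermat.Agent.Sel

open Matrix IsLocalRing Fermat.Agent.GalRep Fermat.Agent.Places Fermat.Agent.Flat
open Fermat.Agent.TW Fermat.Agent.KumG Fermat.Agent.Cheb

local notation "Ω" => AlgebraicClosure ℚ

local notation "𝒢" => (AlgebraicClosure ℚ) ≃ₐ[ℚ] (AlgebraicClosure ℚ)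

section lin

variable {k : Type} [Field k]

theorem exists_Lam {E : Type} [AddCommGroup E] [Module k E] (Z C : Submodule k E)
    [FiniteDimensional k Z] (hCZ : C ≤ Z) {g c : ℕ} (hC : c ≤ Module.finrank k C)
    (hZ : Module.finrank k Z ≤ c + g) :
    ∃ Λ : Z →ₗ[k] (Fin g → k), ∀ z : Z, Λ z = 0 → (z : E) ∈ C := by
  classical
  set C' : Submodule k Z := C.comap Z.subtype with hC'
  have h1 : Module.finrank k C' = Module.finrank k C :=
    LinearEquiv.finrank_eq (Submodule.comapSubtypeEquivOfLe hCZ)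
  have h2 := Submodule.finrank_quotient_add_finrank C'
  set d := Module.finrank k (Z ⧸ C') with hd
  have hdg : d ≤ g := by omega
  let e := (Module.finBasis k (Z ⧸ C')).equivFun
  let f : (Fin d → k) →ₗ[k] (Fin g → k) :=
    { toFun := fun x j => if h : (j : ℕ) < d then x ⟨j, h⟩ else 0
      map_add' := fun x y => by
        funext j
        simp only [Pi.add_apply]
        split_ifs <;> simp
      map_smul' := fun t x => by
        funext j
        simp only [Pi.smul_apply, RingHom.id_apply]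
        split_ifs <;> simp }
  have hf : ∀ x, f x = 0 → x = 0 := by
    intro x hx
    funext i
    have := congrFun hx ⟨i, i.2.trans_le hdg⟩
    change (if h : (i : ℕ) < d then x ⟨i, h⟩ else 0) = 0 at this
    rwa [dif_pos i.2] at this
  refine ⟨f.comp ((e : (Z ⧸ C') →ₗ[k] (Fin d → k)).comp C'.mkQ), fun z hz => ?_⟩
  have h3 := hf _ hz
  change e (C'.mkQ z) = 0 at h3
  rw [LinearEquiv.map_eq_zero_iff, Submodule.mkQ_apply, Submodule.Quotient.mk_eq_zero] at h3
  exact h3

end lin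

section coh

variable {k : Type} [Field k] [Finite k] {ρ : 𝒢 →* M2 k}

/-- coboundaries, untwisted -/
def cobR (ρ : 𝒢 →* M2 k) : sl k →ₗ[k] (𝒢 → sl k) :=
  LinearMap.pi fun σ => (adR ρ σ - 1 : Module.End k (sl k))

theorem cobR_apply (X : sl k) (σ : 𝒢) : cobR ρ X σ = adR ρ σ X - X := rfl

/-- the coboundaries lie in the Selmer space -/
theorem cobR_mem {p : ℕ} [hp : Fact p.Prime] [Algebra (ZMod p) k] {S : Finset ℕ}
    (h : ResH p ρ S) {A : S → ValuationSubring Ω}
    {L : ∀ v : S, Submodule k ((A v).decompositionSubgroup ℚ → sl k)} (hL : ∀ v, B1 (adR ρ) _ ≤ L v)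
    (X : sl k) : cobR ρ X ∈ SelZ (adR ρ) S A L := by
  refine ⟨fun σ τ => ?_, ?_, fun l hl hlS A' hA' σ hσ => ?_, fun v => ?_⟩
  · change adR ρ (σ * τ : 𝒢) X - X = (adR ρ σ X - X) + adR ρ σ (adR ρ τ X - X)
    rw [map_mul, Module.End.mul_apply, map_sub]
    abel
  · obtain ⟨F, hF, h1⟩ := h.lc
    refine ⟨F, hF, fun σ hσ => ?_⟩
    change adR ρ (σ : 𝒢) X - X = 0
    rw [adR_one' ρ (h1 _ hσ), Module.End.one_apply, sub_self]
  · change adR ρ (σ : 𝒢) X - X = 0
    rw [adR_one' ρ (h.unr l hl hlS A' hA' σ hσ), Module.End.one_apply, sub_self]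
  · exact hL v ⟨X, rfl⟩

/-- **The linear form on the Selmer space.** -/
theorem exists_LamS {p : ℕ} [hp : Fact p.Prime] [Algebra (ZMod p) k] {S : Finset ℕ}
    (h : ResH p ρ S) (hinv : ∀ X : sl k, (∀ σ, adR ρ σ X = X) → X = 0)
    {A : S → ValuationSubring Ω}
    {L : ∀ v : S, Submodule k ((A v).decompositionSubgroup ℚ → sl k)} (hL : ∀ v, B1 (adR ρ) _ ≤ L v)
    [FiniteDimensional k (SelZ (adR ρ) S A L)] {g : ℕ}
    (hg : Module.finrank k (SelZ (adR ρ) S A L) ≤ 3 + g) :
    ∃ Λ : ((SelZ (adR ρ) S A L).map (coeM (k := k)) : Submodule k (𝒢 → M2 k)) →ₗ[k] (Fin g → k),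
      ∀ c, Λ c = 0 → ∃ X : M2 k, ∀ σ, (c : 𝒢 → M2 k) σ = ρ σ * X * ρ σ⁻¹ - X := by
  have hinj : Function.Injective (cobR ρ) := by
    rw [← LinearMap.ker_eq_bot, LinearMap.ker_eq_bot']
    intro X hX
    refine hinv X fun σ => ?_
    have := congrFun hX σ
    rw [cobR_apply, Pi.zero_apply, sub_eq_zero] at this
    exact this
  have hinj' : Function.Injective ((coeM (k := k)).comp (cobR ρ)) :=
    coeM_injective.comp hinj
  haveI : FiniteDimensional k (sl k) := by
    apply FiniteDimensional.of_finrank_pos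
    rw [finrank_sl]
    norm_num
  have h1 : Module.finrank k (LinearMap.range ((coeM (k := k)).comp (cobR ρ))) = 3 := by
    rw [LinearMap.finrank_range_of_inj hinj', finrank_sl]
  obtain ⟨Λ, hΛ⟩ := exists_Lam (k := k) ((SelZ (adR ρ) S A L).map (coeM (k := k)))
    (LinearMap.range ((coeM (k := k)).comp (cobR ρ))) (by
      rintro _ ⟨X, rfl⟩
      exact ⟨cobR ρ X, cobR_mem h hL X, rfl⟩) (g := g) h1.ge
      ((Submodule.finrank_map_le _ _).trans hg)
  refine ⟨Λ, fun c hc => ?_⟩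
  obtain ⟨X, hX⟩ := hΛ c hc
  refine ⟨X, fun σ => ?_⟩
  rw [← hX]
  rfl

end coh

/-- no invariants in the adjoint representation of the Frey curve -/
theorem Res0.inv_zero {P : FreyPackage} [hp : Fact P.p.Prime] {ρ : 𝒢 →* M2 (ZMod P.p)}
    (h : Res0 P ρ) {k : Type} [Field k] (ι : ZMod P.p →+* k) (X : sl k)
    (hX : ∀ σ, adR (extk ρ ι) σ X = X) : X = 0 := by
  by_contra hne
  have h2 : (2 : k) ≠ 0 := by
    intro h2
    have h3 : (2 : ZMod P.p) = 0 := by
      apply ι.injective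
      rw [map_ofNat, h2, map_zero]
    have : ((2 : ℕ) : ZMod P.p) = 0 := by exact_mod_cast h3
    rw [ZMod.natCast_eq_zero_iff, Nat.prime_dvd_prime_iff_eq hp.out Nat.prime_two] at this
    exact ne2 this
  have key := fun (Y : M2 k) (hY : Y.trace = 0) => h.hadj ι (Submodule.span k {(X : M2 k)}) (by
      intro σ Y hY
      obtain ⟨a, rfl⟩ := Submodule.mem_span_singleton.1 hY
      have h1 := congrArg Subtype.val (hX σ)
      rw [coe_adR] at h1
      rw [mul_smul_comm, smul_mul_assoc, h1]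
      exact hY) (by
      intro Y hY
      obtain ⟨a, rfl⟩ := Submodule.mem_span_singleton.1 hY
      rw [Matrix.trace_smul, sl_trace, smul_zero]) (by
      rw [ne_eq, Submodule.span_singleton_eq_bot]
      intro h0
      exact hne (Subtype.ext h0)) Y hY
  obtain ⟨a, ha⟩ := Submodule.mem_span_singleton.1 (key !![0, 1; 0, 0] (by simp [Matrix.trace_fin_two]))
  obtain ⟨b, hb⟩ := Submodule.mem_span_singleton.1 (key !![0, 0; 1, 0] (by simp [Matrix.trace_fin_two]))
  have a01 := congrFun (congrFun ha 0) 1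
  have a10 := congrFun (congrFun ha 1) 0
  have b10 := congrFun (congrFun hb 1) 0
  simp only [Matrix.smul_apply, smul_eq_mul, Matrix.of_apply, Matrix.cons_val', Matrix.cons_val_zero,
    Matrix.cons_val_one, Matrix.cons_val_fin_one] at a01 a10 b10
  have ha0 : a ≠ 0 := by
    rintro rfl
    rw [zero_mul] at a01
    exact zero_ne_one a01
  rw [(mul_eq_zero.1 a10).resolve_left ha0, mul_zero] at b10
  exact zero_ne_one b10

section lev

variable {O : Type} [CommRing O] [IsLocalRing O] [IsNoetherianRing O]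
  [IsAdicComplete (maximalIdeal O) O] {p : ℕ} [hp : Fact p.Prime]
  {hpO : (p : O) ∈ maximalIdeal O} {N : ℕ} [NeZero N] {ι : AlgebraicClosure ℚ →+* ℂ}
  {H : Subgroup (ZMod N)ˣ} [hH : Fact ((-1 : (ZMod N)ˣ) ∈ H)] {S : Set ℕ}
  {hNS : ∀ l, l.Prime → l ∣ N → l ∈ S} {e : TS O S} {ρb : 𝒢 →* M2 (ResidueField O)}
  {θ : TD O S N →ₐ[O] ResidueField O} [Nontrivial (YH H hNS e)] [Module.Free O (YH H hNS e)]
  (h : HG hpO S (fun g => (ρb g).trace) (psiY H hNS e) θ (rhoY hpO ι H hNS e))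
  [Invertible (2 : O)] {g₀ k₀ : 𝒢} (hgk : HG.IrrAt (fun g => (ρb g).trace) g₀ k₀)

/-- **Generators of the maximal ideal of the trace ring.** -/
theorem exists_z [Finite (ResidueField O)] (hmax : maximalIdeal O = Ideal.span {(p : O)})
    (hc : ρb complexConjugation = !![1, 0; 0, -1]) (hg₀ : ρb g₀ 0 1 = 1)
    [Algebra (ZMod p) (ResidueField O)] {Sf : Finset ℕ} (hres : ResH p ρb Sf)
    (hNSf : ∀ l, l.Prime → l ∣ N → l ∈ Sf)
    (hinv : ∀ X : sl (ResidueField O), (∀ σ, adR ρb σ X = X) → X = 0)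
    {A : Sf → ValuationSubring Ω}
    {L : ∀ v : Sf, Submodule (ResidueField O) ((A v).decompositionSubgroup ℚ → sl (ResidueField O))}
    (hL : ∀ v, B1 (adR ρb) _ ≤ L v)
    [FiniteDimensional (ResidueField O) (SelZ (adR ρb) Sf A L)] {g : ℕ}
    (hg : Module.finrank (ResidueField O) (SelZ (adR ρb) Sf A L) ≤ 3 + g)
    {I : Ideal h.TT} (hI : maximalIdeal h.TT ^ 2 ≤ I) (hI' : I ≤ maximalIdeal h.TT)
    (hpI : (p : h.TT) ∈ I)
    (hloc : ∀ (D : h.TT → ResidueField O)
      (hD : IsDer h.theta.toRingHom (Set.range (algebraMap O h.TT)) I D) (v : Sf),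
      (fun σ : (A v).decompositionSubgroup ℚ => cS h hgk hD σ) ∈ L v) :
    ∃ z : Fin g → h.TT, (∀ i, z i ∈ maximalIdeal h.TT) ∧
      maximalIdeal h.TT ≤ Ideal.span (Set.range z) ⊔ I := by
  obtain ⟨Λ, hΛ⟩ := exists_LamS hres hinv hL hg
  have hred := redR_eq h hgk hc hg₀
  refine exists_gens (h.R hgk) h.theta.toRingHom (ker_theta h) (algebraMap O h.TT).range
    (exists_O_theta h) I hI hI' (fun a ha h0 => ?_) (fun t => ⟨t, gen_TT h hgk t, by
      rw [sub_self]; exact I.zero_mem⟩) _ Λ (fun D hD => ?_) (fun c hcΛ => ?_)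
  · obtain ⟨b, hb, rfl⟩ := theta_O h ha h0
    rw [hmax] at hb
    obtain ⟨b', rfl⟩ := Ideal.mem_span_singleton.1 hb
    rw [map_mul, map_natCast]
    exact I.mul_mem_right _ hpI
  · have hD' : IsDer h.theta.toRingHom (Set.range (algebraMap O h.TT)) I D := hD
    refine ⟨cS h hgk hD', ⟨fun σ τ => cS_mul h hgk hD' hred σ τ, ?_, fun l hl hlS A' hA' σ hσ => ?_,
      fun v => hloc D hD' v⟩, ?_⟩
    · obtain ⟨F, hF, h1⟩ := cD_lc h hgk hD' hpI
      exact ⟨F, hF, fun σ hσ => Subtype.ext (h1 σ hσ)⟩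
    · apply Subtype.ext
      refine cD_of_one h hgk hD' (R_eq_one h hgk (rhoY_inertia ι hpO hl (fun h1 => hlS
        (hNSf l hl h1)) ?_ hA' hσ))
      rintro rfl
      exact hlS hres.mem
    · funext σ
      rfl
  · obtain ⟨X, hX⟩ := hΛ c hcΛ
    refine ⟨X, fun σ => ?_⟩
    rw [hX σ, hred]

end lev

end Fermat.Agent.Sel
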