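import Fermat.Agent.Sel.Tan
import Fermat.Agent.Sel.TWHyp
import Fermat.Agent.Sel.TWSel
import Fermat.Agent.TW.YH
import Fermat.Agent.Cov.GoodH
import Fermat.Agent.FlT.Mod

/-!
# The residual representation and the tangent cocycles of the trace ring
-/

set_option autoImplicit false
set_option linter.unusedSectionVars false
set_option linter.style.haveILetI false

noncomputable section

namespace Fermat.Agent.Sel

open Matrix IsLocalRing Fermat.Agent.GalRep Fermat.Agent.TW Fermat.Agent.KumG Fermat.Agent.Places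
open Fermat.Agent.Cheb
open scoped TensorProduct

local notation "Ω" => AlgebraicClosure ℚ

local notation "𝒢" => (AlgebraicClosure ℚ) ≃ₐ[ℚ] (AlgebraicClosure ℚ)

section rep

variable {k : Type} [Field k] [Invertible (2 : k)] {G : Type} [Group G] {ρ : G →* M2 k} {c : G}
  (hc : ρ c = !![1, 0; 0, -1])

include hc in
theorem aa_rep (g : G) : aa (fun g => (ρ g).trace) c g = ρ g 0 0 := by
  have h1 : (2 : k) * ⅟2 = 1 := mul_invOf_self 2
  rw [aa, map_mul, hc, Matrix.trace_fin_two, Matrix.trace_fin_two]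
  simp only [Matrix.mul_apply, Fin.sum_univ_two, Matrix.of_apply, Matrix.cons_val',
    Matrix.cons_val_zero, Matrix.cons_val_one, Matrix.cons_val_fin_one]
  linear_combination (ρ g 0 0) * h1

include hc in
theorem ee_rep (g : G) : ee (fun g => (ρ g).trace) c g = ρ g 1 1 := by
  have h1 : (2 : k) * ⅟2 = 1 := mul_invOf_self 2
  rw [ee, map_mul, hc, Matrix.trace_fin_two, Matrix.trace_fin_two]
  simp only [Matrix.mul_apply, Fin.sum_univ_two, Matrix.of_apply, Matrix.cons_val',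
    Matrix.cons_val_zero, Matrix.cons_val_one, Matrix.cons_val_fin_one]
  linear_combination (ρ g 1 1) * h1

include hc in
theorem bc_rep (g h : G) : bc (fun g => (ρ g).trace) c g h = ρ g 0 1 * ρ h 1 0 := by
  have h1 : (2 : k) * ⅟2 = 1 := mul_invOf_self 2
  rw [bc, aa_rep hc, aa_rep hc, map_mul, map_mul, map_mul, hc]
  simp only [Matrix.mul_apply, Fin.sum_univ_two, Matrix.of_apply, Matrix.cons_val',
    Matrix.cons_val_zero, Matrix.cons_val_one, Matrix.cons_val_fin_one]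
  linear_combination (ρ g 0 1 * ρ h 1 0) * h1

include hc in
theorem RR_rep {g₀ k₀ : G} (hg₀ : ρ g₀ 0 1 = 1) (u : kˣ)
    (hu : (u : k) = bc (fun g => (ρ g).trace) c g₀ k₀) (g : G) :
    RR (fun g => (ρ g).trace) c g₀ k₀ u g = ρ g := by
  rw [bc_rep hc, hg₀, one_mul] at hu
  ext i j
  fin_cases i <;> fin_cases j
  · exact aa_rep hc g
  · change (↑u⁻¹ : k) * bc (fun g => (ρ g).trace) c g k₀ = ρ g 0 1
    rw [bc_rep hc, ← hu, mul_comm (ρ g 0 1), ← mul_assoc, Units.inv_mul, one_mul]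
  · change bc (fun g => (ρ g).trace) c g₀ g = ρ g 1 0
    rw [bc_rep hc, hg₀, one_mul]
  · exact ee_rep hc g

end rep

variable {O T Y : Type} [CommRing O] [IsLocalRing O] [IsNoetherianRing O]
  [IsAdicComplete (maximalIdeal O) O] [CommRing T] [Algebra O T] [AddCommGroup Y] [Module O Y]
  [Module.Finite O Y] [Module.Free O Y] [Nontrivial Y] {p : ℕ} [hp : Fact p.Prime]
  {hpO : (p : O) ∈ maximalIdeal O}
  {S : Set ℕ} {ρb : 𝒢 →* M2 (ResidueField O)} {ψ : T →ₐ[O] Module.End O Y}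
  {θ : T →ₐ[O] ResidueField O} {ρ : GQ →* Module.End O Y}

theorem irrAt_rep (h2 : (2 : ResidueField O) ≠ 0) (hc : ρb complexConjugation = !![1, 0; 0, -1])
    {g₀ k₀ : 𝒢} (hg₀ : ρb g₀ 0 1 = 1) (hk₀ : ρb k₀ 1 0 ≠ 0) :
    HG.IrrAt (fun g => (ρb g).trace) g₀ k₀ := by
  change _ ≠ (0 : ResidueField O)
  have h4 : (4 : ResidueField O) * ρb k₀ 1 0 ≠ 0 := by
    refine mul_ne_zero ?_ hk₀
    have : (4 : ResidueField O) = 2 * 2 := by norm_num
    rw [this]
    exact mul_ne_zero h2 h2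
  intro h
  apply h4
  simp only [map_mul, hc, Matrix.trace_fin_two, Matrix.mul_apply, Fin.sum_univ_two,
    Matrix.of_apply, Matrix.cons_val', Matrix.cons_val_zero, Matrix.cons_val_one,
    Matrix.cons_val_fin_one] at h
  linear_combination h - (4 * ρb k₀ 1 0) * hg₀

variable (h : HG hpO S (fun g => (ρb g).trace) ψ θ ρ) [Invertible (2 : O)] {g₀ k₀ : 𝒢}
  (hgk : HG.IrrAt (fun g => (ρb g).trace) g₀ k₀)

theorem redR_eq (hc : ρb complexConjugation = !![1, 0; 0, -1]) (hg₀ : ρb g₀ 0 1 = 1) :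
    redR (h.R hgk) h.theta.toRingHom = ρb := by
  letI : Invertible (2 : ResidueField O) :=
    (Invertible.map (residue O) 2).copy 2 (by rw [map_ofNat])
  refine MonoidHom.ext fun g => ?_
  have h1 : (fun g => h.theta.toRingHom (h.tt g)) = fun g => (ρb g).trace :=
    funext fun g => h.theta_tt g
  let u : (ResidueField O)ˣ := Units.map (h.theta.toRingHom : h.TT →* ResidueField O) (h.uu hgk)
  have hu : (u : ResidueField O) = bc (fun g => (ρb g).trace) complexConjugation g₀ k₀ := by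
    change h.theta.toRingHom (h.uu hgk : h.TT) = _
    rw [h.uu_eq]
    have := FlT.map_bc h.theta.toRingHom h.tt complexConjugation g₀ k₀
    refine this.trans ?_
    rw [h1]
  have h2 := RR_rep hc hg₀ u hu g
  rw [← h2]
  ext i j
  have h3 := FlT.map_RR h.theta.toRingHom h.tt complexConjugation g₀ k₀ (h.uu hgk) g i j
  rw [h1] at h3
  exact h3

theorem ker_theta : RingHom.ker h.theta.toRingHom = maximalIdeal h.TT := by
  ext a
  rw [RingHom.mem_ker]
  exact h.theta_eq_zero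

section der

variable {I : Ideal h.TT} {D : h.TT → ResidueField O}
  (hD : IsDer h.theta.toRingHom (Set.range (algebraMap O h.TT)) I D)

include hD in
theorem map_D_congr (hpI : (p : h.TT) ∈ I) {X X' : Matrix (Fin 2) (Fin 2) h.TT}
    (hX : ∀ i j, X i j - X' i j ∈ Ideal.span {(p : h.TT)}) : X.map D = X'.map D := by
  ext i j
  rw [Matrix.map_apply, Matrix.map_apply]
  have h1 := hD.add (X i j - X' i j) (X' i j)
  rw [sub_add_cancel] at h1
  rw [h1, hD.zeroI _ ((Ideal.span_singleton_le_iff_mem I).2 hpI (hX i j)), zero_add]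

include hD in
theorem map_D_one : (1 : Matrix (Fin 2) (Fin 2) h.TT).map D = 0 := by
  ext i j
  rw [Matrix.map_apply, Matrix.one_apply]
  split_ifs
  · exact hD.one
  · exact hD.zero

include hD in
/-- the tangent cocycles are locally constant -/
theorem cD_lc (hpI : (p : h.TT) ∈ I) : ∃ F : IntermediateField ℚ Ω, FiniteDimensional ℚ F ∧
    ∀ σ : 𝒢, (∀ x ∈ F, σ x = x) → cD (h.R hgk) h.theta.toRingHom D σ = 0 := by
  obtain ⟨L, hL, h1⟩ := h.R_cont hgk 1
  refine ⟨L, hL, fun σ hσ => ?_⟩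
  have h2 : (h.R hgk σ).map D = 0 := by
    rw [map_D_congr h hD hpI (X' := 1) (fun i j => ?_), map_D_one h hD]
    have := h1 σ hσ i j
    rwa [pow_one] at this
  rw [cD, h2, zero_mul]

include hD in
theorem cD_tr (σ : 𝒢) : (cD (h.R hgk) h.theta.toRingHom D σ).trace = 0 := by
  refine cD_trace hD (hD.zeroO _ ?_)
  rw [h.R_det]
  exact ⟨_, rfl⟩

include hD in
theorem cD_of_one {σ : 𝒢} (hσ : h.R hgk σ = 1) : cD (h.R hgk) h.theta.toRingHom D σ = 0 := by
  rw [cD, hσ, map_D_one h hD, zero_mul]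

/-- the tangent cocycle -/
def cS (σ : 𝒢) : sl (ResidueField O) := ⟨cD (h.R hgk) h.theta.toRingHom D σ,
  mem_sl.2 (cD_tr h hgk hD σ)⟩

theorem cS_mul (hred : redR (h.R hgk) h.theta.toRingHom = ρb) (σ τ : 𝒢) :
    cS h hgk hD (σ * τ) = cS h hgk hD σ + adR ρb σ (cS h hgk hD τ) := by
  apply Subtype.ext
  have h1 := cD_mul (R := h.R hgk) hD σ τ
  rw [hred] at h1
  exact h1

end der

/-- the residual elements -/
theorem exists_O_theta (x : ResidueField O) : ∃ a ∈ (algebraMap O h.TT).range,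
    h.theta.toRingHom a = x := by
  obtain ⟨a, rfl⟩ := IsLocalRing.residue_surjective x
  exact ⟨algebraMap O h.TT a, ⟨a, rfl⟩, h.theta.commutes a⟩

theorem theta_O {a : h.TT} (ha : a ∈ (algebraMap O h.TT).range) (h0 : h.theta.toRingHom a = 0) :
    ∃ b ∈ maximalIdeal O, algebraMap O h.TT b = a := by
  obtain ⟨b, rfl⟩ := ha
  refine ⟨b, ?_, rfl⟩
  rw [← IsLocalRing.residue_eq_zero_iff]
  rw [← h0]
  exact (h.theta.commutes b).symm

theorem gen_TT (t : h.TT) : t ∈ Subring.closure (((algebraMap O h.TT).range : Set h.TT) ∪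
    Set.range fun σ => (h.R hgk σ).trace) := by
  have h1 : t ∈ Algebra.adjoin O (Set.range h.tt) := by rw [h.adjoin_tt]; trivial
  rw [← Subalgebra.mem_toSubring, Algebra.adjoin_eq_ring_closure] at h1
  have h2 : Set.range h.tt = Set.range fun σ => (h.R hgk σ).trace := by
    congr 1
    funext σ
    exact (h.R_trace hgk σ).symm
  rw [h2] at h1
  exact h1

/-- elements acting trivially -/
theorem R_eq_one {σ : 𝒢} (hσ : ρ σ = 1) : h.R hgk σ = 1 := by
  refine mact_inj (M := h.MQ) (fun a ha => h.faithful_MQ hgk ha) fun m => ?_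
  obtain ⟨y, rfl⟩ := (h.EE hgk).surjective m
  rw [← h.EE_rho, hσ, Module.End.one_apply, mact_one]

section level

variable {N : ℕ} [NeZero N] (ι : AlgebraicClosure ℚ →+* ℂ)
  {H : Subgroup (ZMod N)ˣ} [hH : Fact ((-1 : (ZMod N)ˣ) ∈ H)]

theorem rhoO_inertia (hpO : (p : O) ∈ maximalIdeal O) {l : ℕ} (hl : l.Prime) (hlN : ¬ l ∣ N)
    (hlp : l ≠ p) {A : ValuationSubring Ω} (hA : A.LiesOverPrime l) {σ : 𝒢}
    (hσ : σ ∈ A.inertiaSubgroupIn ℚ) : rhoO (Γ := GH N H) (O := O) ι hpO σ = LinearMap.id := by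
  refine Apx.ext' hpO (fun n => apx_rhoO ι hpO σ n) (fun n => Apx.id) fun n ξ => ?_
  have hm : ¬ l ∣ p ^ n := fun h => hlp
    ((Nat.prime_dvd_prime_iff_eq hl hp.out).1 (hl.dvd_of_dvd_pow h))
  exact KumG.rhoF_inertia ι (Cov.hasGoodRedH N H (p ^ n) l hl hlN hm A hA) hσ ξ

theorem rhoT_inertia (hpO : (p : O) ∈ maximalIdeal O) {l : ℕ} (hl : l.Prime) (hlN : ¬ l ∣ N)
    (hlp : l ≠ p) {A : ValuationSubring Ω} (hA : A.LiesOverPrime l) {σ : 𝒢}
    (hσ : σ ∈ A.inertiaSubgroupIn ℚ) : rhoT (O := O) hpO ι N H σ = 1 := by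
  have h1 : cycU N σ = 1 := cycU_inertia ((Nat.Prime.coprime_iff_not_dvd hl).2 hlN) hA hσ
  have h2 : twd N H σ = 1 := by
    rw [twd_apply, h1, QuotientGroup.mk_one, one_pow]
  rw [rhoT_apply, h2, map_one, one_mul]
  exact rhoO_inertia ι hpO hl hlN hlp hA hσ

theorem rhoY_inertia (hpO : (p : O) ∈ maximalIdeal O) {S : Set ℕ}
    {hNS : ∀ l, l.Prime → l ∣ N → l ∈ S} {e : TS O S} {l : ℕ} (hl : l.Prime) (hlN : ¬ l ∣ N)
    (hlp : l ≠ p) {A : ValuationSubring Ω} (hA : A.LiesOverPrime l) {σ : 𝒢}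
    (hσ : σ ∈ A.inertiaSubgroupIn ℚ) : rhoY (O := O) hpO ι H hNS e σ = 1 := by
  refine LinearMap.ext fun y => Subtype.ext ?_
  change rhoT (O := O) hpO ι N H σ (y : XH O N H) = y
  rw [rhoT_inertia ι hpO hl hlN hlp hA hσ]
  rfl

end level

end Fermat.Agent.Sel
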