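import Fermat.Agent.Sel.E2C
import Fermat.Agent.Sel.Lam

/-!
# The data at a prime dividing the level exactly once
-/

set_option autoImplicit false
set_option linter.unusedSectionVars false
set_option linter.style.haveILetI false

noncomputable section

namespace Fermat.Agent.Sel

open Matrix IsLocalRing Fermat.Agent.GalRep Fermat.Agent.TW Fermat.Agent.Places Fermat.Agent.Flat
open Fermat.Agent.Cheb

local notation "Ω" => AlgebraicClosure ℚ

/-- powers of a unipotent matrix -/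
theorem pow_unip {T : Type} [CommRing T] {X : Matrix (Fin 2) (Fin 2) T}
    (h : (X - 1) * (X - 1) = 0) (n : ℕ) : X ^ n - 1 = (n : T) • (X - 1) := by
  induction n with
  | zero => simp
  | succ n ih =>
    have h1 : X ^ n = 1 + (n : T) • (X - 1) := by rw [← ih]; abel
    have h2 : X = 1 + (X - 1) := by abel
    rw [pow_succ, h1]
    nth_rewrite 2 [h2]
    rw [add_mul, mul_add, mul_add, one_mul, one_mul, smul_mul_assoc, smul_mul_assoc, h, smul_zero,
      add_zero, mul_one, Nat.cast_succ, add_smul, one_smul]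
    abel

variable {O T Y : Type} [CommRing O] [IsDomain O] [IsLocalRing O] [IsNoetherianRing O]
  [IsAdicComplete (maximalIdeal O) O] [CommRing T] [Algebra O T] [AddCommGroup Y] [Module O Y]
  [Module.Finite O Y] [Module.Free O Y] [Nontrivial Y] {p : ℕ} [hp : Fact p.Prime]
  {hpO : (p : O) ∈ maximalIdeal O} {S : Set ℕ} {ρb : GQ →* M2 (ResidueField O)}
  {ψ : T →ₐ[O] Module.End O Y} {θ : T →ₐ[O] ResidueField O} {ρ : GQ →* Module.End O Y}
  (h : HG hpO S (fun g => (ρb g).trace) ψ θ ρ) [Invertible (2 : O)] {g₀ k₀ : GQ}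
  (hgk : HG.IrrAt (fun g => (ρb g).trace) g₀ k₀)

/-- The matrices attached to a prime `q` dividing the level exactly once. -/
structure QDat (q : ℕ) (A : ValuationSubring Ω) (N Ψ : Matrix (Fin 2) (Fin 2) h.TT) : Prop where
  hN : ∀ a b, N a b ∈ maximalIdeal h.TT
  hΨ : ∀ a b, Ψ a b ∈ maximalIdeal h.TT
  trN : N.trace = 0
  sqN : N * N = 0
  e2 : ∀ (m : ℕ) (x : h.MQ), (∀ a b, ∃ z : h.MQ, N a b • x = ((p : O) ^ m) • z) →
    ∀ a b, ∃ z : h.MQ, Ψ a b • x = ((p : O) ^ m) • z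
  pw : ∀ e : ℕ, ¬ p ^ (e + 1) ∣ q - 1 → (p : h.TT) ^ e ∈ Ideal.span {x | ∃ a b, x = Ψ a b}
  van : ∀ (I : Ideal h.TT) (D : h.TT → ResidueField O)
    (_ : IsDer h.theta.toRingHom (Set.range (algebraMap O h.TT)) I D), (p : h.TT) ∈ I →
    (∀ a b, N a b ∈ I) → (∀ a b, Ψ a b ∈ I) → ∀ g ∈ A.decompositionSubgroup ℚ,
    cD (h.R hgk) h.theta.toRingHom D g = 0

theorem map_D_zero {I : Ideal h.TT} {D : h.TT → ResidueField O}
    (hD : IsDer h.theta.toRingHom (Set.range (algebraMap O h.TT)) I D)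
    {X Z : Matrix (Fin 2) (Fin 2) h.TT} {c : O} (hZ : ∀ i j, Z i j ∈ I)
    (hX : X = Z + algebraMap O h.TT c • 1) : X.map D = 0 := by
  ext i j
  rw [Matrix.map_apply, hX, Matrix.add_apply, hD.add, hD.zeroI _ (hZ i j), zero_add,
    Matrix.smul_apply, smul_eq_mul, Matrix.one_apply, Matrix.zero_apply]
  split_ifs
  · rw [mul_one]
    exact hD.zeroO _ ⟨c, rfl⟩
  · rw [mul_zero]
    exact hD.zero

include hgk in
/-- **The data at `q`.** -/
theorem exists_QDat {q : ℕ} [hq : Fact q.Prime] (hpq : p ≠ q) {A : ValuationSubring Ω}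
    (hA : A.LiesOverPrime q) {Φ : GQ} (hΦ : A.IsFrobeniusAt Φ q) (E : E2P p ψ ρ q A Φ)
    (hmO : maximalIdeal O = Ideal.span {(p : O)}) (hp0 : (p : O) ≠ 0)
    (h2q : ((2 * q : ℕ) : ResidueField O) ≠ 0)
    (hI : ∀ σ ∈ A.inertiaSubgroupIn ℚ, ρb σ = 1)
    (hc : ρb complexConjugation = !![1, 0; 0, -1]) (hg₀ : ρb g₀ 0 1 = 1) :
    (∃ N Ψ, QDat h hgk q A N Ψ) ∧ ∃ a : ResidueField O, ρb Φ = a • 1 := by
  have hres : ∀ σ ∈ A.inertiaSubgroupIn ℚ, MI (maximalIdeal h.TT) (h.R hgk σ - 1) :=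
    fun σ hσ => h.R_res hgk fun g => by
      rw [map_mul, hI σ hσ, mul_one]
  obtain ⟨ε, hε, hε1, hε2⟩ := e2_concl h hgk E hmO hp0 h2q hres
  have hred := redR_eq h hgk hc hg₀
  obtain ⟨σ₀, hσ₀, hgen⟩ := exists_gen_R (R := h.R hgk) hp.out hpq h.p_mem (h.R_cont hgk) hA hres
  have hsq : (h.R hgk σ₀ - 1) * (h.R hgk σ₀ - 1) = 0 := R_sq_zero h hgk (E.sq σ₀ hσ₀)
  have hεε : ε * ε = 1 := by rcases hε with rfl | rfl <;> ring
  set N := h.R hgk σ₀ - 1 with hNdef
  set Ψ := h.R hgk Φ + algebraMap O h.TT (q * ε) • 1 with hΨdef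
  have hNm : ∀ a b, N a b ∈ maximalIdeal h.TT := fun a b => hres σ₀ hσ₀ a b
  have hRΦ : h.R hgk Φ = Ψ + algebraMap O h.TT (-(q * ε)) • 1 := by
    rw [hΨdef, map_neg, neg_smul, add_neg_cancel_right]
  have htr : N.trace = 0 := by
    refine trace_zero_of_sq hsq ?_ ?_
    · rw [h.R_det, cycO_inertia hpO hq.out (Ne.symm hpq) hA hσ₀, map_one]
    · have h1 : h.R hgk σ₀ 0 0 = 1 + N 0 0 := by
        rw [hNdef, Matrix.sub_apply, Matrix.one_apply_eq]; ring
      rw [h1]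
      by_contra hnu
      have h2 : 1 + N 0 0 ∈ maximalIdeal h.TT := (IsLocalRing.mem_maximalIdeal _).2 hnu
      have h3 := Ideal.sub_mem _ h2 (hNm 0 0)
      rw [add_sub_cancel_right] at h3
      exact (Ideal.ne_top_iff_one _).1 (maximalIdeal.isMaximal h.TT).ne_top h3
  refine ⟨⟨N, Ψ, ⟨hNm, fun a b => ?_, htr, hsq, fun m x hx => ?_, fun e he => ?_,
    fun I D hD hpI hNI hΨI g hg => ?_⟩⟩, residue O (-(q : O) * ε), ?_⟩
  · have e1 : h.theta (algebraMap O h.TT (q * ε)) = residue O (q * ε) := h.theta.commutes _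
    have e2 : h.theta ((1 : Matrix (Fin 2) (Fin 2) h.TT) a b) =
        (1 : M2 (ResidueField O)) a b := by
      rw [Matrix.one_apply, Matrix.one_apply]
      split_ifs
      · rw [map_one]
      · rw [map_zero]
    have e3 : Ψ a b = h.R hgk Φ a b +
        algebraMap O h.TT (q * ε) * (1 : Matrix (Fin 2) (Fin 2) h.TT) a b := rfl
    have e4 : residue O (-(q : O) * ε) = -residue O (q * ε) := by
      rw [← map_neg]
      congr 1
      ring
    rw [← h.theta_eq_zero, e3, map_add h.theta, hε1, map_mul h.theta, e1, e2, e4]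
    ring
  · refine hε2 m x fun σ hσ a b => ?_
    obtain ⟨n, hn⟩ := hgen m σ hσ
    obtain ⟨c, hc⟩ := Ideal.mem_span_singleton.1 (hn a b)
    obtain ⟨z, hz⟩ := hx a b
    have e1 : (h.R hgk σ - 1) a b = (n : h.TT) * N a b + (p : h.TT) ^ m * c := by
      have e2 : (h.R hgk σ - 1) a b = (h.R hgk σ - h.R hgk (σ₀ ^ n)) a b +
          (h.R hgk σ₀ ^ n - 1) a b := by
        rw [← Matrix.add_apply, ← map_pow, sub_add_sub_cancel]
      rw [e2, hc, pow_unip hsq, Matrix.smul_apply, smul_eq_mul, add_comm]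
    refine ⟨(n : h.TT) • z + c • x, ?_⟩
    have e3 : ∀ y : h.MQ, (p : h.TT) ^ m • y = (p : O) ^ m • y := fun y => by
      rw [← algebraMap_smul h.TT ((p : O) ^ m) y, map_pow, map_natCast]
    rw [e1, add_smul, mul_smul, hz, mul_smul, ← e3, ← e3, smul_add, smul_comm]
  · -- the determinant of Frobenius
    have hq1 : 1 ≤ q := hq.out.one_le
    set J := Ideal.span {x | ∃ a b, x = Ψ a b} with hJ
    have hΨJ : ∀ a b, Ψ a b ∈ J := fun a b => Ideal.subset_span ⟨a, b, rfl⟩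
    have hdet : (q : h.TT) = (h.R hgk Φ).det := by
      rw [h.R_det, cycO_frob hpO hq.out (Ne.symm hpq) hA hΦ, map_natCast]
    have h1 : (q : h.TT) * (q - 1 : ℕ) ∈ J := by
      have e1 : (q : h.TT) * (q - 1 : ℕ) = -(Ψ 0 0 * Ψ 1 1 - Ψ 0 1 * Ψ 1 0) +
          algebraMap O h.TT (q * ε) * Ψ 0 0 + algebraMap O h.TT (q * ε) * Ψ 1 1 := by
        have e2 : (algebraMap O h.TT ε) * (algebraMap O h.TT ε) = 1 := by
          rw [← map_mul, hεε, map_one]
        have e3 := hdet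
        rw [hRΦ, Matrix.det_fin_two] at e3
        simp only [Matrix.add_apply, Matrix.smul_apply, Matrix.one_apply_eq, smul_eq_mul, mul_one,
          ne_eq, zero_ne_one, not_false_eq_true, Matrix.one_apply_ne, mul_zero, add_zero,
          one_ne_zero, map_neg, map_mul, map_natCast] at e3
        rw [Nat.cast_sub hq1, Nat.cast_one, map_mul, map_natCast]
        linear_combination -e3 - (q : h.TT) ^ 2 * e2
      rw [e1]
      exact Ideal.add_mem _ (Ideal.add_mem _ (neg_mem (Ideal.sub_mem _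
        (Ideal.mul_mem_right _ _ (hΨJ 0 0)) (Ideal.mul_mem_right _ _ (hΨJ 0 1))))
        (Ideal.mul_mem_left _ _ (hΨJ 0 0))) (Ideal.mul_mem_left _ _ (hΨJ 1 1))
    have hunit : ∀ n : ℕ, ¬ p ∣ n → IsUnit (n : h.TT) := by
      intro n hn
      by_contra hnu
      have h2 : (n : h.TT) ∈ maximalIdeal h.TT := (IsLocalRing.mem_maximalIdeal _).2 hnu
      have h3 : IsCoprime (n : ℤ) (p : ℤ) := by
        rw [Nat.isCoprime_iff_coprime]
        exact ((Nat.Prime.coprime_iff_not_dvd hp.out).2 hn).symm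
      obtain ⟨u, v, huv⟩ := h3
      have h4 := congrArg (Int.cast : ℤ → h.TT) huv
      push_cast at h4
      apply (Ideal.ne_top_iff_one _).1 (maximalIdeal.isMaximal h.TT).ne_top
      rw [← h4]
      exact Ideal.add_mem _ (Ideal.mul_mem_left _ _ h2) (Ideal.mul_mem_left _ _ h.p_mem)
    have h2 : ((q - 1 : ℕ) : h.TT) ∈ J := by
      obtain ⟨u, hu⟩ := hunit q (fun hd => hpq ((Nat.prime_dvd_prime_iff_eq hp.out hq.out).1 hd))
      rw [← hu] at h1
      exact (Ideal.unit_mul_mem_iff_mem J u.isUnit).1 h1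
    have hne : q - 1 ≠ 0 := by have := hq.out.two_le; omega
    obtain ⟨a, c, hc1, hc2⟩ := Nat.exists_eq_pow_mul_and_not_dvd hne p hp.out.ne_one
    have hae : a ≤ e := by
      by_contra hlt
      apply he
      rw [hc2]
      exact (pow_dvd_pow p (by omega)).mul_right _
    rw [hc2, Nat.cast_mul, Nat.cast_pow] at h2
    obtain ⟨u, hu⟩ := hunit c hc1
    rw [← hu] at h2
    have h3 := (Ideal.mul_unit_mem_iff_mem J u.isUnit).1 h2
    obtain ⟨b, rfl⟩ := Nat.exists_eq_add_of_le hae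
    rw [pow_add]
    exact Ideal.mul_mem_right _ _ h3
  · refine cD_dec_zero h hgk hD hpI hq.out hA hΦ (σ₀ := σ₀) (fun σ hσ => hgen 1 σ hσ) ?_ ?_ hg
    · rw [cD, map_D_zero h hD hΨI hRΦ, zero_mul]
    · have e1 : h.R hgk σ₀ = N + algebraMap O h.TT 1 • 1 := by
        rw [hNdef, map_one, one_smul, sub_add_cancel]
      rw [cD, map_D_zero h hD hNI e1, zero_mul]
  · rw [← hred]
    ext i j
    rw [redR_apply, Matrix.smul_apply, smul_eq_mul]
    exact hε1 i j

end Fermat.Agent.Sel
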