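import Fermat.Agent.Sel.Kill

/-!
# Irreducible representations over `𝔽_p` with a transvection contain `SL₂(𝔽_p)`
-/

set_option autoImplicit false
set_option linter.unusedSectionVars false

noncomputable section

namespace Fermat.Agent.Sel

open Matrix

variable {F : Type} [Field F]

/-- elementary upper triangular matrices -/
def ut (t : F) : M2 F := !![1, t; 0, 1]

/-- elementary lower triangular matrices -/
def lo (t : F) : M2 F := !![1, 0; t, 1]

theorem ut_add (s t : F) : ut (s + t) = ut s * ut t := by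
  ext i j
  fin_cases i <;> fin_cases j <;> simp [ut, Matrix.mul_apply, Fin.sum_univ_two, add_comm]

theorem lo_add (s t : F) : lo (s + t) = lo s * lo t := by
  ext i j
  fin_cases i <;> fin_cases j <;> simp [lo, Matrix.mul_apply, Fin.sum_univ_two]

theorem ut_zero : ut (0 : F) = 1 := by
  ext i j
  fin_cases i <;> fin_cases j <;> simp [ut]

theorem lo_zero : lo (0 : F) = 1 := by
  ext i j
  fin_cases i <;> fin_cases j <;> simp [lo]

theorem ut_nat (n : ℕ) (t : F) : ut (n * t) = ut t ^ n := by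
  induction n with
  | zero => rw [Nat.cast_zero, zero_mul, ut_zero, pow_zero]
  | succ n ih => rw [Nat.cast_succ, add_mul, one_mul, ut_add, ih, pow_succ]

theorem lo_nat (n : ℕ) (t : F) : lo (n * t) = lo t ^ n := by
  induction n with
  | zero => rw [Nat.cast_zero, zero_mul, lo_zero, pow_zero]
  | succ n ih => rw [Nat.cast_succ, add_mul, one_mul, lo_add, ih, pow_succ]

/-- matrices of determinant one with nonzero lower left entry -/
theorem decomp_of_ne {g : M2 F} (hg : g.det = 1) (hc : g 1 0 ≠ 0) :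
    g = ut ((g 0 0 - 1) / g 1 0) * lo (g 1 0) * ut ((g 1 1 - 1) / g 1 0) := by
  rw [Matrix.det_fin_two] at hg
  ext i j
  fin_cases i <;> fin_cases j <;> simp [ut, lo, Matrix.mul_apply, Fin.sum_univ_two] <;>
    field_simp <;> first | ring1 | linear_combination hg | linear_combination -hg

/-- matrices of determinant one are products of elementary ones -/
theorem mem_of_elem (S : Submonoid (M2 F)) (hu : ∀ t, ut t ∈ S) (hl : ∀ t, lo t ∈ S) {g : M2 F}
    (hg : g.det = 1) : g ∈ S := by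
  by_cases hc : g 1 0 = 0
  · have ha : g 0 0 ≠ 0 := by
      intro h
      rw [Matrix.det_fin_two, hc, h] at hg
      simp at hg
    have h1 : (lo 1 * g : M2 F) 1 0 ≠ 0 := by
      simpa [lo, Matrix.mul_apply, Fin.sum_univ_two, hc] using ha
    have h2 : (lo 1 * g : M2 F).det = 1 := by
      rw [Matrix.det_mul, hg, mul_one]
      simp [lo, Matrix.det_fin_two]
    have h3 : lo 1 * g ∈ S := by
      rw [decomp_of_ne h2 h1]
      exact S.mul_mem (S.mul_mem (hu _) (hl _)) (hu _)
    have h4 : g = lo (-1) * (lo 1 * g) := by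
      rw [← mul_assoc, ← lo_add, neg_add_cancel, lo_zero, one_mul]
    rw [h4]
    exact S.mul_mem (hl _) h3
  · rw [decomp_of_ne hg hc]
    exact S.mul_mem (S.mul_mem (hu _) (hl _)) (hu _)

variable {p : ℕ} [Fact p.Prime] {G : Type*} [Group G]

/-- **Transvections generate.** -/
theorem sl2_of_irr (ρ : G →* M2 (ZMod p))
    (hirr : ∀ v : Fin 2 → ZMod p, v ≠ 0 → ∃ σ, ∀ t : ZMod p, (ρ σ).mulVec v ≠ t • v)
    (N : Subgroup G) [N.Normal] {σ₀ : G} (hσ₀ : σ₀ ∈ N)
    (hu : (ρ σ₀ - 1) * (ρ σ₀ - 1) = 0) (hne : ρ σ₀ ≠ 1) {g : M2 (ZMod p)} (hg : g.det = 1) :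
    ∃ σ ∈ N, ρ σ = g := by
  obtain ⟨N0, hN0⟩ : ∃ N0, N0 = ρ σ₀ - 1 := ⟨_, rfl⟩
  rw [← hN0] at hu
  have hN0ne : N0 ≠ 0 := by rw [hN0]; exact sub_ne_zero.2 hne
  obtain ⟨v, hv⟩ : ∃ v, N0.mulVec v ≠ 0 := by
    by_contra hcon
    push Not at hcon
    apply hN0ne
    ext i j
    have := congrFun (hcon (Pi.single j 1)) i
    simpa using this
  set e := N0.mulVec v with he
  have hNe : N0.mulVec e = 0 := by rw [he, Matrix.mulVec_mulVec, hu, Matrix.zero_mulVec]
  obtain ⟨τ, hτ⟩ := hirr e hv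
  set f := (ρ τ).mulVec e with hf
  -- the conjugate transvection
  have hτi : ρ τ * ρ τ⁻¹ = 1 := by rw [← map_mul, mul_inv_cancel, map_one]
  have hτi' : ρ τ⁻¹ * ρ τ = 1 := by rw [← map_mul, inv_mul_cancel, map_one]
  set N1 := ρ τ * N0 * ρ τ⁻¹ with hN1
  have hN1' : ρ (τ * σ₀ * τ⁻¹) = 1 + N1 := by
    rw [map_mul, map_mul, hN1, hN0, mul_sub, sub_mul, mul_one, hτi]
    abel
  have hN1f : N1.mulVec f = 0 := by
    rw [hN1, hf, Matrix.mulVec_mulVec, mul_assoc, mul_assoc, hτi', mul_one,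
      ← Matrix.mulVec_mulVec, hNe, Matrix.mulVec_zero]
  have hN1sq : N1 * N1 = 0 := by
    calc N1 * N1 = ρ τ * (N0 * (ρ τ⁻¹ * ρ τ) * N0) * ρ τ⁻¹ := by rw [hN1]; noncomm_ring
      _ = 0 := by rw [hτi', mul_one, hu, mul_zero, zero_mul]
  -- change of basis
  let P : M2 (ZMod p) := !![e 0, f 0; e 1, f 1]
  have hP : P.det ≠ 0 := by
    intro h
    have h1 : e 0 * f 1 - f 0 * e 1 = 0 := by simpa [P, Matrix.det_fin_two] using h
    rcases eq_or_ne (e 0) 0 with h0 | h0
    · have he1 : e 1 ≠ 0 := by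
        intro h'
        apply hv
        funext i
        fin_cases i
        · exact h0
        · exact h'
      apply hτ (f 1 / e 1)
      funext i
      have hf0 : f 0 = 0 := by
        rw [h0, zero_mul, zero_sub, neg_eq_zero] at h1
        exact (mul_eq_zero.1 h1).resolve_right he1
      fin_cases i
      · simp [h0, hf0]
      · simp [div_mul_cancel₀ _ he1]
    · apply hτ (f 0 / e 0)
      funext i
      fin_cases i
      · simp [div_mul_cancel₀ _ h0]
      · simp only [Fin.mk_one, Pi.smul_apply, smul_eq_mul]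
        field_simp
        linear_combination h1
  have hPu : IsUnit P.det := isUnit_iff_ne_zero.2 hP
  -- the matrices of the nilpotents
  have key : ∀ (X : M2 (ZMod p)), X * X = 0 → X.mulVec e = 0 → ∃ α, P⁻¹ * X * P = !![0, α; 0, 0] := by
    intro X hX hXe
    set Y := P⁻¹ * X * P with hY
    have hYX : P * Y = X * P := by
      rw [hY, ← mul_assoc, ← mul_assoc, Matrix.mul_nonsing_inv _ hPu, one_mul]
    have hY0 : ∀ i, Y i 0 = 0 := by
      have h1 : Y.mulVec (Pi.single 0 1) = 0 := by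
        have h2 : P.mulVec (Pi.single 0 1) = e := by
          funext i
          fin_cases i <;> simp [P, Matrix.mulVec_single]
        rw [hY, ← Matrix.mulVec_mulVec, h2, ← Matrix.mulVec_mulVec, hXe, Matrix.mulVec_zero]
      intro i
      have := congrFun h1 i
      simpa using this
    have hYY : Y * Y = 0 := by
      calc Y * Y = P⁻¹ * X * (P * P⁻¹) * X * P := by rw [hY]; noncomm_ring
        _ = P⁻¹ * (X * X) * P := by rw [Matrix.mul_nonsing_inv _ hPu]; noncomm_ring
        _ = 0 := by rw [hX, mul_zero, zero_mul]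
    have h11 : Y 1 1 = 0 := by
      have h1 := congrFun (congrFun hYY 1) 1
      rw [Matrix.mul_apply, Fin.sum_univ_two, hY0 1, zero_mul, zero_add] at h1
      exact mul_self_eq_zero.1 h1
    refine ⟨Y 0 1, ?_⟩
    ext i j
    fin_cases i <;> fin_cases j <;> simp [hY0, h11]
  have key' : ∀ (X : M2 (ZMod p)), X * X = 0 → X.mulVec f = 0 → ∃ α, P⁻¹ * X * P = !![0, 0; α, 0] := by
    intro X hX hXe
    set Y := P⁻¹ * X * P with hY
    have hY0 : ∀ i, Y i 1 = 0 := by
      have h1 : Y.mulVec (Pi.single 1 1) = 0 := by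
        have h2 : P.mulVec (Pi.single 1 1) = f := by
          funext i
          fin_cases i <;> simp [P, Matrix.mulVec_single]
        rw [hY, ← Matrix.mulVec_mulVec, h2, ← Matrix.mulVec_mulVec, hXe, Matrix.mulVec_zero]
      intro i
      have := congrFun h1 i
      simpa using this
    have hYY : Y * Y = 0 := by
      calc Y * Y = P⁻¹ * X * (P * P⁻¹) * X * P := by rw [hY]; noncomm_ring
        _ = P⁻¹ * (X * X) * P := by rw [Matrix.mul_nonsing_inv _ hPu]; noncomm_ring
        _ = 0 := by rw [hX, mul_zero, zero_mul]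
    have h00 : Y 0 0 = 0 := by
      have h1 := congrFun (congrFun hYY 0) 0
      rw [Matrix.mul_apply, Fin.sum_univ_two, hY0 0, zero_mul, add_zero] at h1
      exact mul_self_eq_zero.1 h1
    refine ⟨Y 1 0, ?_⟩
    ext i j
    fin_cases i <;> fin_cases j <;> simp [hY0, h00]
  obtain ⟨α, hα⟩ := key N0 hu hNe
  obtain ⟨β, hβ⟩ := key' N1 hN1sq hN1f
  have hα0 : α ≠ 0 := by
    rintro rfl
    apply hN0ne
    have h1 : N0 = P * (P⁻¹ * N0 * P) * P⁻¹ := by
      calc N0 = (P * P⁻¹) * N0 * (P * P⁻¹) := by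
            rw [Matrix.mul_nonsing_inv _ hPu, one_mul, mul_one]
        _ = _ := by noncomm_ring
    rw [h1, hα]
    have : (!![0, 0; 0, 0] : M2 (ZMod p)) = 0 := by
      ext i j; fin_cases i <;> fin_cases j <;> rfl
    rw [this, mul_zero, zero_mul]
  have hβ0 : β ≠ 0 := by
    rintro rfl
    have h1 : N1 = P * (P⁻¹ * N1 * P) * P⁻¹ := by
      calc N1 = (P * P⁻¹) * N1 * (P * P⁻¹) := by
            rw [Matrix.mul_nonsing_inv _ hPu, one_mul, mul_one]
        _ = _ := by noncomm_ring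
    have : (!![0, 0; 0, 0] : M2 (ZMod p)) = 0 := by
      ext i j; fin_cases i <;> fin_cases j <;> rfl
    rw [hβ, this, mul_zero, zero_mul] at h1
    apply hN0ne
    have h2 : N0 = ρ τ⁻¹ * N1 * ρ τ := by
      calc N0 = (ρ τ⁻¹ * ρ τ) * N0 * (ρ τ⁻¹ * ρ τ) := by rw [hτi', one_mul, mul_one]
        _ = _ := by rw [hN1]; noncomm_ring
    rw [h2, h1, mul_zero, zero_mul]
  -- the submonoid
  let S : Submonoid (M2 (ZMod p)) :=
    { carrier := {Y | ∃ σ ∈ N, ρ σ = P * Y * P⁻¹}
      one_mem' := ⟨1, N.one_mem, by rw [map_one, mul_one, Matrix.mul_nonsing_inv _ hPu]⟩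
      mul_mem' := by
        rintro Y Z ⟨σ, hσ, h1⟩ ⟨σ', hσ', h2⟩
        refine ⟨σ * σ', N.mul_mem hσ hσ', ?_⟩
        rw [map_mul, h1, h2]
        calc P * Y * P⁻¹ * (P * Z * P⁻¹) = P * Y * (P⁻¹ * P) * Z * P⁻¹ := by noncomm_ring
          _ = _ := by rw [Matrix.nonsing_inv_mul _ hPu]; noncomm_ring }
  have hconj : ∀ X : M2 (ZMod p), P * (P⁻¹ * X * P) * P⁻¹ = X := by
    intro X
    calc P * (P⁻¹ * X * P) * P⁻¹ = (P * P⁻¹) * X * (P * P⁻¹) := by noncomm_ring
      _ = X := by rw [Matrix.mul_nonsing_inv _ hPu, one_mul, mul_one]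
  have hu1 : ut α ∈ S := by
    refine ⟨σ₀, hσ₀, ?_⟩
    have h1 : ut α = 1 + P⁻¹ * N0 * P := by
      rw [hα]
      ext i j
      fin_cases i <;> fin_cases j <;> simp [ut]
    rw [h1, mul_add, add_mul, hconj, mul_one, Matrix.mul_nonsing_inv _ hPu, hN0]
    abel
  have hl1 : lo β ∈ S := by
    refine ⟨τ * σ₀ * τ⁻¹, Subgroup.Normal.conj_mem inferInstance _ hσ₀ τ, ?_⟩
    have h1 : lo β = 1 + P⁻¹ * N1 * P := by
      rw [hβ]
      ext i j
      fin_cases i <;> fin_cases j <;> simp [lo]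
    rw [h1, mul_add, add_mul, hconj, mul_one, Matrix.mul_nonsing_inv _ hPu, hN1']
  have hut : ∀ t, ut t ∈ S := by
    intro t
    have h1 : t = ((t / α).val : ℕ) * α := by
      rw [ZMod.natCast_zmod_val, div_mul_cancel₀ _ hα0]
    rw [h1, ut_nat]
    exact S.pow_mem hu1 _
  have hlt : ∀ t, lo t ∈ S := by
    intro t
    have h1 : t = ((t / β).val : ℕ) * β := by
      rw [ZMod.natCast_zmod_val, div_mul_cancel₀ _ hβ0]
    rw [h1, lo_nat]
    exact S.pow_mem hl1 _
  obtain ⟨σ, hσ, h1⟩ := mem_of_elem S hut hlt (g := P⁻¹ * g * P) (by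
    rw [Matrix.det_mul, Matrix.det_mul, hg, mul_one, ← Matrix.det_mul,
      Matrix.nonsing_inv_mul _ hPu, Matrix.det_one])
  exact ⟨σ, hσ, by rw [h1, hconj]⟩

end Fermat.Agent.Sel
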